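import Mathlib.RingTheory.MvPowerSeries.Equiv
import Mathlib.LinearAlgebra.Matrix.NonsingularInverse
import Fermat.Agent.Deformation.Tower
import Fermat.Agent.RT.Patch.SeriesComplete

/-!
# The ring of framings

Power series over a complete local ring in the entries of `s` matrices `y i`, the top left entry
of the first one removed.
-/

set_option autoImplicit false

noncomputable section

namespace Fermat.Agent.RT

open IsLocalRing Fermat.Agent.Deformation

/-- The framing variables: all entries except the top left one of the first place. -/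
abbrev FrameVar (s : ℕ) : Type :=
  {v : Fin s × Fin 2 × Fin 2 // ¬ ((v.1 : ℕ) = 0 ∧ v.2.1 = 0 ∧ v.2.2 = 0)}

theorem card_frameVar (s : ℕ) (hs : 0 < s) : Nat.card (FrameVar s) = 4 * s - 1 := by
  classical
  rw [Nat.card_eq_fintype_card, Fintype.card_subtype_compl]
  have h1 : Fintype.card {v : Fin s × Fin 2 × Fin 2 // (v.1 : ℕ) = 0 ∧ v.2.1 = 0 ∧ v.2.2 = 0} = 1 :=
    Fintype.card_eq_one_iff.mpr ⟨⟨(⟨0, hs⟩, 0, 0), rfl, rfl, rfl⟩, fun ⟨⟨i, a, c⟩, hi, ha, hc⟩ =>
      Subtype.ext (Prod.ext (Fin.ext hi) (Prod.ext ha hc))⟩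
  rw [h1, Fintype.card_prod, Fintype.card_prod, Fintype.card_fin, Fintype.card_fin]
  omega

/-- The framing matrices. -/
def frameY (R : Type) [CommRing R] (s : ℕ) (i : Fin s) :
    Matrix (Fin 2) (Fin 2) (MvPowerSeries (FrameVar s) R) :=
  Matrix.of fun a c =>
    if h : ¬ ((i : ℕ) = 0 ∧ a = 0 ∧ c = 0) then MvPowerSeries.X ⟨(i, a, c), h⟩ else 0

theorem frameY_apply_zero (R : Type) [CommRing R] (s : ℕ) (i : Fin s) (hi : (i : ℕ) = 0) :
    frameY R s i 0 0 = 0 := by
  simp [frameY, hi]

section

variable {σ : Type*} {R : Type*} [CommRing R] [IsLocalRing R]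

theorem mem_maximalIdeal_mvPowerSeries (f : MvPowerSeries σ R) :
    f ∈ maximalIdeal (MvPowerSeries σ R) ↔ MvPowerSeries.constantCoeff f ∈ maximalIdeal R := by
  rw [IsLocalRing.mem_maximalIdeal, IsLocalRing.mem_maximalIdeal, mem_nonunits_iff,
    mem_nonunits_iff, MvPowerSeries.isUnit_iff_constantCoeff]

instance isLocalHom_algebraMap_mvPowerSeries :
    IsLocalHom (algebraMap R (MvPowerSeries σ R)) :=
  ⟨fun c hc => by
    rw [MvPowerSeries.algebraMap_apply] at hc
    simpa using MvPowerSeries.isUnit_iff_constantCoeff.mp hc⟩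

theorem maximalIdeal_mvPowerSeries [Finite σ] :
    maximalIdeal (MvPowerSeries σ R) ≤
      varsIdeal σ R ⊔ (maximalIdeal R).map (algebraMap R (MvPowerSeries σ R)) := by
  intro f hf
  rw [← sub_add_cancel f (algebraMap R _ (MvPowerSeries.constantCoeff f))]
  exact Submodule.add_mem_sup (sub_algebraMap_constantCoeff_mem f)
    (Ideal.mem_map_of_mem _ ((mem_maximalIdeal_mvPowerSeries f).mp hf))

theorem residue_surjective_mvPowerSeries [Finite σ] {L : Type*} [CommRing L] [Algebra L R]
    (hres : Function.Surjective (residue R ∘ algebraMap L R)) :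
    Function.Surjective
      (residue (MvPowerSeries σ R) ∘ algebraMap L (MvPowerSeries σ R)) := by
  intro z
  obtain ⟨f, rfl⟩ := residue_surjective z
  obtain ⟨c, hc⟩ := hres (residue R (MvPowerSeries.constantCoeff f))
  refine ⟨c, ?_⟩
  rw [Function.comp_apply, ← sub_eq_zero, ← map_sub, residue_eq_zero_iff,
    mem_maximalIdeal_mvPowerSeries, map_sub, ← residue_eq_zero_iff, map_sub, sub_eq_zero,
    MvPowerSeries.algebraMap_apply, MvPowerSeries.constantCoeff_C]
  exact hc

end

variable (R : Type) [CommRing R] [IsLocalRing R] (s : ℕ)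

theorem frameY_mem (i : Fin s) (a c : Fin 2) :
    frameY R s i a c ∈ maximalIdeal (MvPowerSeries (FrameVar s) R) := by
  rw [mem_maximalIdeal_mvPowerSeries, frameY, Matrix.of_apply]
  split <;> simp

theorem maximalIdeal_frameRing_le :
    maximalIdeal (MvPowerSeries (FrameVar s) R) ≤
      Ideal.span (Set.range fun v : Fin s × Fin 2 × Fin 2 => frameY R s v.1 v.2.1 v.2.2) ⊔
        (maximalIdeal R).map (algebraMap R (MvPowerSeries (FrameVar s) R)) := by
  refine maximalIdeal_mvPowerSeries.trans (sup_le_sup_right (Ideal.span_mono ?_) _)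
  rintro _ ⟨⟨v, hv⟩, rfl⟩
  exact ⟨v, by simp only [frameY, Matrix.of_apply]; rw [dif_pos hv]⟩

theorem isUnit_one_add_frameY (i : Fin s) : IsUnit (1 + frameY R s i) := by
  rw [Matrix.isUnit_iff_isUnit_det]
  have h := fun a c => (mem_maximalIdeal_mvPowerSeries _).mp (frameY_mem R s i a c)
  rw [MvPowerSeries.isUnit_iff_constantCoeff, RingHom.map_det, ← IsLocalRing.notMem_maximalIdeal,
    ← residue_eq_zero_iff, RingHom.map_det]
  refine fun h0 => one_ne_zero (α := ResidueField R) ?_
  rw [← h0, RingHom.mapMatrix_apply, RingHom.mapMatrix_apply, Matrix.map_map]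
  refine (Matrix.det_one (R := ResidueField R) (n := Fin 2)).symm.trans (congrArg Matrix.det ?_)
  refine Matrix.ext fun a c => ?_
  have hac := (residue_eq_zero_iff _).mpr (h a c)
  rw [Matrix.map_apply, Matrix.add_apply, Function.comp_apply, map_add, map_add, hac, add_zero]
  by_cases hb : a = c <;> simp [hb, Matrix.one_apply]

/-- The framed conjugate of a matrix over `R` at the place `i`. -/
def frameConj (i : Fin s) (M : Matrix (Fin 2) (Fin 2) R) :
    Matrix (Fin 2) (Fin 2) (MvPowerSeries (FrameVar s) R) :=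
  (1 + frameY R s i) * M.map (algebraMap R (MvPowerSeries (FrameVar s) R)) * (1 + frameY R s i)⁻¹

theorem frameConj_mul (i : Fin s) (M : Matrix (Fin 2) (Fin 2) R) :
    frameConj R s i M * (1 + frameY R s i) =
      (1 + frameY R s i) * M.map (algebraMap R (MvPowerSeries (FrameVar s) R)) := by
  rw [frameConj, mul_assoc, Matrix.nonsing_inv_mul _
    ((Matrix.isUnit_iff_isUnit_det _).mp (isUnit_one_add_frameY R s i)), mul_one]

end Fermat.Agent.RT
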