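import Fermat.Agent.RT.Tangent
import Fermat.Agent.RT.TWIteration

/-!
# Tangent classes, Selmer spaces and the global Euler characteristic bound

The vocabulary of the presentation of a framed global deformation ring over the local ones:
tangent vectors with values in the residue field, the span of tangent cocycles that are trivial
on given local subgroups, and the Greenberg-Wiles bound in the form that is used.
-/

set_option autoImplicit false

noncomputable section

namespace Fermat.Agent.RT

open IsLocalRing Fermat.Agent.Deformation GaloisRep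
open Deformation (Mat)

/-- The `k`-valued tangent vectors at `π`: additive maps killing scalars and satisfying the
Leibniz rule. -/
def tanSpace (𝒪 : Type*) [CommRing 𝒪] {B : Type*} [CommRing B] [Algebra 𝒪 B] {k : Type*} [Field k]
    (π : B →+* k) : Submodule k (B → k) where
  carrier := {δ | (∀ a b, δ (a + b) = δ a + δ b) ∧
    (∀ a b, δ (a * b) = π a * δ b + π b * δ a) ∧ ∀ c : 𝒪, δ (algebraMap 𝒪 B c) = 0}
  zero_mem' := by simp
  add_mem' := by
    rintro f g ⟨f1, f2, f3⟩ ⟨g1, g2, g3⟩
    refine ⟨fun a b => ?_, fun a b => ?_, fun c => ?_⟩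
    · simp only [Pi.add_apply, f1, g1]; abel
    · simp only [Pi.add_apply, f2, g2]; ring
    · simp only [Pi.add_apply, f3, g3, add_zero]
  smul_mem' := by
    rintro c f ⟨f1, f2, f3⟩
    refine ⟨fun a b => ?_, fun a b => ?_, fun x => ?_⟩
    · simp only [Pi.smul_apply, f1, smul_eq_mul]; ring
    · simp only [Pi.smul_apply, f2, smul_eq_mul]; ring
    · simp only [Pi.smul_apply, f3, smul_eq_mul, mul_zero]

variable {k : Type} [Field k]

/-- The matrices commuting with the image of a subgroup. -/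
def commutantSpace (r : Γ →* Mat k) (H : Subgroup Γ) : Submodule k (Mat k) where
  carrier := {X | ∀ d ∈ H, r d * X = X * r d}
  zero_mem' := by simp
  add_mem' hX hY d hd := by rw [mul_add, add_mul, hX d hd, hY d hd]
  smul_mem' c X hX d hd := by rw [mul_smul_comm, smul_mul_assoc, hX d hd]

variable {𝒪 : Type} [CommRing 𝒪] [IsLocalRing 𝒪]

/-- The trace-zero adjoint cocycles whose lift to the dual numbers is of type `𝒟`. -/
def tangentSet (𝒟 : ∀ ⦃A : Type⦄ [CommRing A] [IsLocalRing A] [Algebra 𝒪 A], GaloisRepAdic A → Prop)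
    (rbar : Γ →* Mat (ResidueField 𝒪)) : Set (Γ → Mat (ResidueField 𝒪)) :=
  {Z | (∀ g, (Z g).trace = 0) ∧
    (∀ g h, Z (g * h) = Z g + rbar g * Z h * rbar g⁻¹) ∧
    ∃ (r : Γ →* Mat (DualNumber (ResidueField 𝒪))) (hr : IsCont r),
      (∀ g, r g = liftEntries rbar Z g) ∧ 𝒟 (repOf r hr)}

/-- The span of the tangent cocycles of type `𝒟` which are coboundaries on every `H i`. -/
def selSpace (𝒟 : ∀ ⦃A : Type⦄ [CommRing A] [IsLocalRing A] [Algebra 𝒪 A], GaloisRepAdic A → Prop)
    (rbar : Γ →* Mat (ResidueField 𝒪)) {s : ℕ} (H : Fin s → Subgroup Γ) :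
    Submodule (ResidueField 𝒪) (Γ → Mat (ResidueField 𝒪)) :=
  Submodule.span (ResidueField 𝒪)
    {Z | Z ∈ tangentSet 𝒟 rbar ∧ ∀ i, ∃ X, ∀ d ∈ H i, Z d = adCoboundary rbar X d}

/-- The Greenberg-Wiles formula for the trace-zero adjoint representation, together with the
bound on the local tangent space at `p`, in the form used for Taylor-Wiles primes: there is a
finite-dimensional space `V` of twisted cocycles, injecting modulo coboundaries, and a finite set
`U` of auxiliary primes, such that for every set `Q` of Taylor-Wiles primes outside `S ∪ U` the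
Selmer space of type `𝒟 Q`, trivial on
the `H i`, plus the local invariants of the `H i`, is at most `#Q` plus the classes of `V`
killed by all Frobenius elements over `Q`. -/
def GlobalEulerBound (p : ℕ) (rbar : Γ →* Mat (ResidueField 𝒪))
    (𝒟 : Finset ℕ → ∀ ⦃A : Type⦄ [CommRing A] [IsLocalRing A] [Algebra 𝒪 A],
      GaloisRepAdic A → Prop)
    (S : Finset ℕ) {s : ℕ} (H : Fin s → Subgroup Γ) : Prop :=
  ∃ (V : Submodule (ResidueField 𝒪) (Γ → Mat (ResidueField 𝒪))) (U : Finset ℕ),
    FiniteDimensional (ResidueField 𝒪) V ∧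
    (∀ ψ ∈ V, IsTwistedCocycle rbar.toHomUnits ψ ∧ (∀ g, (ψ g).trace = 0) ∧
      ∃ L : IntermediateField ℚ (AlgebraicClosure ℚ), FiniteDimensional ℚ L ∧
        ∀ g t : Γ, (∀ x ∈ L, t x = x) → rbar (g * t) = rbar g ∧ ψ (g * t) = ψ g) ∧
    (∀ ψ ∈ V, (∃ X : Mat (ResidueField 𝒪), X.trace = 0 ∧
      ∀ g, ψ g = (rbar g).det • (rbar g * X * rbar g⁻¹) - X) → ψ = 0) ∧
    ∀ Q : Finset ℕ, (∀ q ∈ Q, q ∉ S ∪ U ∧ IsTWPrime rbar.toHomUnits p 1 q) →
      FiniteDimensional (ResidueField 𝒪)
          ((selSpace (𝒟 Q) rbar H).map (LinearMap.range (adCoboundary rbar)).mkQ) ∧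
        ∀ V' : Submodule (ResidueField 𝒪) (Γ → Mat (ResidueField 𝒪)),
          (∀ ψ, ψ ∈ V' ↔ ψ ∈ V ∧ ∀ q ∈ Q, ∀ P : ValuationSubring (AlgebraicClosure ℚ),
            P.LiesOverPrime q → ∀ φ : Γ, P.IsFrobeniusAt φ q → (ψ φ * rbar φ).trace = 0) →
          Module.finrank (ResidueField 𝒪)
              ((selSpace (𝒟 Q) rbar H).map (LinearMap.range (adCoboundary rbar)).mkQ) +
            ∑ i, (Module.finrank (ResidueField 𝒪) (commutantSpace rbar (H i)) - 1) ≤
          Q.card + Module.finrank (ResidueField 𝒪) V'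

end Fermat.Agent.RT
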