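import Fermat.Agent.Deformation.Schur
import Fermat.Agent.RT.Global.Defs

/-!
# Tangent vectors and generators

Tangent vectors with values in the residue field of the coefficient ring; an algebra is generated
by prescribed elements and as many further ones as the dimension of the space of tangent vectors
killed by the prescribed ones.
-/

set_option autoImplicit false

noncomputable section

namespace Fermat.Agent.RT

open IsLocalRing Fermat.Agent.Deformation

section Basic

variable {𝒪 : Type*} [CommRing 𝒪] {B : Type*} [CommRing B] [Algebra 𝒪 B] {k : Type*} [Field k]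
  {π : B →+* k} {δ : B → k}

theorem tanSpace_map_add (h : δ ∈ tanSpace 𝒪 π) (a b : B) : δ (a + b) = δ a + δ b := h.1 a b

theorem tanSpace_map_mul (h : δ ∈ tanSpace 𝒪 π) (a b : B) :
    δ (a * b) = π a * δ b + π b * δ a := h.2.1 a b

theorem tanSpace_map_algebraMap (h : δ ∈ tanSpace 𝒪 π) (c : 𝒪) : δ (algebraMap 𝒪 B c) = 0 :=
  h.2.2 c

theorem tanSpace_map_zero (h : δ ∈ tanSpace 𝒪 π) : δ 0 = 0 := by
  simpa using tanSpace_map_algebraMap h 0

theorem tanSpace_map_one (h : δ ∈ tanSpace 𝒪 π) : δ 1 = 0 := by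
  simpa using tanSpace_map_algebraMap h 1

theorem tanSpace_map_neg (h : δ ∈ tanSpace 𝒪 π) (a : B) : δ (-a) = -δ a := by
  have := tanSpace_map_add h a (-a)
  rw [add_neg_cancel, tanSpace_map_zero h] at this
  exact eq_neg_of_add_eq_zero_right this.symm

theorem tanSpace_map_sub (h : δ ∈ tanSpace 𝒪 π) (a b : B) : δ (a - b) = δ a - δ b := by
  rw [sub_eq_add_neg, tanSpace_map_add h, tanSpace_map_neg h, sub_eq_add_neg]

/-- A tangent vector kills an ideal if it kills generators of it lying in the kernel of `π`. -/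
theorem tanSpace_eq_zero_on_span (h : δ ∈ tanSpace 𝒪 π) {s : Set B}
    (hπ : ∀ x ∈ s, π x = 0) (hs : ∀ x ∈ s, δ x = 0) {x : B} (hx : x ∈ Ideal.span s) : δ x = 0 := by
  suffices π x = 0 ∧ δ x = 0 from this.2
  induction hx using Submodule.span_induction with
  | mem x hx => exact ⟨hπ x hx, hs x hx⟩
  | zero => exact ⟨map_zero π, tanSpace_map_zero h⟩
  | add a b _ _ ha hb =>
    exact ⟨by rw [map_add, ha.1, hb.1, add_zero],
      by rw [tanSpace_map_add h, ha.2, hb.2, add_zero]⟩
  | smul c a _ ha =>
    exact ⟨by rw [smul_eq_mul, map_mul, ha.1, mul_zero],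
      by rw [smul_eq_mul, tanSpace_map_mul h, ha.1, ha.2, zero_mul, mul_zero, add_zero]⟩

/-- The point with values in the dual numbers attached to a tangent vector. -/
def tanPoint [Algebra 𝒪 k] (hπ : ∀ c, π (algebraMap 𝒪 B c) = algebraMap 𝒪 k c)
    (h : δ ∈ tanSpace 𝒪 π) : B →ₐ[𝒪] DualNumber k where
  toFun b := TrivSqZeroExt.inl (π b) + TrivSqZeroExt.inr (δ b)
  map_one' := by simp [tanSpace_map_one h]
  map_mul' a b := by
    ext
    · simp
    · simp [tanSpace_map_mul h]; ring
  map_zero' := by simp [tanSpace_map_zero h]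
  map_add' a b := by ext <;> simp [tanSpace_map_add h]
  commutes' c := by
    ext <;> simp [TrivSqZeroExt.algebraMap_eq_inl', hπ, tanSpace_map_algebraMap h]

@[simp] theorem fst_tanPoint [Algebra 𝒪 k] (hπ : ∀ c, π (algebraMap 𝒪 B c) = algebraMap 𝒪 k c)
    (h : δ ∈ tanSpace 𝒪 π) (b : B) : (tanPoint hπ h b).fst = π b := by
  simp [tanPoint]

@[simp] theorem snd_tanPoint [Algebra 𝒪 k] (hπ : ∀ c, π (algebraMap 𝒪 B c) = algebraMap 𝒪 k c)
    (h : δ ∈ tanSpace 𝒪 π) (b : B) : (tanPoint hπ h b).snd = δ b := by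
  simp [tanPoint]

end Basic

variable {𝒪 : Type*} [CommRing 𝒪] [IsLocalRing 𝒪] {B : Type*} [CommRing B] [IsLocalRing B]
  [Algebra 𝒪 B] [IsLocalHom (algebraMap 𝒪 B)]

/-- The residue field of `𝒪` is that of `B`. -/
def residueEquiv (hres : Function.Surjective (residue B ∘ algebraMap 𝒪 B)) :
    ResidueField 𝒪 ≃+* ResidueField B :=
  RingEquiv.ofBijective _ (residueField_map_bijective hres)

/-- The reduction `B → k` to the residue field of `𝒪`. -/
def residueHom (hres : Function.Surjective (residue B ∘ algebraMap 𝒪 B)) :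
    B →+* ResidueField 𝒪 :=
  (residueEquiv hres).symm.toRingHom.comp (residue B)

theorem residueHom_eq_zero_iff (hres : Function.Surjective (residue B ∘ algebraMap 𝒪 B)) (b : B) :
    residueHom hres b = 0 ↔ b ∈ maximalIdeal B := by
  rw [← residue_eq_zero_iff]
  exact (residueEquiv hres).symm.map_eq_zero_iff

theorem residueHom_algebraMap (hres : Function.Surjective (residue B ∘ algebraMap 𝒪 B)) (c : 𝒪) :
    residueHom hres (algebraMap 𝒪 B c) = algebraMap 𝒪 (ResidueField 𝒪) c := by
  refine (residueEquiv hres).symm_apply_eq.mpr ?_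
  show residue B (algebraMap 𝒪 B c) = ResidueField.map (algebraMap 𝒪 B) (residue 𝒪 c)
  rw [ResidueField.map_residue]

theorem residueEquiv_residueHom (hres : Function.Surjective (residue B ∘ algebraMap 𝒪 B)) (b : B) :
    ResidueField.map (algebraMap 𝒪 B) (residueHom hres b) = residue B b :=
  (residueEquiv hres).apply_symm_apply _

/-- A tangent vector killing the maximal ideal is zero. -/
theorem tanSpace_eq_zero_of_maximalIdeal
    (hres : Function.Surjective (residue B ∘ algebraMap 𝒪 B)) {δ : B → ResidueField 𝒪}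
    (h : δ ∈ tanSpace 𝒪 (residueHom hres)) (h0 : ∀ x ∈ maximalIdeal B, δ x = 0) : δ = 0 := by
  funext b
  obtain ⟨c, hc⟩ := hres (residue B b)
  have hm : b - algebraMap 𝒪 B c ∈ maximalIdeal B := by
    rw [← residue_eq_zero_iff, map_sub, sub_eq_zero]
    exact hc.symm
  have := tanSpace_map_add h (b - algebraMap 𝒪 B c) (algebraMap 𝒪 B c)
  rw [sub_add_cancel, h0 _ hm, tanSpace_map_algebraMap h, add_zero] at this
  exact this

/-- Functionals on the relative cotangent space give tangent vectors. -/
theorem exists_tanSpace_of_dual (hres : Function.Surjective (residue B ∘ algebraMap 𝒪 B))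
    (f : Module.Dual (ResidueField B) (RelCotangent 𝒪 B)) :
    ∃ δ ∈ tanSpace 𝒪 (residueHom hres),
      ∀ m : maximalIdeal B, δ m = (residueEquiv hres).symm (f (relClass m)) := by
  obtain ⟨θ, hfst, hsnd⟩ := exists_dualNumber_point (L := 𝒪) hres f
  refine ⟨fun b => (residueEquiv hres).symm (θ b).snd,
    ⟨fun a b => by simp, fun a b => ?_, fun c => by simp [TrivSqZeroExt.algebraMap_eq_inl']⟩,
    fun m => by simp [hsnd]⟩
  simp [TrivSqZeroExt.snd_mul, hfst, residueHom]
  ring

variable [IsPrecomplete (maximalIdeal 𝒪) 𝒪] [IsNoetherianRing B]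
  [IsAdicComplete (maximalIdeal B) B]

/-- `B` is generated over `𝒪` by prescribed elements together with `g` others, provided the
tangent vectors killed by the prescribed elements inject into a space of dimension at most `g`. -/
theorem exists_mvPowerSeries_surjective_of_tanSpace
    (hres : Function.Surjective (residue B ∘ algebraMap 𝒪 B)) {ι : Type*} [Finite ι]
    (x : ι → B) (hx : ∀ i, x i ∈ maximalIdeal B) {W : Type*} [AddCommGroup W]
    [Module (ResidueField 𝒪) W] [FiniteDimensional (ResidueField 𝒪) W] {g : ℕ}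
    (hW : Module.finrank (ResidueField 𝒪) W ≤ g)
    (K : Submodule (ResidueField 𝒪) (B → ResidueField 𝒪))
    (hK : ∀ δ, δ ∈ K ↔ δ ∈ tanSpace 𝒪 (residueHom hres) ∧ ∀ i, δ (x i) = 0)
    (F : K →ₗ[ResidueField 𝒪] W) (hF : Function.Injective F) :
    ∃ Φ : MvPowerSeries (ι ⊕ Fin g) 𝒪 →ₐ[𝒪] B, Function.Surjective Φ ∧
      ∀ i, Φ (MvPowerSeries.X (Sum.inl i)) = x i := by
  classical
  have : FiniteDimensional (ResidueField 𝒪) K := Module.Finite.of_injective F hF
  have hKg : Module.finrank (ResidueField 𝒪) K ≤ g :=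
    (LinearMap.finrank_le_finrank_of_injective hF).trans hW
  -- evaluations at elements of the maximal ideal separate `K`
  let ev : maximalIdeal B → Module.Dual (ResidueField 𝒪) K := fun m =>
    { toFun := fun δ => δ.1 m
      map_add' := fun _ _ => rfl
      map_smul' := fun _ _ => rfl }
  have htop : Submodule.span (ResidueField 𝒪) (Set.range ev) = ⊤ := by
    have h0 : (Submodule.span (ResidueField 𝒪) (Set.range ev)).dualCoannihilator = ⊥ := by
      refine (Submodule.eq_bot_iff _).mpr fun δ hδ => ?_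
      rw [Submodule.mem_dualCoannihilator] at hδ
      exact Subtype.ext (tanSpace_eq_zero_of_maximalIdeal hres ((hK δ.1).mp δ.2).1 fun m hm =>
        hδ (ev ⟨m, hm⟩) (Submodule.subset_span ⟨⟨m, hm⟩, rfl⟩))
    rw [← Subspace.dualCoannihilator_dualAnnihilator_eq
      (W := Submodule.span (ResidueField 𝒪) (Set.range ev)), h0, Submodule.dualAnnihilator_bot]
  obtain ⟨t, ht, htspan, hli⟩ := exists_linearIndependent (ResidueField 𝒪) (Set.range ev)
  let bt : Module.Basis t (ResidueField 𝒪) (Module.Dual (ResidueField 𝒪) K) :=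
    Module.Basis.mk hli (by rw [Subtype.range_coe, htspan, htop])
  let e := bt.indexEquiv (Module.finBasis (ResidueField 𝒪) (Module.Dual (ResidueField 𝒪) K))
  have hd : Module.finrank (ResidueField 𝒪) (Module.Dual (ResidueField 𝒪) K) ≤ g := by
    rwa [Subspace.dual_finrank_eq]
  choose pre hpre using fun i : t => ht i.2
  let z : Fin g → maximalIdeal B := fun i =>
    if h : (i : ℕ) < Module.finrank (ResidueField 𝒪) (Module.Dual (ResidueField 𝒪) K) then
      pre (e.symm ⟨i, h⟩) else 0
  let x' : ι ⊕ Fin g → maximalIdeal B := Sum.elim (fun i => ⟨x i, hx i⟩) z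
  have hspan : Submodule.span (ResidueField B)
      (Set.range fun i => relClass (L := 𝒪) (x' i)) = ⊤ := by
    rw [← Subspace.dualAnnihilator_inj, Submodule.dualAnnihilator_top, Submodule.eq_bot_iff]
    intro f hf
    rw [Submodule.mem_dualAnnihilator] at hf
    obtain ⟨δ, hδ, hδm⟩ := exists_tanSpace_of_dual hres f
    have hzero : ∀ i, δ (x' i) = 0 := fun i => by
      rw [hδm, hf _ (Submodule.subset_span ⟨i, rfl⟩), map_zero]
    have hδK : δ ∈ K := (hK δ).mpr ⟨hδ, fun i => hzero (Sum.inl i)⟩
    have hev : ∀ φ : Module.Dual (ResidueField 𝒪) K, φ ⟨δ, hδK⟩ = 0 := by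
      have hb : ∀ i : t, bt i ⟨δ, hδK⟩ = 0 := fun i => by
        have hi : z (Fin.castLE hd (e i)) = pre i :=
          (dif_pos (e i).2).trans (congrArg pre (e.symm_apply_apply i))
        have := hzero (Sum.inr (Fin.castLE hd (e i)))
        simp only [x', Sum.elim_inr, hi] at this
        rw [Module.Basis.mk_apply]
        exact (LinearMap.congr_fun (hpre i) ⟨δ, hδK⟩).symm.trans this
      intro φ
      rw [← bt.linearCombination_repr φ, Finsupp.linearCombination_apply, Finsupp.sum,
        LinearMap.coe_sum, Finset.sum_apply, Finset.sum_eq_zero]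
      intro i _
      rw [LinearMap.smul_apply, hb, smul_zero]
    have h0 := congrArg Subtype.val ((Module.forall_dual_apply_eq_zero_iff _ _).mp hev)
    refine LinearMap.ext fun q => ?_
    obtain ⟨m, rfl⟩ := relClass_surjective q
    refine (residueEquiv hres).symm.injective ?_
    rw [← hδm, LinearMap.zero_apply, map_zero]
    exact congrFun h0 _
  obtain ⟨Φ, hΦ, hX⟩ := exists_mvPowerSeries_surjective hres (fun i => (x' i : B))
    (fun i => (x' i).2) (le_span_sup_of_relClass_span_eq_top x' hspan)
  exact ⟨Φ, hΦ, fun i => by rw [hX]; rfl⟩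

end Fermat.Agent.RT
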