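import Fermat.Prelude.Def_GaloisRep_LocalConditions
import Fermat.Agent.RT.Global.TanSpace

/-!
# Tangent vectors of a deformation ring as trace-zero cocycles

A tangent vector of a deformation ring with cyclotomic determinant gives a trace-zero adjoint
cocycle, which is of the given type unless the vector vanishes, and which is a coboundary only
for the zero vector.
-/

set_option autoImplicit false

noncomputable section

namespace Fermat.Agent.RT

open IsLocalRing Fermat.Agent.Deformation GaloisRep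
open Deformation (Mat)

/-- Every automorphism acts on the `p`-th roots of unity by some exponent. -/
theorem exists_pow_eq_apply_rootsOfUnity (p : ℕ) [Fact p.Prime] (σ : Γ) :
    ∃ a : ℕ, ∀ μ : AlgebraicClosure ℚ, μ ^ p = 1 → σ μ = μ ^ a := by
  obtain ⟨ζ, hζ⟩ := HasEnoughRootsOfUnity.exists_primitiveRoot (AlgebraicClosure ℚ) p
  obtain ⟨a, -, ha⟩ := hζ.eq_pow_of_pow_eq_one (ξ := σ ζ) (by rw [← map_pow, hζ.pow_eq_one, map_one])
  refine ⟨a, fun μ hμ => ?_⟩
  obtain ⟨j, -, rfl⟩ := hζ.eq_pow_of_pow_eq_one hμ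
  rw [map_pow, ← ha, ← pow_mul, ← pow_mul, mul_comm]

/-- A matrix commuting with a family spanning the matrix algebra is scalar. -/
theorem exists_eq_scalar_of_commute {k : Type} [Field k] {ι : Type*} (r : ι → Mat k)
    (hspan : Submodule.span k (Set.range r) = ⊤) (X : Mat k) (h : ∀ i, r i * X = X * r i) :
    ∃ c : k, X = c • (1 : Mat k) := by
  have hall : ∀ M : Mat k, M * X = X * M := fun M => by
    have hM : M ∈ Submodule.span k (Set.range r) := hspan ▸ Submodule.mem_top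
    induction hM using Submodule.span_induction with
    | mem x hx => obtain ⟨i, rfl⟩ := hx; exact h i
    | zero => simp
    | add a b _ _ ha hb => rw [add_mul, mul_add, ha, hb]
    | smul c a _ ha => rw [smul_mul_assoc, mul_smul_comm, ha]
  obtain ⟨c, hc⟩ := Matrix.mem_range_scalar_iff_commute_single'.mpr fun i j => hall _
  exact ⟨c, by rw [← hc, Matrix.smul_one_eq_diagonal]; rfl⟩

variable {𝒪 : Type} [CommRing 𝒪] [IsDomain 𝒪] [IsDiscreteValuationRing 𝒪]
  [IsAdicComplete (maximalIdeal 𝒪) 𝒪] {ρbar : ResidualGaloisRep (ResidueField 𝒪)}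
  {𝒟 : ∀ ⦃A : Type⦄ [CommRing A] [IsLocalRing A] [Algebra 𝒪 A], GaloisRepAdic A → Prop}
  (D : DeformationRingData 𝒪 ρbar 𝒟) (bbar : Module.Basis (Fin 2) (ResidueField 𝒪) ρbar.V)
  (b : Module.Basis (Fin 2) D.R D.ρ.V)

/-- The adjoint cochain of a tangent vector. -/
def tanCocycle (δ : D.R → ResidueField 𝒪) (g : Γ) : Mat (ResidueField 𝒪) :=
  (matOf D.ρ.ρ b g).map δ * matOf ρbar.ρ bbar g⁻¹

theorem tanCocycle_zero : tanCocycle D bbar b 0 = 0 := by
  funext g
  rw [tanCocycle, show (matOf D.ρ.ρ b g).map (0 : D.R → ResidueField 𝒪) = 0 from rfl, zero_mul]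
  rfl

variable (hb : residueMat D b = mapRep (ResidueField.map (algebraMap 𝒪 D.R)) (matOf ρbar.ρ bbar))

include hb in
theorem residueHom_matOf (g : Γ) :
    (matOf D.ρ.ρ b g).map (residueHom (𝒪 := 𝒪) D.residue_surjective) = matOf ρbar.ρ bbar g := by
  refine Matrix.ext fun i j => (ResidueField.map (algebraMap 𝒪 D.R)).injective ?_
  rw [Matrix.map_apply, residueEquiv_residueHom]
  exact congrFun (congrFun (DFunLike.congr_fun hb g) i) j

variable {δ : D.R → ResidueField 𝒪}
  (hδ : δ ∈ tanSpace 𝒪 (residueHom (𝒪 := 𝒪) D.residue_surjective))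

include hb hδ in
theorem exists_tanCocycle_point :
    ∃ θ : D.R →ₐ[𝒪] DualNumber (ResidueField 𝒪),
      (∀ x, (θ x).fst = residueHom (𝒪 := 𝒪) D.residue_surjective x) ∧ (∀ x, (θ x).snd = δ x) ∧
      IsLocalHom (θ : D.R →+* DualNumber (ResidueField 𝒪)) ∧
      ∀ g, mapRep (θ : D.R →+* DualNumber (ResidueField 𝒪)) (matOf D.ρ.ρ b) g =
        liftEntries (matOf ρbar.ρ bbar) (tanCocycle D bbar b δ) g := by
  refine ⟨tanPoint (residueHom_algebraMap D.residue_surjective) hδ, fst_tanPoint _ hδ,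
    snd_tanPoint _ hδ, ⟨fun x hx => ?_⟩, fun g => Matrix.ext fun i j => ?_⟩
  · rw [RingHom.coe_coe, isUnit_dualNumber_iff, fst_tanPoint, Ne, residueHom_eq_zero_iff] at hx
    exact IsLocalRing.notMem_maximalIdeal.mp hx
  · have hcancel : tanCocycle D bbar b δ g * matOf ρbar.ρ bbar g = (matOf D.ρ.ρ b g).map δ := by
      rw [tanCocycle, mul_assoc, ← map_mul, inv_mul_cancel, map_one, mul_one]
    rw [mapRep_apply, Matrix.map_apply, RingHom.coe_coe, liftEntries, Matrix.of_apply, hcancel,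
      ← residueHom_matOf D bbar b hb g]
    rfl

include hb hδ in
theorem tanCocycle_mul (g h : Γ) :
    tanCocycle D bbar b δ (g * h) = tanCocycle D bbar b δ g +
      matOf ρbar.ρ bbar g * tanCocycle D bbar b δ h * matOf ρbar.ρ bbar g⁻¹ := by
  have hM : (matOf D.ρ.ρ b (g * h)).map δ = matOf ρbar.ρ bbar g * (matOf D.ρ.ρ b h).map δ +
      (matOf D.ρ.ρ b g).map δ * matOf ρbar.ρ bbar h := by
    refine Matrix.ext fun i j => ?_
    simp only [map_mul, Matrix.map_apply, Matrix.add_apply, Matrix.mul_apply, Fin.sum_univ_two,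
      tanSpace_map_add hδ, tanSpace_map_mul hδ, ← residueHom_matOf D bbar b hb g,
      ← residueHom_matOf D bbar b hb h]
    ring
  rw [tanCocycle, hM, mul_inv_rev, map_mul, tanCocycle, tanCocycle, add_mul, add_comm]
  congr 1
  · rw [mul_assoc _ (matOf ρbar.ρ bbar h), ← mul_assoc (matOf ρbar.ρ bbar h), ← map_mul,
      mul_inv_cancel, map_one, one_mul]
  · simp only [mul_assoc]

include hb hδ in
theorem trace_tanCocycle_eq_zero (p : ℕ) [Fact p.Prime] (hp𝒪 : (p : 𝒪) ∈ maximalIdeal 𝒪)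
    (hdet : D.ρ.DetIsCyclotomic p) (g : Γ) : (tanCocycle D bbar b δ g).trace = 0 := by
  obtain ⟨θ, -, -, -, hθ⟩ := exists_tanCocycle_point D bbar b hb hδ
  obtain ⟨a, ha⟩ := exists_pow_eq_apply_rootsOfUnity p g
  obtain ⟨x, hx⟩ := Ideal.mem_span_singleton'.mp (hdet.2 1 g a (by simpa using ha))
  have hp0 : θ ((p : ℕ) : D.R) = 0 := by
    rw [← map_natCast (algebraMap 𝒪 D.R), AlgHom.commutes, TrivSqZeroExt.algebraMap_eq_inl',
      ResidueField.algebraMap_eq, (residue_eq_zero_iff _).mpr hp𝒪, TrivSqZeroExt.inl_zero]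
  have hd : (matOf D.ρ.ρ b g).det = (a : D.R) + x * (p : D.R) := by
    rw [pow_one] at hx
    rw [hx, add_sub_cancel, matOf_apply, LinearMap.det_toMatrix]
  have h := det_liftEntries (matOf ρbar.ρ bbar) (tanCocycle D bbar b δ) g
  rw [← hθ, mapRep_apply, ← RingHom.mapMatrix_apply, ← RingHom.map_det, hd, RingHom.coe_coe,
    map_add, map_mul, hp0, mul_zero, add_zero, map_natCast, TrivSqZeroExt.snd_natCast] at h
  refine (mul_eq_zero.mp h.symm).resolve_right fun h0 => ?_
  have h1 := congrArg Matrix.det (map_mul (matOf ρbar.ρ bbar) g g⁻¹)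
  rw [mul_inv_cancel, map_one, Matrix.det_one, Matrix.det_mul, h0, zero_mul] at h1
  exact one_ne_zero h1

variable (hD : IsDeformationCondition 𝒪 𝒟)

include hδ in
/-- The point of a nonzero tangent vector is onto. -/
theorem point_surjective (hne : δ ≠ 0) (θ : D.R →ₐ[𝒪] DualNumber (ResidueField 𝒪))
    (hfst : ∀ x, (θ x).fst = residueHom (𝒪 := 𝒪) D.residue_surjective x)
    (hsnd : ∀ x, (θ x).snd = δ x) : Function.Surjective θ := by
  obtain ⟨m, hm, hm0⟩ : ∃ m ∈ maximalIdeal D.R, δ m ≠ 0 := by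
    by_contra! h
    exact hne (tanSpace_eq_zero_of_maximalIdeal D.residue_surjective hδ h)
  intro z
  obtain ⟨c, hc⟩ := residue_surjective (R := 𝒪) z.fst
  obtain ⟨u, hu⟩ := residue_surjective (R := 𝒪) (z.snd * (δ m)⁻¹)
  refine ⟨algebraMap 𝒪 D.R c + algebraMap 𝒪 D.R u * m, ?_⟩
  have hπm := (residueHom_eq_zero_iff (𝒪 := 𝒪) D.residue_surjective m).mpr hm
  ext
  · rw [hfst, map_add, map_mul, hπm, mul_zero, add_zero, residueHom_algebraMap,
      ResidueField.algebraMap_eq, hc]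
  · rw [hsnd, tanSpace_map_add hδ, tanSpace_map_mul hδ, tanSpace_map_algebraMap hδ,
      tanSpace_map_algebraMap hδ, residueHom_algebraMap, ResidueField.algebraMap_eq, hu]
    simp [hm0]

include hb hδ hD in
theorem tanCocycle_mem_tangentSet (p : ℕ) [Fact p.Prime] (hp𝒪 : (p : 𝒪) ∈ maximalIdeal 𝒪)
    (hdet : D.ρ.DetIsCyclotomic p) (hne : δ ≠ 0) :
    tanCocycle D bbar b δ ∈ tangentSet 𝒟 (matOf ρbar.ρ bbar) := by
  obtain ⟨θ, hfst, hsnd, hloc, hθ⟩ := exists_tanCocycle_point D bbar b hb hδ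
  refine ⟨trace_tanCocycle_eq_zero D bbar b hb hδ p hp𝒪 hdet, tanCocycle_mul D bbar b hb hδ,
    _, (isCont_matOf D.ρ b).mapRep _ hloc, hθ, ?_⟩
  have hsurj := point_surjective D hδ hne θ hfst hsnd
  have htest := isArtinianTestAlgebra_dualNumber (𝒪 := 𝒪) (R := 𝒪)
    (by simpa using residue_surjective (R := 𝒪))
  have h𝒟 := (hD.iff_forall_surjective inferInstance D.residue_surjective D.ρ).mp D.isOfType
    htest θ hloc hsurj
  obtain ⟨b', hb'⟩ := exists_basis_baseChangeAlong D.ρ b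
    (θ : D.R →+* DualNumber (ResidueField 𝒪)) hloc
  exact hD.of_isEquiv htest (isEquiv_repOf _ b' hb' _) h𝒟

include hb hδ hD in
/-- The cocycle of any tangent vector, zero included, is of type `𝒟`. -/
theorem tanCocycle_mem_tangentSet_all (p : ℕ) [Fact p.Prime] (hp𝒪 : (p : 𝒪) ∈ maximalIdeal 𝒪)
    (hdet : D.ρ.DetIsCyclotomic p) :
    tanCocycle D bbar b δ ∈ tangentSet 𝒟 (matOf ρbar.ρ bbar) := by
  by_cases hne : δ = 0
  · subst hne
    obtain ⟨θ, hfst, hsnd, hloc, hθ⟩ := exists_tanCocycle_point D bbar b hb hδ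
    refine ⟨trace_tanCocycle_eq_zero D bbar b hb hδ p hp𝒪 hdet, tanCocycle_mul D bbar b hb hδ,
      _, (isCont_matOf D.ρ b).mapRep _ hloc, hθ, ?_⟩
    let q : D.R →ₐ[𝒪] ResidueField 𝒪 :=
      { residueHom (𝒪 := 𝒪) D.residue_surjective with
        commutes' := residueHom_algebraMap D.residue_surjective }
    let j : ResidueField 𝒪 →ₐ[𝒪] DualNumber (ResidueField 𝒪) :=
      IsScalarTower.toAlgHom 𝒪 (ResidueField 𝒪) (DualNumber (ResidueField 𝒪))
    have hqsurj : Function.Surjective q := fun z => by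
      obtain ⟨c, rfl⟩ := residue_surjective (R := 𝒪) z
      exact ⟨algebraMap 𝒪 D.R c, q.commutes c⟩
    have hqloc : IsLocalHom (q : D.R →+* ResidueField 𝒪) :=
      ⟨fun x hx => IsLocalRing.notMem_maximalIdeal.mp fun hm => hx.ne_zero
        ((residueHom_eq_zero_iff (𝒪 := 𝒪) D.residue_surjective x).mpr hm)⟩
    have hjloc : IsLocalHom (j : ResidueField 𝒪 →+* DualNumber (ResidueField 𝒪)) :=
      ⟨fun x hx => isUnit_iff_ne_zero.mpr fun h => by
        rw [h, map_zero] at hx; exact not_isUnit_zero hx⟩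
    have hk : IsArtinianTestAlgebra 𝒪 (ResidueField 𝒪) :=
      ⟨⟨fun c hc => IsLocalRing.notMem_maximalIdeal.mp fun hm => hc.ne_zero
          ((residue_eq_zero_iff c).mpr hm)⟩,
        fun z => by
          obtain ⟨w, rfl⟩ := residue_surjective z
          obtain ⟨c, rfl⟩ := residue_surjective (R := 𝒪) w
          exact ⟨c, rfl⟩, inferInstance⟩
    have htest := isArtinianTestAlgebra_dualNumber (𝒪 := 𝒪) (R := 𝒪)
      (by simpa using residue_surjective (R := 𝒪))
    have hq𝒟 := (hD.iff_forall_surjective inferInstance D.residue_surjective D.ρ).mp D.isOfType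
      hk q hqloc hqsurj
    obtain ⟨bq, hbq⟩ := exists_basis_baseChangeAlong D.ρ b (q : D.R →+* ResidueField 𝒪) hqloc
    obtain ⟨bj, hbj⟩ := exists_basis_baseChangeAlong _ bq
      (j : ResidueField 𝒪 →+* DualNumber (ResidueField 𝒪)) hjloc
    refine hD.of_isEquiv htest (isEquiv_repOf _ bj ?_ _)
      (hD.baseChangeAlong hk htest j hjloc hq𝒟)
    rw [hbj, hbq]
    refine MonoidHom.ext fun g => Matrix.ext fun i' j' => ?_
    refine TrivSqZeroExt.ext ?_ ?_
    · exact (hfst _).symm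
    · exact (hsnd _).symm
  · exact tanCocycle_mem_tangentSet D bbar b hb hδ hD p hp𝒪 hdet hne

include hb hδ hD in
/-- The cocycle is a coboundary only for the zero tangent vector. -/
theorem eq_zero_of_tanCocycle_mem_range
    (h : tanCocycle D bbar b δ ∈ LinearMap.range (adCoboundary (matOf ρbar.ρ bbar))) : δ = 0 := by
  by_contra hne
  obtain ⟨X, hX⟩ := h
  obtain ⟨θ, hfst, hsnd, hloc, hθ⟩ := exists_tanCocycle_point D bbar b hb hδ
  obtain ⟨θ₀, hfst₀, hsnd₀, hloc₀, hθ₀⟩ :=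
    exists_tanCocycle_point D bbar b hb (δ := 0) (zero_mem _)
  rw [tanCocycle_zero] at hθ₀
  set B := DualNumber (ResidueField 𝒪)
  have htest := isArtinianTestAlgebra_dualNumber (𝒪 := 𝒪) (R := 𝒪)
    (by simpa using residue_surjective (R := 𝒪))
  have : IsAdicComplete (maximalIdeal B) B :=
    isAdicComplete_of_pow_eq_bot dualNumber_maximalIdeal_sq
  have := htest.isLocalHom
  have := htest.isArtinian
  set ρA := D.ρ.baseChangeAlong (θ : D.R →+* B) hloc
  obtain ⟨b', hb'⟩ := exists_basis_baseChangeAlong D.ρ b (θ : D.R →+* B) hloc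
  obtain ⟨b₀, hb₀⟩ := exists_basis_baseChangeAlong D.ρ b (θ₀ : D.R →+* B) hloc₀
  have hsurj := point_surjective D hδ hne θ hfst hsnd
  have h𝒟 : 𝒟 ρA := (hD.iff_forall_surjective inferInstance D.residue_surjective D.ρ).mp
    D.isOfType htest θ hloc hsurj
  have hres : ρA.residual.IsEquiv
      (ρbar.baseChangeAlong (ResidueField.map (algebraMap 𝒪 B))) := by
    refine residual_isEquiv_of_map_eq ρbar bbar ρA b' _ ?_
    rw [hb']
    refine MonoidHom.ext fun g => Matrix.ext fun i j => ?_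
    obtain ⟨c, hc⟩ := residue_surjective (R := 𝒪) (matOf ρbar.ρ bbar g i j)
    show residue B (θ (matOf D.ρ.ρ b g i j)) = ResidueField.map (algebraMap 𝒪 B) _
    rw [← hc, ResidueField.map_residue, ← sub_eq_zero, ← map_sub, residue_eq_zero_iff,
      IsLocalRing.mem_maximalIdeal, mem_nonunits_iff, isUnit_dualNumber_iff,
      TrivSqZeroExt.fst_sub, hfst, TrivSqZeroExt.algebraMap_eq_inl', TrivSqZeroExt.fst_inl,
      ResidueField.algebraMap_eq, hc]
    exact fun hh => hh (sub_eq_zero.mpr (congrFun (congrFun (residueHom_matOf D bbar b hb g) i) j))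
  have hequiv : (D.ρ.baseChangeAlong (θ₀ : D.R →+* B) hloc₀).IsEquiv ρA := by
    refine (isEquiv_repOf _ b₀ hb₀ ((isCont_matOf D.ρ b).mapRep _ hloc₀)).elim fun e₀ => ?_
    refine (isEquiv_repOf ρA b' hb' ((isCont_matOf D.ρ b).mapRep _ hloc)).elim fun e => ?_
    refine (isEquiv_repOf_of_conj ((isCont_matOf D.ρ b).mapRep _ hloc₀)
      ((isCont_matOf D.ρ b).mapRep _ hloc) (epsUnit X) fun g => ?_).elim fun c => ?_
    · rw [hθ, hθ₀, ← hX]
      exact epsUnit_conj _ X g
    · exact ⟨(e₀.trans c).trans e.symm⟩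
  obtain ⟨φ, -, huniq⟩ := D.universal B htest.residue_surjective ρA h𝒟 hres
  have h1 := huniq θ ⟨hloc, ⟨GaloisRepAdic.Equiv.refl _⟩⟩
  have h2 := huniq θ₀ ⟨hloc₀, hequiv⟩
  exact hne (funext fun x => by rw [← hsnd, h1, ← h2, hsnd₀])

end Fermat.Agent.RT
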