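import Fermat.Agent.RT.Global.SelBound
import Fermat.Agent.RT.Global.Tangent

/-!
# Generators of a framed deformation ring over the local framing data
-/

set_option autoImplicit false

noncomputable section

namespace Fermat.Agent.RT

open IsLocalRing Fermat.Agent.Deformation GaloisRep
open Deformation (Mat)

/-- Tangent vectors satisfy the Leibniz rule on matrices. -/
theorem tanSpace_map_matrix_mul {𝒪 : Type*} [CommRing 𝒪] {B : Type} [CommRing B] [Algebra 𝒪 B]
    {k : Type} [Field k] {π : B →+* k} {δ : B → k} (h : δ ∈ tanSpace 𝒪 π) (M N : Mat B) :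
    (M * N).map δ = M.map π * N.map δ + M.map δ * N.map π := by
  refine Matrix.ext fun i j => ?_
  simp only [Matrix.map_apply, Matrix.add_apply, Matrix.mul_apply, Fin.sum_univ_two,
    tanSpace_map_add h, tanSpace_map_mul h]
  ring

variable {𝒪 : Type} [CommRing 𝒪] [IsDomain 𝒪] [IsDiscreteValuationRing 𝒪]
  [IsAdicComplete (maximalIdeal 𝒪) 𝒪] {ρbar : ResidualGaloisRep (ResidueField 𝒪)}
  {𝒟 : ∀ ⦃A : Type⦄ [CommRing A] [IsLocalRing A] [Algebra 𝒪 A], GaloisRepAdic A → Prop}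

/-- The framed deformation ring is generated by the entries of the framed matrices and as many
further elements as the classes plus the local invariants plus `s - 1`. -/
theorem exists_framedGenerators (p : ℕ) [Fact p.Prime] (hp𝒪 : (p : 𝒪) ∈ maximalIdeal 𝒪)
    (hD : IsDeformationCondition 𝒪 𝒟)
    (D : DeformationRingData 𝒪 ρbar 𝒟) (hdet : D.ρ.DetIsCyclotomic p)
    (bbar : Module.Basis (Fin 2) (ResidueField 𝒪) ρbar.V)
    (hspan : Submodule.span (ResidueField 𝒪) (Set.range (matOf ρbar.ρ bbar)) = ⊤)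
    (b : Module.Basis (Fin 2) D.R D.ρ.V)
    (hb : residueMat D b = mapRep (ResidueField.map (algebraMap 𝒪 D.R)) (matOf ρbar.ρ bbar))
    {s : ℕ} (H : Fin s → Subgroup Γ) (el : Fin s → Fin 2 → Γ)
    (hgen : ∀ Z ∈ tangentSet 𝒟 (matOf ρbar.ρ bbar), ∀ i, ∀ X,
      (∀ e, Z (el i e) = adCoboundary (matOf ρbar.ρ bbar) X (el i e)) →
      ∀ d ∈ H i, Z d = adCoboundary (matOf ρbar.ρ bbar) X d)
    [FiniteDimensional (ResidueField 𝒪) ((selSpace 𝒟 (matOf ρbar.ρ bbar) H).map
      (LinearMap.range (adCoboundary (matOf ρbar.ρ bbar))).mkQ)]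
    {g : ℕ}
    (hg : Module.finrank (ResidueField 𝒪) ((selSpace 𝒟 (matOf ρbar.ρ bbar) H).map
        (LinearMap.range (adCoboundary (matOf ρbar.ρ bbar))).mkQ) +
      ∑ i, (Module.finrank (ResidueField 𝒪) (commutantSpace (matOf ρbar.ρ bbar) (H i)) - 1) +
      (s - 1) ≤ g)
    (lift0 : Fin s → Fin 2 → Mat 𝒪)
    (hlift0 : ∀ i e, (lift0 i e).map (residue 𝒪) = matOf ρbar.ρ bbar (el i e))
    (B : Type) [CommRing B] [IsLocalRing B] [IsNoetherianRing B]
    [IsAdicComplete (maximalIdeal B) B] [Algebra 𝒪 B] [Algebra D.R B]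
    [IsScalarTower 𝒪 D.R B] [IsLocalHom (algebraMap D.R B)]
    (hresB : Function.Surjective (residue B ∘ algebraMap 𝒪 B))
    (y : Fin s → Mat B) (hy : ∀ i a c, y i a c ∈ maximalIdeal B)
    (hnorm : ∀ i : Fin s, (i : ℕ) = 0 → y i 0 0 = 0)
    (hmB : maximalIdeal B ≤
      Ideal.span (Set.range fun v : Fin s × Fin 2 × Fin 2 => y v.1 v.2.1 v.2.2) ⊔
        (maximalIdeal D.R).map (algebraMap D.R B))
    (F : Fin s → Fin 2 → Mat B)
    (hF : ∀ i e, F i e * (1 + y i) =
      (1 + y i) * mapRep (algebraMap D.R B) (matOf D.ρ.ρ b) (el i e)) :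
    ∃ Φ : MvPowerSeries ((Fin s × Fin 2 × Fin 2 × Fin 2) ⊕ Fin g) 𝒪 →ₐ[𝒪] B,
      Function.Surjective Φ ∧ ∀ i e a c, Φ (MvPowerSeries.X (Sum.inl (i, e, a, c))) =
        F i e a c - algebraMap 𝒪 B (lift0 i e a c) := by
  classical
  have hlocB : IsLocalHom (algebraMap 𝒪 B) := by
    rw [IsScalarTower.algebraMap_eq 𝒪 D.R B]
    exact RingHom.isLocalHom_comp _ _
  set rb := matOf ρbar.ρ bbar with hrb
  set π := residueHom (𝒪 := 𝒪) hresB
  set ι := algebraMap D.R B
  have hπι : ∀ x, π (ι x) = residueHom (𝒪 := 𝒪) D.residue_surjective x := by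
    intro x
    obtain ⟨c, hc⟩ := D.residue_surjective (residue D.R x)
    have hm : x - algebraMap 𝒪 D.R c ∈ maximalIdeal D.R := by
      rw [← residue_eq_zero_iff, map_sub, sub_eq_zero]
      exact hc.symm
    have h1 : π (ι (x - algebraMap 𝒪 D.R c)) = 0 :=
      (residueHom_eq_zero_iff hresB _).mpr (map_nonunit ι _ hm)
    have h2 := (residueHom_eq_zero_iff (𝒪 := 𝒪) D.residue_surjective _).mpr hm
    rw [map_sub, map_sub, ← IsScalarTower.algebraMap_apply 𝒪 D.R B, residueHom_algebraMap,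
      sub_eq_zero] at h1
    rw [map_sub, residueHom_algebraMap, sub_eq_zero] at h2
    rw [h1, h2]
  have hπy : ∀ i, (y i).map π = 0 := fun i => Matrix.ext fun a c =>
    (residueHom_eq_zero_iff hresB _).mpr (hy i a c)
  have hπM : ∀ i e, ((matOf D.ρ.ρ b (el i e)).map ι).map π = rb (el i e) := fun i e => by
    rw [Matrix.map_map, hrb, ← residueHom_matOf D bbar b hb]
    exact Matrix.ext fun a c => hπι _
  have hπ1 : ∀ i, (1 + y i).map π = 1 := fun i => by
    rw [Matrix.map_add π (map_add π), hπy, add_zero, Matrix.map_one π (map_zero π) (map_one π)]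
  have hπF : ∀ i e, (F i e).map π = rb (el i e) := fun i e => by
    have h := congrArg (fun M => M.map π) (hF i e)
    simp only [mapRep_apply, Matrix.map_mul, hπ1, hπM, mul_one, one_mul] at h
    exact h
  let x : Fin s × Fin 2 × Fin 2 × Fin 2 → B := fun v =>
    F v.1 v.2.1 v.2.2.1 v.2.2.2 - algebraMap 𝒪 B (lift0 v.1 v.2.1 v.2.2.1 v.2.2.2)
  have hx : ∀ v, x v ∈ maximalIdeal B := fun v => by
    rw [← residueHom_eq_zero_iff hresB, map_sub, residueHom_algebraMap, sub_eq_zero,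
      ResidueField.algebraMap_eq]
    exact (congrFun (congrFun (hπF v.1 v.2.1) v.2.2.1) v.2.2.2).trans
      (congrFun (congrFun (hlift0 v.1 v.2.1) v.2.2.1) v.2.2.2).symm
  let K : Submodule (ResidueField 𝒪) (B → ResidueField 𝒪) :=
    tanSpace 𝒪 π ⊓ ⨅ v, LinearMap.ker (LinearMap.proj (x v))
  have hK : ∀ δ, δ ∈ K ↔ δ ∈ tanSpace 𝒪 π ∧ ∀ v, δ (x v) = 0 := fun δ => by
    simp [K, Submodule.mem_iInf]
  have hres : ∀ δ ∈ K, δ ∘ ι ∈ tanSpace 𝒪 (residueHom (𝒪 := 𝒪) D.residue_surjective) := by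
    intro δ hδ
    have h := ((hK δ).mp hδ).1
    refine ⟨fun a c => ?_, fun a c => ?_, fun c => ?_⟩
    · simp only [Function.comp_apply, map_add, tanSpace_map_add h]
    · simp only [Function.comp_apply, map_mul, tanSpace_map_mul h, hπι]
    · simp only [Function.comp_apply, ι, ← IsScalarTower.algebraMap_apply 𝒪 D.R B]
      exact tanSpace_map_algebraMap h c
  -- the framed class of a tangent vector
  have hloc : ∀ δ ∈ K, ∀ i e, tanCocycle D bbar b (δ ∘ ι) (el i e) =
      adCoboundary rb (-(y i).map δ) (el i e) := by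
    intro δ hδ i e
    obtain ⟨h, hv⟩ := (hK δ).mp hδ
    have hδF : (F i e).map δ = 0 := Matrix.ext fun a c => by
      have := hv (i, e, a, c)
      rwa [tanSpace_map_sub h, tanSpace_map_algebraMap h, sub_zero] at this
    have hδ1 : (1 + y i).map δ = (y i).map δ := by
      refine Matrix.ext fun a d => ?_
      rw [Matrix.map_apply, Matrix.add_apply, tanSpace_map_add h, Matrix.map_apply]
      by_cases had : a = d <;> simp [had, Matrix.one_apply, tanSpace_map_one h, tanSpace_map_zero h]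
    have h2 := congrArg (fun M => M.map δ) (hF i e)
    simp only [mapRep_apply, tanSpace_map_matrix_mul h, hπF, hπ1, hπM, hδF, hδ1, zero_mul,
      add_zero, one_mul] at h2
    rw [Matrix.map_map] at h2
    have h3 : (matOf D.ρ.ρ b (el i e)).map (δ ∘ ι) =
        rb (el i e) * (y i).map δ - (y i).map δ * rb (el i e) := eq_sub_of_add_eq h2.symm
    show _ = -(y i).map δ - rb (el i e) * -(y i).map δ * rb (el i e)⁻¹
    rw [tanCocycle, ← hrb, h3, sub_mul, mul_assoc _ (rb (el i e)) (rb (el i e)⁻¹), ← map_mul,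
      mul_inv_cancel, map_one, mul_one, mul_neg, neg_mul, sub_neg_eq_add, sub_eq_neg_add]
  have hmem : ∀ δ ∈ K, (tanCocycle D bbar b (δ ∘ ι), fun i => (y i).map δ) ∈
      framedSpace rb H (selSpace 𝒟 rb H) := by
    intro δ hδ
    have hT := tanCocycle_mem_tangentSet_all D bbar b hb (hres δ hδ) hD p hp𝒪 hdet
    exact ⟨Submodule.mem_sup_left (Submodule.subset_span
      ⟨hT, fun i => ⟨_, hgen _ hT i _ (hloc δ hδ i)⟩⟩), fun i => hgen _ hT i _ (hloc δ hδ i)⟩
  let N := (LinearMap.range (frameChange rb (s := s))).comap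
    (framedSpace rb H (selSpace 𝒟 rb H)).subtype
  let cls : K →ₗ[ResidueField 𝒪] framedSpace rb H (selSpace 𝒟 rb H) :=
    { toFun := fun δ => ⟨_, hmem δ.1 δ.2⟩
      map_add' := fun δ δ' => Subtype.ext (Prod.ext (funext fun g => by
        show (matOf D.ρ.ρ b g).map ((δ.1 + δ'.1) ∘ ι) * rb g⁻¹ =
          (matOf D.ρ.ρ b g).map (δ.1 ∘ ι) * rb g⁻¹ + (matOf D.ρ.ρ b g).map (δ'.1 ∘ ι) * rb g⁻¹
        rw [← add_mul]; rfl) rfl)
      map_smul' := fun c δ => Subtype.ext (Prod.ext (funext fun g => by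
        show (matOf D.ρ.ρ b g).map ((c • δ.1) ∘ ι) * rb g⁻¹ =
          c • ((matOf D.ρ.ρ b g).map (δ.1 ∘ ι) * rb g⁻¹)
        rw [← smul_mul_assoc]; rfl) rfl) }
  obtain ⟨hfinW, hdimW⟩ := finrank_framedClasses_le rb H (selSpace 𝒟 rb H)
  let Φ₀ : K →ₗ[ResidueField 𝒪] FramedClasses rb H (selSpace 𝒟 rb H) := N.mkQ.comp cls
  have hinj : Function.Injective Φ₀ := by
    rw [← LinearMap.ker_eq_bot, LinearMap.ker_eq_bot']
    rintro ⟨δ, hδ⟩ h0
    obtain ⟨X, hX⟩ := (Submodule.Quotient.mk_eq_zero N).mp h0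
    have hX1 : adCoboundary rb X = tanCocycle D bbar b (δ ∘ ι) := congrArg Prod.fst hX
    have hX2 : ∀ i, -X = (y i).map δ := fun i => congrFun (congrArg Prod.snd hX) i
    have hRzero : δ ∘ ι = 0 := eq_zero_of_tanCocycle_mem_range D bbar b hb (hres δ hδ) hD ⟨X, hX1⟩
    rw [hRzero, tanCocycle_zero] at hX1
    obtain ⟨c, hc⟩ := exists_eq_scalar_of_commute rb hspan X fun d =>
      (adCoboundary_apply_eq_zero_iff rb X d).mp (congrFun hX1 d)
    obtain ⟨h, -⟩ := (hK δ).mp hδ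
    have hyzero : ∀ i a d, δ (y i a d) = 0 := fun i a d => by
      let i₀ : Fin s := ⟨0, i.pos⟩
      have hc0 : c = 0 := by
        have h00 := congrFun (congrFun (hX2 i₀) 0) 0
        rw [Matrix.map_apply, hnorm i₀ rfl, tanSpace_map_zero h, hc] at h00
        simpa using h00
      have := congrFun (congrFun (hX2 i) a) d
      rw [hc, hc0] at this
      simpa using this.symm
    refine Subtype.ext (tanSpace_eq_zero_of_maximalIdeal hresB h fun m hm => ?_)
    show δ m = 0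
    obtain ⟨u, hu, w, hw, rfl⟩ := Submodule.mem_sup.mp (hmB hm)
    have hu0 : δ u = 0 := tanSpace_eq_zero_on_span h
      (by rintro _ ⟨⟨i, a, d⟩, rfl⟩; exact (residueHom_eq_zero_iff hresB _).mpr (hy i a d))
      (by rintro _ ⟨⟨i, a, d⟩, rfl⟩; exact hyzero i a d) hu
    have hw0 : δ w = 0 := tanSpace_eq_zero_on_span h (s := ι '' (maximalIdeal D.R : Set D.R))
      (by rintro _ ⟨z, hz, rfl⟩; exact (residueHom_eq_zero_iff hresB _).mpr (map_nonunit ι z hz))
      (by rintro _ ⟨z, -, rfl⟩; exact congrFun hRzero z) hw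
    rw [tanSpace_map_add h, hu0, hw0, add_zero]
  obtain ⟨Ψ, hΨ, hX⟩ := exists_mvPowerSeries_surjective_of_tanSpace hresB x hx
    (hdimW.trans hg) K hK Φ₀ hinj
  exact ⟨Ψ, hΨ, fun i e a c => hX (i, e, a, c)⟩

end Fermat.Agent.RT
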