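import Fermat.Prelude.Def_GaloisRep_LocalConditions
import Fermat.Agent.RT.Global.Defs
import Fermat.Agent.ClassField.S56.TWElement
import Fermat.Agent.ClassField.S14.Character

/-!
# Taylor–Wiles sets for a residual representation
-/

set_option autoImplicit false

noncomputable section

namespace Fermat.Agent.RT

open IsLocalRing Fermat.Agent.Deformation
open Deformation (Mat)

local notation "ℚ̄" => AlgebraicClosure ℚ

variable {k : Type} [Field k] (ρbar : ResidualGaloisRep k)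
  (bbar : Module.Basis (Fin 2) k ρbar.V)

/-- No eigenvector for a group of elements acting irreducibly. -/
theorem exists_mulVec_ne_smul (K : Type) [Field K] [Algebra k K] (G : Subgroup Γ)
    (h : ∀ V : Submodule K (ρbar.baseChange K).V,
      (∀ σ ∈ G, ∀ x ∈ V, (ρbar.baseChange K).ρ σ x ∈ V) → V = ⊥ ∨ V = ⊤)
    (v : Fin 2 → K) (hv : v ≠ 0) :
    ∃ g ∈ G, ∀ c : K, ((matOf ρbar.ρ bbar g).map (algebraMap k K)).mulVec v ≠ c • v := by
  by_contra! hcon
  let bK := Algebra.TensorProduct.basis K bbar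
  let w : (ρbar.baseChange K).V := bK.equivFun.symm v
  have hw : w ≠ 0 := fun h0 => hv (by
    have := congrArg bK.equivFun h0
    rwa [LinearEquiv.apply_symm_apply, map_zero] at this)
  have hinv : ∀ σ ∈ G, ∀ x ∈ Submodule.span K {w},
      (ρbar.baseChange K).ρ σ x ∈ Submodule.span K {w} := by
    intro σ hσ x hx
    obtain ⟨a, rfl⟩ := Submodule.mem_span_singleton.mp hx
    obtain ⟨c, hc⟩ := hcon σ hσ
    rw [map_smul]
    refine Submodule.smul_mem _ a (Submodule.mem_span_singleton.mpr ⟨c, ?_⟩)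
    refine bK.equivFun.injective ?_
    rw [map_smul, LinearEquiv.apply_symm_apply, ← hc]
    have hM : (matOf ρbar.ρ bbar σ).map (algebraMap k K) =
        LinearMap.toMatrix bK bK ((ρbar.baseChange K).ρ σ) :=
      (LinearMap.toMatrix_baseChange K (ρbar.ρ σ) bbar bbar).symm
    rw [hM]
    have h1 := LinearMap.toMatrix_mulVec_repr bK bK ((ρbar.baseChange K).ρ σ) w
    simp only [← Module.Basis.equivFun_apply, w, LinearEquiv.apply_symm_apply] at h1
    exact h1
  rcases h _ hinv with h0 | h0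
  · exact hw (Submodule.span_singleton_eq_bot.mp h0)
  · have h1 := finrank_span_singleton (K := K) hw
    rw [h0, finrank_top, (ρbar.baseChange K).finrank_eq] at h1
    omega

variable [Finite k]

/-- Taylor-Wiles primes of any depth detecting a space of twisted cocycles. -/
theorem exists_taylorWilesSet (p : ℕ) [Fact p.Prime] (hp2 : p ≠ 2) [CharP k p]
    (habs : ρbar.IsAbsolutelyIrreducible)
    (hdet : (GaloisRepAdic.ofResidualGaloisRep ρbar).DetIsCyclotomic p)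
    (hTW : ∀ (K : Type) [Field K] [Algebra k K] (G : Subgroup Γ), G.index = 2 →
      ∀ V : Submodule K (ρbar.baseChange K).V,
        (∀ σ ∈ G, ∀ x ∈ V, (ρbar.baseChange K).ρ σ x ∈ V) → V = ⊥ ∨ V = ⊤)
    (V : Submodule k (Γ → Mat k)) [FiniteDimensional k V]
    (hV : ∀ ψ ∈ V, IsTwistedCocycle (matOf ρbar.ρ bbar).toHomUnits ψ ∧
      (∀ g, (ψ g).trace = 0) ∧
      ∃ L : IntermediateField ℚ ℚ̄, FiniteDimensional ℚ L ∧
        ∀ g t : Γ, (∀ x ∈ L, t x = x) →
          matOf ρbar.ρ bbar (g * t) = matOf ρbar.ρ bbar g ∧ ψ (g * t) = ψ g)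
    (hinj : ∀ ψ ∈ V, (∃ X : Mat k, X.trace = 0 ∧ ∀ g, ψ g = (matOf ρbar.ρ bbar g).det •
      (matOf ρbar.ρ bbar g * X * matOf ρbar.ρ bbar g⁻¹) - X) → ψ = 0)
    (S : Finset ℕ) (n : ℕ) :
    ∃ qv : Fin (Module.finrank k V) → ℕ, Function.Injective qv ∧
      (∀ i, qv i ∉ S ∧ IsTWPrime (matOf ρbar.ρ bbar).toHomUnits p (n + 1) (qv i)) ∧
      ∀ ψ ∈ V, (∀ i, ∀ P : ValuationSubring ℚ̄, P.LiesOverPrime (qv i) → ∀ φ : Γ,
        P.IsFrobeniusAt φ (qv i) → (ψ φ * matOf ρbar.ρ bbar φ).trace = 0) → ψ = 0 := by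
  have hp : p.Prime := Fact.out
  set rb := matOf ρbar.ρ bbar with hrb
  have : NeZero (p ^ (n + 1)) := ⟨pow_ne_zero _ hp.ne_zero⟩
  have : NeZero p := ⟨hp.ne_zero⟩
  set Γn := (EC.cycloChar (p ^ (n + 1))).ker with hΓn
  have hfix : ∀ σ ∈ Γn, ∀ μ : ℚ̄, μ ^ p ^ (n + 1) = 1 → σ μ = μ := by
    intro σ hσ μ hμ
    rw [EC.apply_eq_pow_cycloChar _ σ hμ, MonoidHom.mem_ker.mp hσ, Units.val_one,
      ZMod.val_one'' (Nat.one_lt_pow (Nat.succ_ne_zero n) hp.one_lt).ne', pow_one]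
  have hdet' : ∀ (σ : Γ) (a : ℕ), (∀ μ : ℚ̄, μ ^ p = 1 → σ μ = μ ^ a) → (rb σ).det = a := by
    intro σ a ha
    have h := hdet.2 1 σ a (by simpa using ha)
    rw [pow_one, CharP.cast_eq_zero k p, Ideal.span_singleton_eq_bot.mpr rfl, Ideal.mem_bot,
      sub_eq_zero] at h
    rw [hrb, matOf_apply, LinearMap.det_toMatrix]
    exact h
  have hdet1 : ∀ σ ∈ Γn, (rb σ).det = 1 := fun σ hσ => by
    rw [hdet' σ 1 fun μ hμ => (hfix σ hσ μ (by rw [pow_succ', pow_mul, hμ, one_pow])).trans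
      (pow_one μ).symm, Nat.cast_one]
  have hsurj : ∀ u : (ZMod p)ˣ, ∃ g,
      (rb g).det = ZMod.castHom (dvd_refl p) k (u : ZMod p) := by
    intro u
    obtain ⟨σ, hσ⟩ := ClassField.S14.cycloChar_surjective p u
    refine ⟨σ, ?_⟩
    have hσ' : (EC.cycloChar p σ : ZMod p) = u := by
      rw [← EC.cycloExp_eq, ← ExtCitation.val_cycloChar, hσ, ZMod.natCast_zmod_val]
    rw [hdet' σ (u : ZMod p).val fun μ hμ => by rw [EC.apply_eq_pow_cycloChar p σ hμ, hσ'],
      ZMod.castHom_apply, ZMod.cast_eq_val]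
  let K := AlgebraicClosure k
  have hirrK : ∀ (G : Subgroup Γ), (G = ⊤ ∨ G.index = 2) → ∀ v : Fin 2 → K, v ≠ 0 →
      ∃ g ∈ G, ∀ c : K, ((rb g).map (algebraMap k K)).mulVec v ≠ c • v := by
    intro G hG v hv
    refine exists_mulVec_ne_smul ρbar bbar K G (fun W hW => ?_) v hv
    rcases hG with rfl | hG
    · exact habs W fun σ x hx => hW σ (Subgroup.mem_top σ) x hx
    · exact hTW K G hG W hW
  let ρK : Γ →* GL (Fin 2) K :=
    (Matrix.GeneralLinearGroup.map (algebraMap k K)).comp rb.toHomUnits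
  have hirr := ClassField.TWElement.irreducible_restrict ρK
    (fun v hv => (hirrK ⊤ (Or.inl rfl) v hv).imp fun g hg => hg.2)
    (fun G hG v hv => hirrK G (Or.inr hG) v hv) Γn
    (fun g g' => by
      rw [hΓn, MonoidHom.mem_ker, map_mul, map_mul, map_mul, map_inv, map_inv,
        mul_comm (EC.cycloChar _ g), mul_inv_cancel_right, mul_inv_cancel])
  obtain ⟨qv, hinjq, hqv, hker⟩ := exists_taylorWilesPrimes rb.toHomUnits V.subtype
    (fun v => (hV v v.2).1) (fun v => (hV v v.2).2.1) (fun v => by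
      obtain ⟨L, hL, h⟩ := (hV v v.2).2.2
      exact ⟨L, hL, fun g t ht => ⟨Units.ext (h g t ht).1, (h g t ht).2⟩⟩)
    hp (n + 1) (fun v hv => by
      obtain ⟨σ, hσ, h4, ht⟩ := ClassField.TWElement.exists_element_trace_ne_zero hp2
        rb.toHomUnits (Set.toFinite _) Γn hdet1 hsurj
        (fun w hw => hirr w hw) (v : Γ → Mat k) (hV v v.2).2.1 (hV v v.2).1
        (fun hX => hv (Subtype.ext (hinj v v.2 hX)))
      exact ⟨σ, hfix σ hσ, hdet1 σ hσ, h4, ht⟩) S
  exact ⟨qv, hinjq, hqv, fun ψ hψ h => congrArg Subtype.val (hker ⟨ψ, hψ⟩ h)⟩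

end Fermat.Agent.RT
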