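import Fermat.Prelude.Def_GaloisRep_LocalConditions
import Fermat.Agent.RT.Global.Framed
import Fermat.Agent.RT.Global.TWSets
import Fermat.Agent.RT.Global.FrameRing

/-!
# Presentation of the framed global deformation ring over the local framing data

There is `r`, and for every depth `n + 1` there are `r` Taylor-Wiles primes, such that the framed
deformation ring with framings at `s` places is generated over `𝒪` by the entries of the framed
matrices of two local elements at each place and `r + (s - 1)` further variables.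
-/

set_option autoImplicit false

noncomputable section

namespace Fermat.Agent.RT

open IsLocalRing Fermat.Agent.Deformation GaloisRep
open Deformation (Mat)

/-- The index set of the local framing variables: place, element, row, column. -/
abbrev LocVar (s : ℕ) : Type := Fin s × Fin 2 × Fin 2 × Fin 2

theorem exists_globalPresentation
    {𝒪 : Type} [CommRing 𝒪] [IsDomain 𝒪] [IsDiscreteValuationRing 𝒪]
    [IsAdicComplete (maximalIdeal 𝒪) 𝒪] [Finite (ResidueField 𝒪)]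
    (p : ℕ) [Fact p.Prime] (hp2 : p ≠ 2) (hp𝒪 : (p : 𝒪) ∈ maximalIdeal 𝒪)
    (ρbar : ResidualGaloisRep (ResidueField 𝒪)) (habs : ρbar.IsAbsolutelyIrreducible)
    (hdet : (GaloisRepAdic.ofResidualGaloisRep ρbar).DetIsCyclotomic p)
    (hTW : ∀ (K : Type) [Field K] [Algebra (ResidueField 𝒪) K] (G : Subgroup Γ), G.index = 2 →
      ∀ V : Submodule K (ρbar.baseChange K).V,
        (∀ σ ∈ G, ∀ x ∈ V, (ρbar.baseChange K).ρ σ x ∈ V) → V = ⊥ ∨ V = ⊤)
    (bbar : Module.Basis (Fin 2) (ResidueField 𝒪) ρbar.V)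
    (𝒟 : Finset ℕ → ∀ ⦃A : Type⦄ [CommRing A] [IsLocalRing A] [Algebra 𝒪 A],
      GaloisRepAdic A → Prop)
    (h𝒟 : ∀ Q, IsDeformationCondition 𝒪 (𝒟 Q))
    (h𝒟det : ∀ Q, ∀ ⦃A : Type⦄ [CommRing A] [IsLocalRing A] [Algebra 𝒪 A] ⦃ρ : GaloisRepAdic A⦄,
      𝒟 Q ρ → ρ.DetIsCyclotomic p)
    (S : Finset ℕ) {s : ℕ} (H : Fin s → Subgroup Γ) (el : Fin s → Fin 2 → Γ)
    (hgen : ∀ Q : Finset ℕ, ∀ Z ∈ tangentSet (𝒟 Q) (matOf ρbar.ρ bbar), ∀ i, ∀ X,
      (∀ e, Z (el i e) = adCoboundary (matOf ρbar.ρ bbar) X (el i e)) →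
      ∀ d ∈ H i, Z d = adCoboundary (matOf ρbar.ρ bbar) X d)
    (hEuler : GlobalEulerBound p (matOf ρbar.ρ bbar) 𝒟 S H)
    (lift0 : Fin s → Fin 2 → Mat 𝒪)
    (hlift0 : ∀ i e, (lift0 i e).map (residue 𝒪) = matOf ρbar.ρ bbar (el i e)) :
    ∃ r : ℕ, ∀ n : ℕ, ∃ qv : Fin r → ℕ, Function.Injective qv ∧
      (∀ i, qv i ∉ S ∧ IsTWPrime (matOf ρbar.ρ bbar).toHomUnits p (n + 1) (qv i)) ∧
      ∀ (D : DeformationRingData 𝒪 ρbar (𝒟 (Finset.univ.image qv)))
        (b : Module.Basis (Fin 2) D.R D.ρ.V),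
        residueMat D b = mapRep (ResidueField.map (algebraMap 𝒪 D.R)) (matOf ρbar.ρ bbar) →
      ∀ (B : Type) [CommRing B] [IsLocalRing B] [IsNoetherianRing B]
        [IsAdicComplete (maximalIdeal B) B] [Algebra 𝒪 B] [Algebra D.R B]
        [IsScalarTower 𝒪 D.R B] [IsLocalHom (algebraMap D.R B)],
        Function.Surjective (residue B ∘ algebraMap 𝒪 B) →
      ∀ y : Fin s → Mat B, (∀ i a c, y i a c ∈ maximalIdeal B) →
        (∀ i : Fin s, (i : ℕ) = 0 → y i 0 0 = 0) →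
        maximalIdeal B ≤ Ideal.span (Set.range fun v : Fin s × Fin 2 × Fin 2 => y v.1 v.2.1 v.2.2) ⊔
          (maximalIdeal D.R).map (algebraMap D.R B) →
      ∀ F : Fin s → Fin 2 → Mat B,
        (∀ i e, F i e * (1 + y i) =
          (1 + y i) * mapRep (algebraMap D.R B) (matOf D.ρ.ρ b) (el i e)) →
        ∃ Φ : MvPowerSeries (LocVar s ⊕ Fin (r + (s - 1))) 𝒪 →ₐ[𝒪] B, Function.Surjective Φ ∧
          ∀ i e a c, Φ (MvPowerSeries.X (Sum.inl (i, e, a, c))) =
            F i e a c - algebraMap 𝒪 B (lift0 i e a c) := by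
  classical
  have : CharP (ResidueField 𝒪) p := (CharP.charP_iff_prime_eq_zero Fact.out).mpr (by
    rw [← map_natCast (residue 𝒪), residue_eq_zero_iff]; exact hp𝒪)
  obtain ⟨V, U, hVfin, hV, hVinj, hbound⟩ := hEuler
  refine ⟨Module.finrank (ResidueField 𝒪) V, fun n => ?_⟩
  obtain ⟨qv, hinj, hqv, hker⟩ := exists_taylorWilesSet ρbar bbar p hp2 habs hdet
    (fun K _ _ G hG => hTW K G hG) V hV hVinj (S ∪ U) n
  refine ⟨qv, hinj, fun i => ⟨fun h => (hqv i).1 (Finset.mem_union_left U h), (hqv i).2⟩, fun D b hb B _ _ _ _ _ _ _ _ hres y hy hnorm hmB F hF => ?_⟩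
  obtain ⟨hfd, hdim⟩ := hbound (Finset.univ.image qv) fun q hq => by
    obtain ⟨i, -, rfl⟩ := Finset.mem_image.mp hq
    obtain ⟨hS, hprime, hne, hdvd, hloc⟩ := hqv i
    exact ⟨hS, hprime, hne, (pow_dvd_pow p (Nat.le_add_left 1 n)).trans hdvd, hloc⟩
  specialize hdim ⊥ fun ψ => by
    rw [Submodule.mem_bot]
    exact ⟨fun h => h ▸ ⟨zero_mem V, fun q _ P _ φ _ => by simp⟩, fun h => hker ψ h.1
      fun i P hP φ hφ => h.2 _ (Finset.mem_image_of_mem qv (Finset.mem_univ i)) P hP φ hφ⟩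
  rw [finrank_bot, add_zero, Finset.card_image_of_injective _ hinj, Finset.card_univ,
    Fintype.card_fin] at hdim
  exact exists_framedGenerators p hp𝒪 (h𝒟 _) D (h𝒟det _ D.isOfType) bbar
    (span_residualMatrix_eq_top habs bbar) b hb H el (hgen _) (by omega) lift0 hlift0 B hres y hy
    hnorm hmB F hF

/-- The presentation, applied to the power series ring of framings over the deformation ring. -/
theorem exists_frameRing_presentation
    {𝒪 : Type} [CommRing 𝒪] [IsDomain 𝒪] [IsDiscreteValuationRing 𝒪]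
    [IsAdicComplete (maximalIdeal 𝒪) 𝒪] [Finite (ResidueField 𝒪)]
    {ρbar : ResidualGaloisRep (ResidueField 𝒪)}
    {𝒟 : ∀ ⦃A : Type⦄ [CommRing A] [IsLocalRing A] [Algebra 𝒪 A], GaloisRepAdic A → Prop}
    (D : DeformationRingData 𝒪 ρbar 𝒟) (b : Module.Basis (Fin 2) D.R D.ρ.V) {s g : ℕ}
    (el : Fin s → Fin 2 → Γ) (lift0 : Fin s → Fin 2 → Mat 𝒪)
    (h : ∀ (B : Type) [CommRing B] [IsLocalRing B] [IsNoetherianRing B]
        [IsAdicComplete (maximalIdeal B) B] [Algebra 𝒪 B] [Algebra D.R B]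
        [IsScalarTower 𝒪 D.R B] [IsLocalHom (algebraMap D.R B)],
        Function.Surjective (residue B ∘ algebraMap 𝒪 B) →
      ∀ y : Fin s → Mat B, (∀ i a c, y i a c ∈ maximalIdeal B) →
        (∀ i : Fin s, (i : ℕ) = 0 → y i 0 0 = 0) →
        maximalIdeal B ≤ Ideal.span (Set.range fun v : Fin s × Fin 2 × Fin 2 => y v.1 v.2.1 v.2.2) ⊔
          (maximalIdeal D.R).map (algebraMap D.R B) →
      ∀ F : Fin s → Fin 2 → Mat B,
        (∀ i e, F i e * (1 + y i) =
          (1 + y i) * mapRep (algebraMap D.R B) (matOf D.ρ.ρ b) (el i e)) →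
        ∃ Φ : MvPowerSeries (LocVar s ⊕ Fin g) 𝒪 →ₐ[𝒪] B, Function.Surjective Φ ∧
          ∀ i e a c, Φ (MvPowerSeries.X (Sum.inl (i, e, a, c))) =
            F i e a c - algebraMap 𝒪 B (lift0 i e a c)) :
    ∃ Φ : MvPowerSeries (LocVar s ⊕ Fin g) 𝒪 →ₐ[𝒪] MvPowerSeries (FrameVar s) D.R,
      Function.Surjective Φ ∧ ∀ i e a c, Φ (MvPowerSeries.X (Sum.inl (i, e, a, c))) =
        frameConj D.R s i (matOf D.ρ.ρ b (el i e)) a c -
          algebraMap 𝒪 (MvPowerSeries (FrameVar s) D.R) (lift0 i e a c) :=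
  h (MvPowerSeries (FrameVar s) D.R) (residue_surjective_mvPowerSeries D.residue_surjective)
    (frameY D.R s) (frameY_mem D.R s) (frameY_apply_zero D.R s) (maximalIdeal_frameRing_le D.R s)
    (fun i e => frameConj D.R s i (matOf D.ρ.ρ b (el i e))) fun i e => frameConj_mul D.R s i _

end Fermat.Agent.RT
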