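import Fermat.Prelude.Def_GaloisRep_LocalConditions
import Fermat.Agent.RT.Global.TWSets
import Fermat.Agent.RT.Global.Tangent

/-!
# Invariants of the trace-zero adjoint representation

The numerical invariants entering the Greenberg-Wiles formula for `ad⁰` and `ad⁰(1)`.
-/

set_option autoImplicit false

noncomputable section

namespace Fermat.Agent.RT

open IsLocalRing Fermat.Agent.Deformation
open Deformation (Mat)

variable {k : Type} [Field k]

/-- The trace-zero matrices. -/
def traceZero (k : Type) [Field k] : Submodule k (Mat k) :=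
  LinearMap.ker (Matrix.traceLinearMap (Fin 2) k k)

theorem mem_traceZero {X : Mat k} : X ∈ traceZero k ↔ X.trace = 0 := Iff.rfl

theorem one_notMem_traceZero (h2 : (2 : k) ≠ 0) : (1 : Mat k) ∉ traceZero k := by
  rw [mem_traceZero, Matrix.trace_one, Fintype.card_fin]
  simpa using h2

/-- The commutant is the scalars plus its trace-zero part. -/
theorem finrank_commutantSpace_eq (h2 : (2 : k) ≠ 0) (r : Γ →* Mat k) (H : Subgroup Γ) :
    Module.finrank k (commutantSpace r H) =
      Module.finrank k ↥(commutantSpace r H ⊓ traceZero k) + 1 := by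
  have h1 : (1 : Mat k) ∈ commutantSpace r H := fun d _ => by rw [mul_one, one_mul]
  have hsup : (commutantSpace r H ⊓ traceZero k) ⊔ Submodule.span k {(1 : Mat k)} =
      commutantSpace r H := by
    refine le_antisymm (sup_le inf_le_left ((Submodule.span_singleton_le_iff_mem _ _).mpr h1))
      fun X hX => ?_
    rw [← sub_add_cancel X ((X.trace / 2) • (1 : Mat k))]
    refine Submodule.add_mem_sup ⟨sub_mem hX (Submodule.smul_mem _ _ h1), ?_⟩
      (Submodule.smul_mem _ _ (Submodule.mem_span_singleton_self _))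
    rw [SetLike.mem_coe, mem_traceZero, Matrix.trace_sub, Matrix.trace_smul, Matrix.trace_one,
      Fintype.card_fin, smul_eq_mul]
    push_cast
    field_simp
    ring
  have hdisj : (commutantSpace r H ⊓ traceZero k) ⊓ Submodule.span k {(1 : Mat k)} = ⊥ := by
    rw [Submodule.eq_bot_iff]
    rintro X ⟨⟨-, hX⟩, hX'⟩
    obtain ⟨c, rfl⟩ := Submodule.mem_span_singleton.mp hX'
    by_contra hc
    refine one_notMem_traceZero h2 ((Submodule.smul_mem_iff _ fun h => hc ?_).mp hX)
    rw [h, zero_smul]
  have := Submodule.finrank_sup_add_finrank_inf_eq (commutantSpace r H ⊓ traceZero k)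
    (Submodule.span k {(1 : Mat k)})
  rw [hsup, hdisj, finrank_bot, finrank_span_singleton (one_ne_zero : (1 : Mat k) ≠ 0)] at this
  omega

/-- The trace-zero matrices commuting with a non-scalar matrix form a line. -/
theorem finrank_traceZero_commute_eq_one (h2 : (2 : k) ≠ 0) (M : Mat k)
    (hM : ∀ c : k, M ≠ c • 1) (U : Submodule k (Mat k))
    (hU : ∀ X, X ∈ U ↔ X.trace = 0 ∧ M * X = X * M) : Module.finrank k U = 1 := by
  set M₀ := M - (M.trace / 2) • (1 : Mat k) with hM₀
  have hne : M₀ ≠ 0 := fun h => hM _ (sub_eq_zero.mp h)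
  have hmem : M₀ ∈ U := by
    refine (hU _).mpr ⟨?_, ?_⟩
    · rw [hM₀, Matrix.trace_sub, Matrix.trace_smul, Matrix.trace_one, Fintype.card_fin, smul_eq_mul]
      push_cast
      field_simp
      ring
    · rw [hM₀, mul_sub, sub_mul, mul_smul_comm, smul_mul_assoc, mul_one, one_mul]
  refine le_antisymm ?_ (Submodule.one_le_finrank_iff.mpr fun h => hne
    ((Submodule.eq_bot_iff _).mp h _ hmem))
  refine (Submodule.finrank_mono (t := Submodule.span k {M₀}) fun X hX => ?_).trans
    (finrank_span_singleton hne).le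
  obtain ⟨htr, hcomm⟩ := (hU X).mp hX
  have hcomm₀ : M₀ * X = X * M₀ := by
    rw [hM₀, sub_mul, mul_sub, mul_smul_comm, smul_mul_assoc, mul_one, one_mul, hcomm]
  have htr₀ : M₀.trace = 0 := ((hU _).mp hmem).1
  rw [Matrix.trace_fin_two] at htr htr₀
  have e00 := congrFun (congrFun hcomm₀ 0) 0
  have e01 := congrFun (congrFun hcomm₀ 0) 1
  have e10 := congrFun (congrFun hcomm₀ 1) 0
  simp only [Matrix.mul_apply, Fin.sum_univ_two] at e00 e01 e10
  have hX11 : X 1 1 = -X 0 0 := by linear_combination htr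
  have hM11 : M₀ 1 1 = -M₀ 0 0 := by linear_combination htr₀
  have k1 : M₀ 0 1 * X 1 0 = X 0 1 * M₀ 1 0 := by linear_combination e00
  have k2 : M₀ 0 0 * X 0 1 = X 0 0 * M₀ 0 1 := by
    refine mul_left_cancel₀ h2 ?_
    rw [hX11, hM11] at e01
    linear_combination e01
  have k3 : M₀ 0 0 * X 1 0 = X 0 0 * M₀ 1 0 := by
    refine mul_left_cancel₀ h2 ?_
    rw [hX11, hM11] at e10
    linear_combination -e10
  rw [Submodule.mem_span_singleton]
  by_cases ha : M₀ 0 0 = 0
  · by_cases hb : M₀ 0 1 = 0
    · have hc : M₀ 1 0 ≠ 0 := fun hc => hne (Matrix.ext fun i j => by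
        fin_cases i <;> fin_cases j <;> simp [ha, hb, hc, hM11])
      refine ⟨X 1 0 / M₀ 1 0, Matrix.ext fun i j => ?_⟩
      rw [hb, zero_mul, eq_comm, mul_eq_zero] at k1
      rw [ha, zero_mul, eq_comm, mul_eq_zero] at k3
      have k1' := k1.resolve_right hc
      have k3' := k3.resolve_right hc
      fin_cases i <;> fin_cases j <;> simp [ha, hb, hM11, hX11, k1', k3', hc]
    · refine ⟨X 0 1 / M₀ 0 1, Matrix.ext fun i j => ?_⟩
      rw [ha, zero_mul, eq_comm, mul_eq_zero] at k2
      have k2' := k2.resolve_right hb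
      fin_cases i <;> fin_cases j <;> simp [ha, hM11, hX11, k2', hb]
      field_simp
      linear_combination -k1
  · refine ⟨X 0 0 / M₀ 0 0, Matrix.ext fun i j => ?_⟩
    fin_cases i <;> fin_cases j <;> simp [hM11, hX11] <;> field_simp
    · linear_combination -k2
    · linear_combination -k3

/-- An element with determinant one and trace squared other than four is not scalar. -/
theorem ne_smul_one_of_det_eq_one {M : Mat k} (hd : M.det = 1) (ht : M.trace ^ 2 ≠ 4) (c : k) :
    M ≠ c • 1 := by
  rintro rfl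
  refine ht ?_
  rw [Matrix.det_smul, Matrix.det_one, mul_one, Fintype.card_fin] at hd
  rw [Matrix.trace_smul, Matrix.trace_one, Fintype.card_fin, smul_eq_mul]
  push_cast
  linear_combination 4 * hd

/-- An involution with determinant `-1` is not scalar. -/
theorem ne_smul_one_of_involution (h2 : (2 : k) ≠ 0) {M : Mat k} (hM : M * M = 1)
    (hd : M.det = -1) (c : k) : M ≠ c • 1 := by
  rintro rfl
  have := congrFun (congrFun hM 0) 0
  simp [Matrix.det_fin_two] at hd this
  exact h2 (by linear_combination hd - this)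

variable (ρbar : ResidualGaloisRep k) (bbar : Module.Basis (Fin 2) k ρbar.V)

/-- `ad⁰` has no invariants. -/
theorem eq_zero_of_forall_commute (h2 : (2 : k) ≠ 0) (habs : ρbar.IsAbsolutelyIrreducible)
    {X : Mat k} (htr : X.trace = 0) (h : ∀ g, matOf ρbar.ρ bbar g * X = X * matOf ρbar.ρ bbar g) :
    X = 0 := by
  obtain ⟨c, rfl⟩ := exists_eq_scalar_of_commute _ (span_residualMatrix_eq_top habs bbar) X h
  rw [Matrix.trace_smul, Matrix.trace_one, Fintype.card_fin, smul_eq_mul] at htr
  rw [(mul_eq_zero.mp htr).resolve_right (by simpa using h2), zero_smul]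

/-- An element of the twisted invariants of `ad⁰(1)` vanishes. -/
theorem eq_zero_of_forall_twisted [Finite k] (p : ℕ) [Fact p.Prime] [CharP k p] (hp2 : p ≠ 2)
    (habs : ρbar.IsAbsolutelyIrreducible)
    (hdet : (GaloisRepAdic.ofResidualGaloisRep ρbar).DetIsCyclotomic p)
    (hTW : ∀ (K : Type) [Field K] [Algebra k K] (G : Subgroup Γ), G.index = 2 →
      ∀ V : Submodule K (ρbar.baseChange K).V,
        (∀ σ ∈ G, ∀ x ∈ V, (ρbar.baseChange K).ρ σ x ∈ V) → V = ⊥ ∨ V = ⊤)
    {X : Mat k} (htr : X.trace = 0)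
    (h : ∀ g, (matOf ρbar.ρ bbar g).det • (matOf ρbar.ρ bbar g * X * matOf ρbar.ρ bbar g⁻¹) = X) :
    X = 0 := by
  have hp : p.Prime := Fact.out
  have : NeZero p := ⟨hp.ne_zero⟩
  set rb := matOf ρbar.ρ bbar with hrb
  have h2 : (2 : k) ≠ 0 := fun h0 => hp2 ((Nat.prime_dvd_prime_iff_eq hp Nat.prime_two).mp
    ((CharP.cast_eq_zero_iff k p 2).mp (by exact_mod_cast h0)))
  have hcomm : ∀ g, (rb g).det • (rb g * X) = X * rb g := fun g => by
    have h' := congrArg (· * rb g) (h g)
    simp only [smul_mul_assoc, mul_assoc, ← map_mul, inv_mul_cancel, map_one, mul_one] at h'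
    exact h'
  by_contra hX
  let K := AlgebraicClosure k
  let φ := algebraMap k K
  have hirrK : ∀ G : Subgroup Γ, (G = ⊤ ∨ G.index = 2) → ∀ v : Fin 2 → K, v ≠ 0 →
      ∃ g ∈ G, ∀ c : K, ((rb g).map φ).mulVec v ≠ c • v := by
    intro G hG v hv
    refine exists_mulVec_ne_smul ρbar bbar K G (fun W hW => ?_) v hv
    rcases hG with rfl | hG
    · exact habs W fun σ x hx => hW σ (Subgroup.mem_top σ) x hx
    · exact hTW K G hG W hW
  -- a nonzero matrix has at most a line of null vectors
  have hline : ∀ (Y : Matrix (Fin 2) (Fin 2) K) (v w : Fin 2 → K), Y ≠ 0 → v ≠ 0 →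
      Y.mulVec v = 0 → Y.mulVec w = 0 → ∃ c : K, w = c • v := by
    intro Y v w hY hv hYv hYw
    obtain ⟨i, j, hij⟩ : ∃ i j, Y i j ≠ 0 := by
      by_contra! h0
      exact hY (Matrix.ext h0)
    have ev := congrFun hYv i
    have ew := congrFun hYw i
    simp [Matrix.mulVec, dotProduct, Fin.sum_univ_two] at ev ew
    have hdet : v 0 * w 1 - v 1 * w 0 = 0 := by
      fin_cases j
      · exact mul_left_cancel₀ hij (show Y i 0 * _ = Y i 0 * 0 by
          linear_combination w 1 * ev - v 1 * ew)
      · exact mul_left_cancel₀ hij (show Y i 1 * _ = Y i 1 * 0 by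
          linear_combination v 0 * ew - w 0 * ev)
    by_cases h0 : v 0 = 0
    · have h1 : v 1 ≠ 0 := fun h1 => hv (funext fun t => by fin_cases t <;> assumption)
      refine ⟨w 1 / v 1, funext fun t => ?_⟩
      rw [h0, zero_mul, zero_sub, neg_eq_zero, mul_eq_zero] at hdet
      fin_cases t
      · simp [h0, hdet.resolve_left h1]
      · exact (div_mul_cancel₀ (w 1) h1).symm
    · refine ⟨w 0 / v 0, funext fun t => ?_⟩
      fin_cases t
      · exact (div_mul_cancel₀ (w 0) h0).symm
      · show w 1 = w 0 / v 0 * v 1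
        rw [div_mul_eq_mul_div, eq_div_iff h0]
        linear_combination hdet
  have hdetX : X.det ≠ 0 := by
    intro h0
    have hdK : (X.map φ).det = 0 := by
      rw [← RingHom.mapMatrix_apply, ← RingHom.map_det, h0, map_zero]
    obtain ⟨v, hv, hXv⟩ := Matrix.exists_mulVec_eq_zero_iff.mpr hdK
    have hXK : X.map φ ≠ 0 := fun h' => hX (Matrix.ext fun i j => φ.injective
      ((congrFun (congrFun h' i) j).trans (map_zero φ).symm))
    obtain ⟨g, -, hg⟩ := hirrK ⊤ (Or.inl rfl) v hv
    obtain ⟨c, hc⟩ := hline (X.map φ) v (((rb g).map φ).mulVec v) hXK hv hXv (by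
      rw [Matrix.mulVec_mulVec, ← Matrix.map_mul, ← hcomm g,
        Matrix.map_smul' φ _ _ (map_mul φ), Matrix.map_mul, Matrix.smul_mulVec,
        ← Matrix.mulVec_mulVec, hXv, Matrix.mulVec_zero, smul_zero])
    exact hg c hc
  have hsq : ∀ g, (rb g).det * (rb g).det = 1 := by
    intro g
    have h' := congrArg Matrix.det (hcomm g)
    rw [Matrix.det_smul, Matrix.det_mul, Matrix.det_mul, Fintype.card_fin] at h'
    have hu : (rb g).det ≠ 0 := fun h0 => by
      have h1 := congrArg Matrix.det (map_mul rb g g⁻¹)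
      rw [mul_inv_cancel, map_one, Matrix.det_one, Matrix.det_mul, h0, zero_mul] at h1
      exact one_ne_zero h1
    refine mul_left_cancel₀ (mul_ne_zero hu hdetX) ?_
    linear_combination h'
  have hsurj : ∀ u : (ZMod p)ˣ, ∃ g, (rb g).det = ZMod.castHom (dvd_refl p) k (u : ZMod p) := by
    intro u
    obtain ⟨σ, hσ⟩ := ClassField.S14.cycloChar_surjective p u
    have hσ' : (EC.cycloChar p σ : ZMod p) = u := by
      rw [← EC.cycloExp_eq, ← ExtCitation.val_cycloChar, hσ, ZMod.natCast_zmod_val]
    refine ⟨σ, ?_⟩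
    have h' := hdet.2 1 σ (u : ZMod p).val fun μ hμ => by
      rw [pow_one] at hμ
      rw [EC.apply_eq_pow_cycloChar p σ hμ, hσ']
    rw [pow_one, CharP.cast_eq_zero k p, Ideal.span_singleton_eq_bot.mpr rfl, Ideal.mem_bot,
      sub_eq_zero] at h'
    rw [hrb, matOf_apply, LinearMap.det_toMatrix, ZMod.castHom_apply, ZMod.cast_eq_val]
    exact h'
  -- the kernel of the determinant has index two
  let f : Γ →* kˣ := ((Matrix.detMonoidHom).comp rb).toHomUnits
  have hrange : (f.range : Set kˣ) = {1, -1} := by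
    refine Set.eq_of_subset_of_subset ?_ ?_
    · rintro _ ⟨g, rfl⟩
      rcases mul_self_eq_one_iff.mp (hsq g) with h' | h'
      · exact Or.inl (Units.ext h')
      · exact Or.inr (Units.ext h')
    · rintro _ (rfl | rfl)
      · exact one_mem f.range
      · obtain ⟨g, hg⟩ := hsurj (-1)
        refine ⟨g, Units.ext ?_⟩
        show (rb g).det = -1
        rw [hg, Units.val_neg, Units.val_one, map_neg, map_one]
  have hindex : f.ker.index = 2 := by
    rw [Subgroup.index_ker]
    have hc : Nat.card f.range = Set.ncard (f.range : Set kˣ) := Nat.card_coe_set_eq _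
    rw [hc, hrange, Set.ncard_pair]
    intro h0
    refine h2 ?_
    have := congrArg Units.val h0
    simp only [Units.val_one, Units.val_neg] at this
    linear_combination this
  obtain ⟨e, he⟩ := IsAlgClosed.exists_pow_nat_eq (-(φ X.det)) (Nat.succ_pos 1)
  have hdY : (X.map φ - e • (1 : Matrix (Fin 2) (Fin 2) K)).det = 0 := by
    rw [Matrix.trace_fin_two] at htr
    rw [Matrix.det_fin_two] at he ⊢
    simp [map_sub, map_mul] at he ⊢
    have htr' : φ (X 0 0) + φ (X 1 1) = 0 := by rw [← map_add, htr, map_zero]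
    linear_combination he - e * htr'
  obtain ⟨v, hv, hYv⟩ := Matrix.exists_mulVec_eq_zero_iff.mpr hdY
  have hY : X.map φ - e • (1 : Matrix (Fin 2) (Fin 2) K) ≠ 0 := by
    intro h0
    have a := congrFun (congrFun h0 0) 0
    have d := congrFun (congrFun h0 1) 1
    have b := congrFun (congrFun h0 0) 1
    simp at a d b
    have htr' : φ (X 0 0) + φ (X 1 1) = 0 := by
      rw [← map_add, ← Matrix.trace_fin_two, htr, map_zero]
    have he0 : e = 0 := mul_left_cancel₀ (show (2 : K) ≠ 0 from fun h' => h2 (φ.injective (by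
      rw [map_ofNat, map_zero, h']))) (by linear_combination htr' - a - d)
    refine hdetX ?_
    rw [Matrix.det_fin_two]
    refine φ.injective ?_
    rw [he0, sub_eq_zero] at a
    simp [map_sub, map_mul, a, b]
  obtain ⟨g, hgG, hg⟩ := hirrK f.ker (Or.inr hindex) v hv
  have hd1 : (rb g).det = 1 := congrArg Units.val (MonoidHom.mem_ker.mp hgG)
  have hg' : rb g * X = X * rb g := by rw [← hcomm g, hd1, one_smul]
  obtain ⟨c, hc⟩ := hline _ v (((rb g).map φ).mulVec v) hY hv hYv (by
    rw [Matrix.mulVec_mulVec, sub_mul, smul_mul_assoc, one_mul, ← Matrix.map_mul, ← hg',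
      Matrix.map_mul]
    rw [show (rb g).map φ * X.map φ - e • (rb g).map φ =
      (rb g).map φ * (X.map φ - e • (1 : Matrix (Fin 2) (Fin 2) K)) by
        rw [mul_sub, mul_smul_comm, mul_one], ← Matrix.mulVec_mulVec, hYv, Matrix.mulVec_zero])
  exact hg c hc

end Fermat.Agent.RT
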