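import Fermat.Agent.RT.Global.TangentLocal
import Fermat.Agent.RT.Global.Invariants

/-!
# The global Euler bound from the Greenberg–Wiles inequality and the bound at `p`

`AdjointGW`: the Greenberg–Wiles inequality for the trace-zero adjoint of a residual
representation, at the level of cocycles, with the invariants already evaluated.
`LocalBoundAtP`: the bound `dim L_p ≤ 1 + h⁰` for a family of conditions.
Together they give `GlobalEulerBound`.
-/

set_option autoImplicit false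

noncomputable section

namespace Fermat.Agent.RT

open IsLocalRing Fermat.Agent.Deformation
open Deformation (Mat)

local notation "ℚ̄" => AlgebraicClosure ℚ

section

variable {k : Type} [Field k]

/-- Restriction of cochains to a subgroup. -/
def resSub (H : Subgroup Γ) : (Γ → Mat k) →ₗ[k] (H → Mat k) :=
  LinearMap.funLeft k (Mat k) Subtype.val

/-- The classes on a subgroup of a space of cochains. -/
def localClasses (rbar : Γ →* Mat k) (H : Subgroup Γ) (W : Submodule k (Γ → Mat k)) :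
    Submodule k ((H → Mat k) ⧸ LinearMap.range ((resSub H).comp (adCoboundary rbar))) :=
  (W.map (resSub H)).map (LinearMap.range ((resSub H).comp (adCoboundary rbar))).mkQ

/-- A trace-zero adjoint cocycle of finite level, unramified outside `T`. -/
def IsAdjointClass (rbar : Γ →* Mat k) (T : Finset ℕ) (Z : Γ → Mat k) : Prop :=
  (∀ g, (Z g).trace = 0) ∧
    (∀ g h, Z (g * h) = Z g + rbar g * Z h * rbar g⁻¹) ∧
    (∃ L : IntermediateField ℚ ℚ̄, FiniteDimensional ℚ L ∧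
      ∀ g t : Γ, (∀ x ∈ L, t x = x) → Z (g * t) = Z g) ∧
    ∀ ℓ : ℕ, ℓ.Prime → ℓ ∉ T → ∀ P : ValuationSubring ℚ̄, P.LiesOverPrime ℓ →
      ∀ τ ∈ P.inertiaSubgroupIn ℚ, Z τ = 0

/-- The Greenberg–Wiles inequality for `ad⁰` at the level of cocycles: for Taylor–Wiles sets `Q`
outside `S ∪ U`, a space of classes unramified outside `S ∪ Q`, trivial at the places over
`S \ {p}`, has dimension at most `l_p - h⁰_p - 1 - ∑ h⁰_v + #Q` plus the dual classes killed
at `Q`. -/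
def AdjointGW (p : ℕ) (rbar : Γ →* Mat k) (S : Finset ℕ) (P₀ : ValuationSubring ℚ̄) : Prop :=
  ∃ (V : Submodule k (Γ → Mat k)) (U : Finset ℕ),
    FiniteDimensional k V ∧
    (∀ ψ ∈ V, IsTwistedCocycle rbar.toHomUnits ψ ∧ (∀ g, (ψ g).trace = 0) ∧
      ∃ L : IntermediateField ℚ ℚ̄, FiniteDimensional ℚ L ∧
        ∀ g t : Γ, (∀ x ∈ L, t x = x) → rbar (g * t) = rbar g ∧ ψ (g * t) = ψ g) ∧
    (∀ ψ ∈ V, (∃ X : Mat k, X.trace = 0 ∧
      ∀ g, ψ g = (rbar g).det • (rbar g * X * rbar g⁻¹) - X) → ψ = 0) ∧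
    ∀ Q : Finset ℕ, (∀ q ∈ Q, q ∉ S ∪ U ∧ IsTWPrime rbar.toHomUnits p 1 q) →
      ∀ W : Submodule k (Γ → Mat k), (∀ Z ∈ W, IsAdjointClass rbar (S ∪ Q) Z) →
      ∀ (s : ℕ) (ℓ : Fin s → ℕ) (P : Fin s → ValuationSubring ℚ̄), Function.Injective ℓ →
        (∀ i, ℓ i ∈ S ∧ ℓ i ≠ p ∧ (P i).LiesOverPrime (ℓ i)) →
        (∀ l ∈ S, l = p ∨ ∃ i, ℓ i = l) →
        (∀ Z ∈ W, ∀ i, ∃ X, ∀ d ∈ (P i).decompositionSubgroup ℚ, Z d = adCoboundary rbar X d) →
        FiniteDimensional k (W.map (LinearMap.range (adCoboundary rbar)).mkQ) ∧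
        ∀ V' : Submodule k (Γ → Mat k),
          (∀ ψ, ψ ∈ V' ↔ ψ ∈ V ∧ ∀ q ∈ Q, ∀ P' : ValuationSubring ℚ̄, P'.LiesOverPrime q →
            ∀ φ : Γ, P'.IsFrobeniusAt φ q → (ψ φ * rbar φ).trace = 0) →
          Module.finrank k (W.map (LinearMap.range (adCoboundary rbar)).mkQ) + 1 +
              Module.finrank k
                ↥(commutantSpace rbar (P₀.decompositionSubgroup ℚ) ⊓ traceZero k) +
              ∑ i, (Module.finrank k (commutantSpace rbar ((P i).decompositionSubgroup ℚ)) - 1) ≤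
            Module.finrank k (localClasses rbar (P₀.decompositionSubgroup ℚ) W) + Q.card +
              Module.finrank k V'

end

variable {𝒪 : Type} [CommRing 𝒪] [IsLocalRing 𝒪]

/-- The local tangent bound at `p` for a family of conditions. -/
def LocalBoundAtP (rbar : Γ →* Mat (ResidueField 𝒪))
    (𝒟 : Finset ℕ → ∀ ⦃A : Type⦄ [CommRing A] [IsLocalRing A] [Algebra 𝒪 A],
      GaloisRepAdic A → Prop) (P₀ : ValuationSubring ℚ̄) : Prop :=
  ∀ Q : Finset ℕ,
    FiniteDimensional (ResidueField 𝒪) (localClasses rbar (P₀.decompositionSubgroup ℚ)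
      (Submodule.span (ResidueField 𝒪) (tangentSet (𝒟 Q) rbar))) ∧
    Module.finrank (ResidueField 𝒪) (localClasses rbar (P₀.decompositionSubgroup ℚ)
        (Submodule.span (ResidueField 𝒪) (tangentSet (𝒟 Q) rbar))) ≤
      Module.finrank (ResidueField 𝒪)
        ↥(commutantSpace rbar (P₀.decompositionSubgroup ℚ) ⊓ traceZero (ResidueField 𝒪)) + 1

/-- `GlobalEulerBound` from the Greenberg–Wiles inequality and the local bound at `p`. -/
theorem globalEulerBound_of (p : ℕ) (rbar : Γ →* Mat (ResidueField 𝒪))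
    (𝒟 : Finset ℕ → ∀ ⦃A : Type⦄ [CommRing A] [IsLocalRing A] [Algebra 𝒪 A],
      GaloisRepAdic A → Prop)
    (S : Finset ℕ) (P₀ : ValuationSubring ℚ̄)
    (h𝒟ur : ∀ Q : Finset ℕ, ∀ ρ : GaloisRepAdic (DualNumber (ResidueField 𝒪)), 𝒟 Q ρ →
      ∀ ℓ : ℕ, ℓ.Prime → ℓ ∉ S ∪ Q → ρ.IsUnramifiedAt ℓ)
    {s : ℕ} (ℓ : Fin s → ℕ) (P : Fin s → ValuationSubring ℚ̄) (hinj : Function.Injective ℓ)
    (hℓ : ∀ i, ℓ i ∈ S ∧ ℓ i ≠ p ∧ (P i).LiesOverPrime (ℓ i))
    (hcov : ∀ l ∈ S, l = p ∨ ∃ i, ℓ i = l)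
    (hGW : AdjointGW p rbar S P₀) (hloc : LocalBoundAtP rbar 𝒟 P₀) :
    GlobalEulerBound p rbar 𝒟 S fun i => (P i).decompositionSubgroup ℚ := by
  obtain ⟨V, U, hV, hV1, hV2, hgw⟩ := hGW
  refine ⟨V, U, hV, hV1, hV2, fun Q hQ => ?_⟩
  set W := selSpace (𝒟 Q) rbar fun i => (P i).decompositionSubgroup ℚ
  have hW : ∀ Z ∈ W, IsAdjointClass rbar (S ∪ Q) Z := by
    intro Z hZ
    induction hZ using Submodule.span_induction with
    | mem x hx =>
      obtain ⟨hx, -⟩ := hx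
      refine ⟨hx.1, hx.2.1, ?_, fun l hl hlT P' hP' τ hτ =>
        (eq_one_and_eq_zero_of_mem_inertia hx (fun ρ hρ => h𝒟ur Q ρ hρ l hl hlT) hP' hτ).2⟩
      obtain ⟨L, hL, h⟩ := exists_finiteLevel_of_mem_tangentSet hx
      exact ⟨L, hL, fun g t ht => (h g t ht).2⟩
    | zero =>
      exact ⟨fun g => by simp, fun g h => by simp,
        ⟨⊥, inferInstance, fun g t _ => rfl⟩, fun _ _ _ _ _ _ _ => rfl⟩
    | add a b _ _ ha hb =>
      obtain ⟨a1, a2, ⟨L, hL, a3⟩, a4⟩ := ha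
      obtain ⟨b1, b2, ⟨L', hL', b3⟩, b4⟩ := hb
      refine ⟨fun g => ?_, fun g h => ?_, ⟨L ⊔ L', inferInstance, fun g t ht => ?_⟩,
        fun l hl hlT P' hP' τ hτ => ?_⟩
      · simp [a1, b1]
      · simp only [Pi.add_apply, a2, b2, mul_add, add_mul]
        abel
      · simp only [Pi.add_apply, a3 g t fun x hx => ht x ((le_sup_left : L ≤ L ⊔ L') hx),
          b3 g t fun x hx => ht x ((le_sup_right : L' ≤ L ⊔ L') hx)]
      · simp [a4 l hl hlT P' hP' τ hτ, b4 l hl hlT P' hP' τ hτ]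
    | smul c a _ ha =>
      obtain ⟨a1, a2, ⟨L, hL, a3⟩, a4⟩ := ha
      refine ⟨fun g => ?_, fun g h => ?_, ⟨L, hL, fun g t ht => ?_⟩,
        fun l hl hlT P' hP' τ hτ => ?_⟩
      · simp [a1]
      · simp [a2, smul_add]
      · simp [a3 g t ht]
      · simp [a4 l hl hlT P' hP' τ hτ]
  have htriv : ∀ Z ∈ W, ∀ i, ∃ X, ∀ d ∈ (P i).decompositionSubgroup ℚ,
      Z d = adCoboundary rbar X d := by
    intro Z hZ i
    induction hZ using Submodule.span_induction with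
    | mem x hx => exact hx.2 i
    | zero => exact ⟨0, fun d _ => by simp⟩
    | add a b _ _ ha hb =>
      obtain ⟨X, hX⟩ := ha
      obtain ⟨Y, hY⟩ := hb
      exact ⟨X + Y, fun d hd => by simp [hX d hd, hY d hd]⟩
    | smul c a _ ha =>
      obtain ⟨X, hX⟩ := ha
      exact ⟨c • X, fun d hd => by simp [hX d hd]⟩
  obtain ⟨hfd, hdim⟩ := hgw Q hQ W hW s ℓ P hinj hℓ hcov htriv
  refine ⟨hfd, fun V' hV' => ?_⟩
  have h1 := hdim V' hV'
  obtain ⟨hfl, hl⟩ := hloc Q
  have hle : localClasses rbar (P₀.decompositionSubgroup ℚ) W ≤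
      localClasses rbar (P₀.decompositionSubgroup ℚ)
        (Submodule.span (ResidueField 𝒪) (tangentSet (𝒟 Q) rbar)) :=
    Submodule.map_mono (Submodule.map_mono (Submodule.span_mono fun Z hZ => hZ.1))
  have h2 := Submodule.finrank_mono hle
  beta_reduce at h1 ⊢
  omega

end Fermat.Agent.RT
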