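import Fermat.Agent.RT.Global.Defs

/-!
# The dimension of framed tangent classes

Pairs of a class and framings compatible with it, modulo simultaneous change of frame, form a
space of dimension at most that of the classes plus the local invariants plus `s - 1`.
-/

set_option autoImplicit false

noncomputable section

namespace Fermat.Agent.RT

open Fermat.Agent.Deformation
open Deformation (Mat)

variable {k : Type} [Field k] (r : Γ →* Mat k) {s : ℕ} (H : Fin s → Subgroup Γ)
  (U : Submodule k (Γ → Mat k))

theorem adCoboundary_apply_eq_zero_iff (X : Mat k) (d : Γ) :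
    adCoboundary r X d = 0 ↔ r d * X = X * r d := by
  show X - r d * X * r d⁻¹ = 0 ↔ _
  rw [sub_eq_zero]
  constructor
  · intro h
    conv_rhs => rw [h]
    rw [mul_assoc _ (r d⁻¹), ← map_mul, inv_mul_cancel, map_one, mul_one]
  · intro h
    rw [h, mul_assoc, ← map_mul, mul_inv_cancel, map_one, mul_one]

theorem one_mem_commutantSpace (i : Fin s) : (1 : Mat k) ∈ commutantSpace r (H i) :=
  fun d _ => by rw [mul_one, one_mul]

/-- Classes in `U` with compatible framings at the `H i`. -/
def framedSpace : Submodule k ((Γ → Mat k) × (Fin s → Mat k)) where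
  carrier := {v | v.1 ∈ U ⊔ LinearMap.range (adCoboundary r) ∧
    ∀ i, ∀ d ∈ H i, v.1 d = adCoboundary r (-v.2 i) d}
  zero_mem' := ⟨zero_mem _, fun i d _ => by simp⟩
  add_mem' := fun {a b} ha hb => ⟨add_mem ha.1 hb.1, fun i d hd => by
    simp [ha.2 i d hd, hb.2 i d hd, add_comm]⟩
  smul_mem' c a ha := ⟨Submodule.smul_mem _ c ha.1, fun i d hd => by
    simp [ha.2 i d hd]⟩

/-- Change of frame. -/
def frameChange : Mat k →ₗ[k] ((Γ → Mat k) × (Fin s → Mat k)) :=
  (adCoboundary r).prod (LinearMap.pi fun _ => -LinearMap.id)

theorem frameChange_mem (X : Mat k) : frameChange r X ∈ framedSpace r H U :=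
  ⟨Submodule.mem_sup_right ⟨X, rfl⟩, fun i d _ => by simp [frameChange]⟩

/-- The framed classes modulo change of frame. -/
abbrev FramedClasses : Type :=
  framedSpace r H U ⧸ (LinearMap.range (frameChange r (s := s))).comap (framedSpace r H U).subtype

variable [hfd : FiniteDimensional k (U.map (LinearMap.range (adCoboundary r)).mkQ)]

include hfd in
/-- The framed classes are finite-dimensional, of dimension at most classes plus local invariants
plus `s - 1`. -/
theorem finrank_framedClasses_le :
    FiniteDimensional k (FramedClasses r H U) ∧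
    Module.finrank k (FramedClasses r H U) ≤
      Module.finrank k (U.map (LinearMap.range (adCoboundary r)).mkQ) +
        ∑ i, (Module.finrank k (commutantSpace r (H i)) - 1) + (s - 1) := by
  classical
  set N := (LinearMap.range (frameChange r (s := s))).comap (framedSpace r H U).subtype with hN
  set R := LinearMap.range (adCoboundary r) with hR
  -- projection to classes
  let pr : framedSpace r H U →ₗ[k] U.map R.mkQ :=
    ((R.mkQ.comp (LinearMap.fst k _ _)).comp (framedSpace r H U).subtype).codRestrict _ fun v => by
      obtain ⟨u, hu, w, hw, huw⟩ := Submodule.mem_sup.mp v.2.1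
      refine ⟨u, hu, ?_⟩
      show R.mkQ u = R.mkQ v.1.1
      rw [← huw, map_add, R.mkQ_apply w, (Submodule.Quotient.mk_eq_zero R).mpr hw, add_zero]
  have hprN : N ≤ LinearMap.ker pr := by
    rintro ⟨v, hv⟩ ⟨X, hX⟩
    refine Subtype.ext ((Submodule.Quotient.mk_eq_zero R).mpr ?_)
    exact ⟨X, congrArg Prod.fst hX⟩
  let pr' : FramedClasses r H U →ₗ[k] U.map R.mkQ := N.liftQ pr hprN
  -- the local invariants
  let incl : (∀ i, commutantSpace r (H i)) →ₗ[k] framedSpace r H U :=
    ((LinearMap.prod 0 LinearMap.id).comp
      (LinearMap.pi fun i => (commutantSpace r (H i)).subtype.comp (LinearMap.proj i))).codRestrict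
      _ fun c => ⟨zero_mem _, fun i d hd => by
        have := (adCoboundary_apply_eq_zero_iff r (c i).1 d).mpr ((c i).2 d hd)
        simp [this]⟩
  let loc : (∀ i, commutantSpace r (H i)) →ₗ[k] FramedClasses r H U := N.mkQ.comp incl
  have hker : LinearMap.ker pr' ≤ LinearMap.range loc := by
    intro q hq
    obtain ⟨⟨⟨Z, E⟩, hZE⟩, rfl⟩ := Submodule.mkQ_surjective N q
    rw [LinearMap.mem_ker, Submodule.mkQ_apply, Submodule.liftQ_apply] at hq
    obtain ⟨X, hX⟩ := (Submodule.Quotient.mk_eq_zero R).mp (congrArg Subtype.val hq)
    change adCoboundary r X = Z at hX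
    refine ⟨fun i => ⟨E i + X, fun d hd => ?_⟩, ?_⟩
    · refine (adCoboundary_apply_eq_zero_iff r _ d).mp ?_
      have h := hZE.2 i d hd
      simp only [map_neg, Pi.neg_apply] at h
      rw [map_add, Pi.add_apply, hX, h, add_neg_cancel]
    · refine (Submodule.Quotient.eq N).mpr ⟨-X, ?_⟩
      refine Prod.ext ?_ (funext fun i => ?_)
      · show adCoboundary r (-X) = 0 - Z
        rw [map_neg, hX, zero_sub]
      · show - -X = E i + X - E i
        abel
  have hfk : FiniteDimensional k (LinearMap.ker pr') := Submodule.finiteDimensional_of_le hker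
  have hfin : FiniteDimensional k (FramedClasses r H U) := by
    have : Module.Finite k (FramedClasses r H U ⧸ LinearMap.ker pr') :=
      Module.Finite.equiv pr'.quotKerEquivRange.symm
    exact Module.Finite.of_submodule_quotient (LinearMap.ker pr')
  refine ⟨hfin, ?_⟩
  have h1 := LinearMap.finrank_range_add_finrank_ker pr'
  have h2 : Module.finrank k (LinearMap.range pr') ≤ Module.finrank k (U.map R.mkQ) :=
    Submodule.finrank_le _
  have h3 := Submodule.finrank_mono hker
  have h4 := LinearMap.finrank_range_add_finrank_ker loc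
  rw [Module.finrank_pi_fintype] at h4
  have h5 : ∑ i, Module.finrank k (commutantSpace r (H i)) =
      ∑ i, (Module.finrank k (commutantSpace r (H i)) - 1) + s := by
    have hsum : ∑ i, Module.finrank k (commutantSpace r (H i)) =
        ∑ i, ((Module.finrank k (commutantSpace r (H i)) - 1) + 1) := by
      refine Finset.sum_congr rfl fun i _ => (Nat.sub_add_cancel ?_).symm
      exact (Submodule.one_le_finrank_iff).mpr fun h => one_ne_zero
        ((Submodule.eq_bot_iff _).mp h _ (one_mem_commutantSpace r H i))
    rw [hsum, Finset.sum_add_distrib, Finset.sum_const, Finset.card_univ, Fintype.card_fin,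
      smul_eq_mul, mul_one]
  rcases Nat.eq_zero_or_pos s with hs | hs
  · omega
  · have h6 : 1 ≤ Module.finrank k (LinearMap.ker loc) := by
      refine (Submodule.one_le_finrank_iff).mpr fun h => ?_
      let c : ∀ i, commutantSpace r (H i) := fun i => ⟨1, one_mem_commutantSpace r H i⟩
      have hc : c ∈ LinearMap.ker loc := by
        refine (Submodule.Quotient.mk_eq_zero N).mpr ⟨-1, Prod.ext ?_ (funext fun i => ?_)⟩
        · funext g
          show (-1 : Mat k) - r g * -1 * r g⁻¹ = 0
          rw [mul_neg, mul_one, neg_mul, ← map_mul, mul_inv_cancel, map_one, sub_self]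
        · show - -(1 : Mat k) = 1
          rw [neg_neg]
      exact one_ne_zero (congrArg Subtype.val
        (congrFun ((Submodule.eq_bot_iff _).mp h c hc) ⟨0, hs⟩) : (1 : Mat k) = 0)
    omega

end Fermat.Agent.RT
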