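import Fermat.Agent.RT.LocalQ.Adic
import Fermat.Agent.RT.Global.Defs

/-!
# Tangent cocycles at tame places are controlled by two elements
-/

set_option autoImplicit false

noncomputable section

namespace Fermat.Agent.RT

open IsLocalRing Fermat.Agent.Deformation
open Deformation (Mat)

variable {𝒪 : Type} [CommRing 𝒪] [IsLocalRing 𝒪]

/-- A tangent cocycle which is the coboundary of `X` on the tame generator and on the Frobenius
element of a place is so on the whole decomposition group. -/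
theorem tangentSet_eq_adCoboundary_of_tamePair
    {𝒟 : ∀ ⦃A : Type⦄ [CommRing A] [IsLocalRing A] [Algebra 𝒪 A], GaloisRepAdic A → Prop}
    {p q : ℕ} [Fact p.Prime] (hq : q.Prime) (hpq : p ≠ q) (hp𝒪 : (p : 𝒪) ∈ maximalIdeal 𝒪)
    (T : TamePair p q) {rbar : Γ →* Mat (ResidueField 𝒪)}
    (hfin : GaloisFactorsThroughFiniteLevel rbar)
    (htame : ∀ τ ∈ T.A.inertiaSubgroupIn ℚ, ∃ j : ℕ, rbar τ ^ p ^ j = 1)
    {Z : Γ → Mat (ResidueField 𝒪)} (hZ : Z ∈ tangentSet 𝒟 rbar) (X : Mat (ResidueField 𝒪))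
    (hσ : Z T.σ = adCoboundary rbar X T.σ) (hF : Z T.F = adCoboundary rbar X T.F)
    {d : Γ} (hd : d ∈ T.A.decompositionSubgroup ℚ) : Z d = adCoboundary rbar X d := by
  obtain ⟨-, -, r, hr, hrZ, -⟩ := hZ
  let r₀ : Γ →* Mat (DualNumber (ResidueField 𝒪)) :=
    mapRep (TrivSqZeroExt.inlHom (ResidueField 𝒪) (ResidueField 𝒪)) rbar
  have hr₀ : ∀ g, r₀ g = liftEntries rbar 0 g := fun g => Matrix.ext fun i j => by
    simp [r₀, liftEntries, mapRep_apply]
  have hres : ∀ z : DualNumber (ResidueField 𝒪),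
      residue (DualNumber (ResidueField 𝒪)) z = residue _ (TrivSqZeroExt.inl z.fst) := fun z => by
    rw [← sub_eq_zero, ← map_sub, residue_eq_zero_iff, IsLocalRing.mem_maximalIdeal,
      mem_nonunits_iff, isUnit_dualNumber_iff]
    simp
  have htame' : ∀ r' : Γ →* Mat (DualNumber (ResidueField 𝒪)),
      (∀ g i j, (r' g i j).fst = rbar g i j) → IsResTame p T.A r' := by
    intro r' h τ hτ
    obtain ⟨j, hj⟩ := htame τ hτ
    refine ⟨j, ?_⟩
    rw [← map_pow] at hj ⊢
    refine Matrix.ext fun a c => ?_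
    rw [Matrix.map_apply, hres, h, hj, Matrix.one_apply, Matrix.one_apply]
    split <;> simp
  have hpA : (p : DualNumber (ResidueField 𝒪)) ∈ maximalIdeal _ := by
    rw [IsLocalRing.mem_maximalIdeal, mem_nonunits_iff, isUnit_dualNumber_iff, not_ne_iff,
      TrivSqZeroExt.fst_natCast, ← map_natCast (residue 𝒪), residue_eq_zero_iff]
    exact hp𝒪
  have : IsAdicComplete (maximalIdeal (DualNumber (ResidueField 𝒪)))
      (DualNumber (ResidueField 𝒪)) := isAdicComplete_of_pow_eq_bot dualNumber_maximalIdeal_sq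
  have hcont₀ : IsCont r₀ := IsCont.of_factors r₀ (by
    obtain ⟨L, hL, h⟩ := hfin
    exact ⟨L, hL, fun σ hσ => by rw [hr₀]; refine Matrix.ext fun i j => ?_; simp [liftEntries, h σ hσ, Matrix.one_apply]; split <;> simp⟩)
  have hint : ∀ g, Z g = adCoboundary rbar X g →
      (epsUnit X : Mat (DualNumber (ResidueField 𝒪))) * r₀ g =
        r g * (epsUnit X : Mat (DualNumber (ResidueField 𝒪))) := fun g hg => by
    rw [hr₀, hrZ, epsUnit_conj]
    simp only [liftEntries, hg]
  have h := T.intertwine Fact.out hq hpq hpA hcont₀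
    (htame' r₀ fun g i j => by rw [hr₀]; simp [liftEntries])
    hr (htame' r fun g i j => by rw [hrZ]; simp [liftEntries]) (hint _ hσ) (hint _ hF) hd
  rw [hr₀, epsUnit_conj, hrZ] at h
  have h2 : liftEntries rbar (adCoboundary rbar X) d = liftEntries rbar Z d :=
    (Units.mul_left_inj (epsUnit X)).mp h
  have h3 : adCoboundary rbar X d * rbar d = Z d * rbar d := Matrix.ext fun i j => by
    simpa [liftEntries] using congrArg TrivSqZeroExt.snd (congrFun (congrFun h2 i) j)
  have h4 := congrArg (· * rbar d⁻¹) h3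
  simp only [mul_assoc, ← map_mul, mul_inv_cancel, map_one, mul_one] at h4
  exact h4.symm

end Fermat.Agent.RT
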