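import Fermat.Agent.Deformation.Matrix
import Fermat.Agent.ClassField.GW.KummerArith
import Fermat.Agent.Galois.Minkowski
import Fermat.Agent.Density.Conj
import Fermat.Agent.RT.Tangent
import Fermat.Prelude.Def_GaloisRep_DeformationCondition

/-!
# Finiteness of the tangent space

`tangentFinite_of_unramified`: deformations to the dual numbers of a residual representation in
characteristic `p` which are unramified outside a fixed finite set form finitely many classes:
they all factor through one finite level, by the finiteness of the Kummer characters.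
-/

set_option autoImplicit false

noncomputable section

namespace Fermat.Agent.RT

open IsLocalRing Fermat.Agent.Deformation GaloisRep
open Deformation (Mat)

local notation "ℚ̄" => AlgebraicClosure ℚ

/-- A number field inside `ℚ̄` is unramified outside some finite set of primes. -/
theorem exists_isUnramifiedOutside_finset (K : IntermediateField ℚ ℚ̄) [FiniteDimensional ℚ K] :
    ∃ S : Finset Nat.Primes, K.IsUnramifiedOutside S := by
  classical
  let b := Module.finBasis ℚ K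
  have hint : ∀ i, ∃ m : ℤ, m ≠ 0 ∧ IsIntegral ℤ (m • ((b i : K) : ℚ̄)) := fun i => by
    obtain ⟨⟨m, hm⟩, h⟩ := IsIntegral.exists_multiple_integral_of_isLocalization
      (nonZeroDivisors ℤ) ((b i : K) : ℚ̄) (Algebra.IsIntegral.isIntegral (R := ℚ) _)
    exact ⟨m, nonZeroDivisors.ne_zero hm, h⟩
  choose m hm hx using hint
  let x : Fin (Module.finrank ℚ K) → ℚ̄ := fun i => m i • ((b i : K) : ℚ̄)
  let bad : Finset ℕ := Finset.univ.biUnion fun i =>
    ((minpoly ℤ (x i)).aroots ℚ̄).toFinset.biUnion fun y =>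
      ((minpoly ℤ (y - x i)).coeff 0).natAbs.primeFactors
  refine ⟨bad.subtype Nat.Prime, ‹_›, fun q hq A hA σ hσ => ?_⟩
  have hfix : ∀ i, σ (x i) = x i := by
    intro i
    by_contra hne
    set y := σ (x i) with hy
    have hyint : IsIntegral ℤ y := (hx i).map σ.toAlgHom.toRingHom.toIntAlgHom
    have hroot : y ∈ ((minpoly ℤ (x i)).aroots ℚ̄).toFinset := by
      rw [Multiset.mem_toFinset, Polynomial.mem_aroots]
      refine ⟨minpoly.ne_zero (hx i), ?_⟩
      rw [hy, show σ (x i) = σ.toAlgHom.toRingHom.toIntAlgHom (x i) from rfl,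
        Polynomial.aeval_algHom_apply, minpoly.aeval, map_zero]
    set c := y - x i with hc
    have hcint : IsIntegral ℤ c := hyint.sub (hx i)
    have hcA : c ∈ A.nonunits := ((Density.mem_inertiaSubgroupIn_iff).mp hσ).2 _
      (Galois.mem_valuationSubring_of_isIntegral_int A (hx i))
    set N := (minpoly ℤ c).coeff 0 with hN
    have hN0 : N ≠ 0 := fun h => by
      have h' := minpoly.coeff_zero_ne_zero (A := ℚ) hcint.tower_top (sub_ne_zero.mpr hne)
      rw [minpoly.isIntegrallyClosed_eq_field_fractions' ℚ hcint, Polynomial.coeff_map, ← hN, h,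
        map_zero] at h'
      exact h' rfl
    have hNA : A.valuation (N : ℚ̄) < 1 := by
      have h := minpoly.aeval ℤ c
      rw [← Polynomial.X_mul_divX_add (minpoly ℤ c), map_add, map_mul, Polynomial.aeval_X,
        Polynomial.aeval_C, ← hN] at h
      have h' : (N : ℚ̄) = -(c * Polynomial.aeval c (minpoly ℤ c).divX) :=
        eq_neg_of_add_eq_zero_right (by simpa using h)
      rw [h', Valuation.map_neg, map_mul]
      refine lt_of_le_of_lt (mul_le_of_le_one_right zero_le ?_) (A.mem_nonunits_iff.mp hcA)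
      refine (A.valuation_le_one_iff _).mpr (Galois.mem_valuationSubring_of_isIntegral_int A ?_)
      exact (Algebra.adjoin_le (S := integralClosure ℤ ℚ̄) (Set.singleton_subset_iff.mpr hcint))
        (Polynomial.aeval_mem_adjoin_singleton ℤ c)
    have hqA : A.valuation ((q : ℕ) : ℚ̄) < 1 := A.mem_nonunits_iff.mp hA
    have hdvd : ((q : ℕ) : ℤ) ∣ N := by
      by_contra hnd
      obtain ⟨u, w, huw⟩ := (Nat.prime_iff_prime_int.mp q.2).coprime_iff_not_dvd.mpr hnd
      have h1 := congrArg (Int.cast : ℤ → ℚ̄) huw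
      push_cast at h1
      have hint' : ∀ z : ℤ, A.valuation (z : ℚ̄) ≤ 1 := fun z =>
        (A.valuation_le_one_iff _).mpr (intCast_mem A z)
      have hlt : A.valuation ((u : ℚ̄) * ((q : ℕ) : ℚ̄) + (w : ℚ̄) * (N : ℚ̄)) < 1 := by
        refine Valuation.map_add_lt _ ?_ ?_ <;> rw [map_mul]
        · exact lt_of_le_of_lt (mul_le_of_le_one_left zero_le (hint' u)) hqA
        · exact lt_of_le_of_lt (mul_le_of_le_one_left zero_le (hint' w)) hNA
      rw [h1, map_one] at hlt
      exact lt_irrefl _ hlt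
    refine hq (Finset.mem_subtype.mpr (Finset.mem_biUnion.mpr ⟨i, Finset.mem_univ i,
      Finset.mem_biUnion.mpr ⟨y, hroot, Nat.mem_primeFactors.mpr
        ⟨q.2, Int.natCast_dvd.mp hdvd, Int.natAbs_ne_zero.mpr hN0⟩⟩⟩))
  rw [IntermediateField.mem_fixingSubgroup_iff]
  intro z hz
  have hlin : ((K.val : K →ₐ[ℚ] ℚ̄).toLinearMap) =
      (σ.toAlgHom.comp K.val).toLinearMap := b.ext fun i => by
    have h := hfix i
    simp only [x, map_zsmul] at h
    exact ((smul_right_injective ℚ̄ (hm i)) h).symm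
  exact (LinearMap.congr_fun hlin ⟨z, hz⟩).symm

/-- The additive maps to `ZMod p` on an open subgroup which are unramified outside a finite set
all vanish on one open subgroup. -/
theorem exists_level_forall_char {p : ℕ} [hp : Fact p.Prime] (S : Finset ℕ)
    (K₁ : IntermediateField ℚ ℚ̄) [FiniteDimensional ℚ K₁] :
    ∃ K : IntermediateField ℚ ℚ̄, FiniteDimensional ℚ K ∧ K₁ ≤ K ∧ ∀ f : Γ → ZMod p,
      (∀ σ ∈ K₁.fixingSubgroup, ∀ τ ∈ K₁.fixingSubgroup, f (σ * τ) = f σ + f τ) →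
      (∃ L : IntermediateField ℚ ℚ̄, FiniteDimensional ℚ L ∧
        ∀ σ ∈ L.fixingSubgroup, f σ = 0) →
      (∀ q : ℕ, q.Prime → q ∉ S → ∀ A : ValuationSubring ℚ̄, A.LiesOverPrime q →
        ∀ τ ∈ K₁.fixingSubgroup, τ ∈ A.inertiaSubgroupIn ℚ → f τ = 0) →
      ∀ σ ∈ K.fixingSubgroup, f σ = 0 := by
  classical
  obtain ⟨ζ, hζ⟩ := HasEnoughRootsOfUnity.exists_primitiveRoot ℚ̄ p
  let K₀ := K₁ ⊔ IntermediateField.adjoin ℚ ({ζ} : Set ℚ̄)
  have : FiniteDimensional ℚ (IntermediateField.adjoin ℚ ({ζ} : Set ℚ̄)) :=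
    IntermediateField.adjoin.finiteDimensional (Algebra.IsIntegral.isIntegral ζ)
  have : FiniteDimensional ℚ K₀ := IntermediateField.finiteDimensional_sup _ _
  have hζK : ζ ∈ K₀ := (le_sup_right : _ ≤ K₀) (IntermediateField.mem_adjoin_simple_self ℚ ζ)
  have hle : K₁ ≤ K₀ := le_sup_left
  obtain ⟨S₀, hS₀⟩ := exists_isUnramifiedOutside_finset K₀
  let T : Finset Nat.Primes := S₀ ∪ S.subtype Nat.Prime
  have hfin := ClassField.GW.finite_kummerChars T K₀ (hS₀.mono Finset.subset_union_left) hζ hζK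
  have hlev : ∀ a ∈ hfin.toFinset, ∃ L : IntermediateField ℚ ℚ̄, FiniteDimensional ℚ L ∧
      ∀ g t : K₀.fixingSubgroup, (t : Γ) ∈ L.fixingSubgroup → a (g * t) = a g :=
    fun a ha => (hfin.mem_toFinset.mp ha).2.2.1
  choose L hL hLa using hlev
  have : ∀ a : hfin.toFinset, FiniteDimensional ℚ (L a.1 a.2) := fun a => hL a.1 a.2
  let M : IntermediateField ℚ ℚ̄ := ⨆ a : hfin.toFinset, L a.1 a.2
  have : FiniteDimensional ℚ M := IntermediateField.finiteDimensional_iSup_of_finite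
  refine ⟨K₀ ⊔ M, IntermediateField.finiteDimensional_sup _ _, hle.trans le_sup_left,
    fun f hf hcont hur σ hσ => ?_⟩
  rw [IntermediateField.fixingSubgroup_sup, Subgroup.mem_inf] at hσ
  have hsub : K₀.fixingSubgroup ≤ K₁.fixingSubgroup :=
    IntermediateField.fixingSubgroup_antitone hle
  let a : K₀.fixingSubgroup → ℚ̄ := fun g => ζ ^ (f (g : Γ)).val
  have hmul : ∀ g h, a (g * h) = a g * a h := fun g h => by
    show ζ ^ (f ((g : Γ) * h)).val = _
    rw [hf _ (hsub g.2) _ (hsub h.2), ZMod.val_add, ← pow_add]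
    exact (pow_eq_pow_mod _ hζ.pow_eq_one).symm
  have h1 : f 1 = 0 := by
    have h := hf 1 (Subgroup.one_mem _) 1 (Subgroup.one_mem _)
    rwa [mul_one, left_eq_add] at h
  have ha : a ∈ hfin.toFinset := by
    refine hfin.mem_toFinset.mpr ⟨hmul, fun g => ?_, ?_, ?_⟩
    · show (ζ ^ (f (g : Γ)).val) ^ p = 1
      rw [← pow_mul, mul_comm, pow_mul, hζ.pow_eq_one, one_pow]
    · obtain ⟨L', hL', hfL⟩ := hcont
      refine ⟨L', hL', fun g t ht => ?_⟩
      rw [hmul]
      show _ * ζ ^ (f (t : Γ)).val = _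
      rw [hfL _ ht, ZMod.val_zero, pow_zero, mul_one]
    · intro q hq A hA t ht
      have hqS : (q : ℕ) ∉ S := fun h =>
        hq (Finset.mem_union_right _ (Finset.mem_subtype.mpr h))
      show ζ ^ (f (t : Γ)).val = 1
      rw [hur q q.2 hqS A hA t (hsub t.2) ht, ZMod.val_zero, pow_zero]
  have hσL : σ ∈ (L a ha).fixingSubgroup :=
    IntermediateField.fixingSubgroup_antitone (le_iSup (fun b : hfin.toFinset => L b.1 b.2) ⟨a, ha⟩)
      hσ.2
  have h := hLa a ha 1 ⟨σ, hσ.1⟩ hσL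
  rw [one_mul] at h
  change ζ ^ (f σ).val = ζ ^ (f 1).val at h
  rw [h1] at h
  have := hζ.pow_inj (ZMod.val_lt (f σ)) (ZMod.val_lt (0 : ZMod p)) h
  exact ZMod.val_injective p this

/-- Matrix representations over the dual numbers of given reduction, unramified outside a finite
set, form a finite set. -/
theorem finite_dualLifts {k : Type} [Field k] [Finite k] {p : ℕ} [hp : Fact p.Prime] [CharP k p]
    (rbar : Γ →* Mat k) (hrbar : ∃ L : IntermediateField ℚ ℚ̄, FiniteDimensional ℚ L ∧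
      ∀ σ ∈ L.fixingSubgroup, rbar σ = 1) (S : Finset ℕ) :
    {M : Γ →* Mat (DualNumber k) | (∀ σ i j, (M σ i j).fst = rbar σ i j) ∧
      (∃ L : IntermediateField ℚ ℚ̄, FiniteDimensional ℚ L ∧ ∀ σ ∈ L.fixingSubgroup, M σ = 1) ∧
      ∀ q : ℕ, q.Prime → q ∉ S → ∀ A : ValuationSubring ℚ̄, A.LiesOverPrime q →
        ∀ τ ∈ A.inertiaSubgroupIn ℚ, M τ = 1}.Finite := by
  classical
  obtain ⟨K₁, hK₁, hK₁r⟩ := hrbar
  obtain ⟨K, hK, hle, hchar⟩ := exists_level_forall_char (p := p) S K₁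
  let : Algebra (ZMod p) k := ZMod.algebra k p
  have hH : K.fixingSubgroup.FiniteIndex := by
    have : Finite (Γ ⧸ K.fixingSubgroup) :=
      Subgroup.quotient_finite_of_isOpen _ (IntermediateField.fixingSubgroup_isOpen K)
    exact Subgroup.finiteIndex_of_finite_quotient
  have : Finite (Γ ⧸ K.fixingSubgroup) := Subgroup.finite_quotient_of_finiteIndex
  have : Finite (DualNumber k) := inferInstanceAs (Finite (k × k))
  refine Set.finite_coe_iff.mp (Finite.of_injective
    (fun (M : {M : Γ →* Mat (DualNumber k) | (∀ σ i j, (M σ i j).fst = rbar σ i j) ∧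
      (∃ L : IntermediateField ℚ ℚ̄, FiniteDimensional ℚ L ∧ ∀ σ ∈ L.fixingSubgroup, M σ = 1) ∧
      ∀ q : ℕ, q.Prime → q ∉ S → ∀ A : ValuationSubring ℚ̄, A.LiesOverPrime q →
        ∀ τ ∈ A.inertiaSubgroupIn ℚ, M τ = 1}) (c : Γ ⧸ K.fixingSubgroup) => M.1 c.out) ?_)
  have hone : ∀ M : Γ →* Mat (DualNumber k), (∀ σ i j, (M σ i j).fst = rbar σ i j) →
      (∃ L : IntermediateField ℚ ℚ̄, FiniteDimensional ℚ L ∧ ∀ σ ∈ L.fixingSubgroup, M σ = 1) →
      (∀ q : ℕ, q.Prime → q ∉ S → ∀ A : ValuationSubring ℚ̄, A.LiesOverPrime q →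
        ∀ τ ∈ A.inertiaSubgroupIn ℚ, M τ = 1) →
      ∀ σ ∈ K.fixingSubgroup, M σ = 1 := by
    intro M hfst hcont hur σ hσ
    have hσ₁ : σ ∈ K₁.fixingSubgroup := IntermediateField.fixingSubgroup_antitone hle hσ
    have hadd : ∀ σ ∈ K₁.fixingSubgroup, ∀ τ ∈ K₁.fixingSubgroup, ∀ i j,
        (M (σ * τ) i j).snd = (M σ i j).snd + (M τ i j).snd := by
      intro σ hσ τ hτ i j
      fin_cases i <;> fin_cases j <;>
        simp [Matrix.mul_apply, Fin.sum_univ_two, hfst, hK₁r σ hσ, hK₁r τ hτ] <;> ring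
    refine Matrix.ext fun i j => TrivSqZeroExt.ext ?_ ?_
    · rw [hfst, hK₁r σ hσ₁]
      by_cases hij : i = j <;> simp [Matrix.one_apply, hij]
    · have hz : (M σ i j).snd = 0 := by
        refine (Module.forall_dual_apply_eq_zero_iff (ZMod p) _).mp fun φ => ?_
        refine hchar (fun τ => φ (M τ i j).snd) (fun a ha b hb => ?_) ?_ ?_ σ hσ
        · rw [hadd a ha b hb, map_add]
        · obtain ⟨L, hL, hML⟩ := hcont
          refine ⟨L, hL, fun τ hτ => ?_⟩
          by_cases hij : i = j <;> simp [hML τ hτ, hij]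
        · intro q hq hqS A hA τ _ hτ
          by_cases hij : i = j <;> simp [hur q hq hqS A hA τ hτ, hij]
      rw [hz]
      by_cases hij : i = j <;> simp [Matrix.one_apply, hij]
  rintro ⟨M, hM⟩ ⟨N, hN⟩ h
  refine Subtype.ext (MonoidHom.ext fun σ => ?_)
  obtain ⟨t, ht⟩ := QuotientGroup.mk_out_eq_mul K.fixingSubgroup σ
  have hc : M ((σ : Γ ⧸ K.fixingSubgroup).out) = N ((σ : Γ ⧸ K.fixingSubgroup).out) :=
    congrFun h (σ : Γ ⧸ K.fixingSubgroup)
  rw [ht, map_mul, map_mul, hone M hM.1 hM.2.1 hM.2.2 _ t.2, hone N hN.1 hN.2.1 hN.2.2 _ t.2,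
    mul_one, mul_one] at hc
  exact hc

/-- A condition forcing unramifiedness outside a finite set has finite tangent space. -/
theorem tangentFinite_of_unramified {𝒪 : Type} [CommRing 𝒪] [IsLocalRing 𝒪]
    [Finite (ResidueField 𝒪)] {p : ℕ} (hp : p.Prime) (hp𝒪 : (p : 𝒪) ∈ maximalIdeal 𝒪)
    (ρbar : ResidualGaloisRep (ResidueField 𝒪))
    {𝒟 : ∀ ⦃A : Type⦄ [CommRing A] [IsLocalRing A] [Algebra 𝒪 A], GaloisRepAdic A → Prop}
    (S : Finset ℕ)
    (hur : ∀ [Algebra 𝒪 (DualNumber (ResidueField 𝒪))]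
      (ρ : GaloisRepAdic (DualNumber (ResidueField 𝒪))), 𝒟 ρ →
      ∀ q : ℕ, q.Prime → q ∉ S → ρ.IsUnramifiedAt q) :
    TangentFinite 𝒪 ρbar 𝒟 := by
  classical
  have : Fact p.Prime := ⟨hp⟩
  have : CharP (ResidueField 𝒪) p := (CharP.charP_iff_prime_eq_zero hp).mpr (by
    rw [← map_natCast (residue 𝒪), residue_eq_zero_iff]; exact hp𝒪)
  set k := ResidueField 𝒪
  obtain ⟨L₁, hL₁, hbar⟩ := ρbar.factorsThroughFiniteLevel
  let bbar : Module.Basis (Fin 2) k ρbar.V := Module.finBasisOfFinrankEq _ ρbar.V ρbar.finrank_eq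
  have hfin := finite_dualLifts (matOf ρbar.ρ bbar) ⟨L₁, hL₁, fun σ hσ => by
    rw [matOf_apply, hbar σ fun z hz => hσ ⟨z, hz⟩]; exact LinearMap.toMatrix_one _⟩ S
  unfold TangentFinite
  let : Algebra 𝒪 (DualNumber (ResidueField 𝒪)) :=
    ((algebraMap (ResidueField 𝒪) (DualNumber (ResidueField 𝒪))).comp
      (algebraMap 𝒪 (ResidueField 𝒪))).toAlgebra
  let : Algebra (ResidueField 𝒪) (ResidueField (DualNumber (ResidueField 𝒪))) :=
    ((IsLocalRing.residue (DualNumber (ResidueField 𝒪))).comp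
      (algebraMap (ResidueField 𝒪) (DualNumber (ResidueField 𝒪)))).toAlgebra
  have hbasis : ∀ ρ : {ρ : GaloisRepAdic (DualNumber k) //
      𝒟 ρ ∧ ρ.residual.IsEquiv (ρbar.baseChange (ResidueField (DualNumber k)))},
      ∃ b : Module.Basis (Fin 2) (DualNumber k) ρ.1.V,
        mapRep (residue (DualNumber k)) (matOf ρ.1.ρ b) = mapRep ((residue (DualNumber k)).comp
          (algebraMap k (DualNumber k))) (matOf ρbar.ρ bbar) :=
    fun ρ => exists_lift_basis ρbar bbar ρ.1 _ ρ.2.2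
  choose b hb using hbasis
  have hmem : ∀ ρ, matOf ρ.1.ρ (b ρ) ∈ hfin.toFinset := fun ρ => by
    refine hfin.mem_toFinset.mpr ⟨fun σ i j => ?_, ?_, fun q hq hqS A hA τ hτ => ?_⟩
    · have h := congrFun (congrFun (DFunLike.congr_fun (hb ρ) σ) i) j
      have h' : residue (DualNumber k) (matOf ρ.1.ρ (b ρ) σ i j) =
          residue (DualNumber k) (algebraMap k (DualNumber k) (matOf ρbar.ρ bbar σ i j)) := h
      rw [← sub_eq_zero, ← map_sub, residue_eq_zero_iff, IsLocalRing.mem_maximalIdeal,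
        mem_nonunits_iff, isUnit_dualNumber_iff, not_not, TrivSqZeroExt.fst_sub, sub_eq_zero] at h'
      simpa [TrivSqZeroExt.algebraMap_eq_inl] using h'
    · obtain ⟨L, hL, h⟩ := isCont_matOf ρ.1 (b ρ) 2
      refine ⟨L, hL, fun σ hσ => Matrix.ext fun i j => sub_eq_zero.mp ?_⟩
      have := h σ (fun z hz => hσ ⟨z, hz⟩) i j
      rwa [dualNumber_maximalIdeal_sq, Submodule.mem_bot] at this
    · rw [matOf_apply, hur ρ.1 ρ.2.1 q hq hqS A hA τ hτ]
      exact LinearMap.toMatrix_one _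
  refine Finite.of_injective (fun c => (⟨_, hmem c.out⟩ : hfin.toFinset)) fun c c' h => ?_
  exact Quotient.out_equiv_out.mp
    (isEquiv_of_matOf_eq (b c.out) (b c'.out) (congrArg Subtype.val h))

end Fermat.Agent.RT
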