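import Fermat.Agent.RT.Global.AdjointLevel
import Fermat.Agent.RT.Global.EulerFromLocal
import Fermat.Agent.RT.Global.Invariants
import Fermat.Agent.ClassField.S55.Final.ClassFormation
import Fermat.Agent.Density.Transfer
import Fermat.Agent.EC.Det.AbsIrreducible

/-!
# The Greenberg–Wiles inequality for the trace-zero adjoint
-/

set_option autoImplicit false

noncomputable section

open scoped Fermat.Agent.ClassField

namespace Fermat.Agent.RT

open Fermat.Agent.Deformation ClassField.S55 ClassField.GW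
open Deformation (Mat)

local notation "ℚ̄" => AlgebraicClosure ℚ

variable {k : Type} [Field k]

/-- A finite family in the image of a space comes from a finite subspace. -/
theorem exists_finite_lift [Finite k] {M N : Type} [AddCommGroup M] [Module k M] [AddCommGroup N]
    [Module k N] (W : Submodule k M) (g : M →ₗ[k] N) {t : Set N} (ht : t.Finite)
    (htW : t ⊆ W.map g) : ∃ W' : Submodule k M, W' ≤ W ∧ Finite ↥W' ∧ t ⊆ W'.map g := by
  have : Finite t := ht.to_subtype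
  choose Z hZW hZ using fun x : t => Submodule.mem_map.mp (htW x.2)
  have : FiniteDimensional k (Submodule.span k (Set.range Z)) :=
    FiniteDimensional.span_of_finite k (Set.finite_range Z)
  exact ⟨Submodule.span k (Set.range Z), Submodule.span_le.mpr (Set.range_subset_iff.mpr hZW),
    Module.finite_of_finite k, fun x hx =>
      Submodule.mem_map.mpr ⟨Z ⟨x, hx⟩, Submodule.subset_span ⟨⟨x, hx⟩, rfl⟩, hZ ⟨x, hx⟩⟩⟩

variable [Finite k] {p : ℕ} [Fact p.Prime] [CharP k p] {rbar : Γ →* Mat k} {ζ : ℚ̄}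
  {S : Finset ℕ}

/-- The finitely many dual classes. -/
theorem finite_dualCocycles_of_hyp (h : AdjointHyp rbar p ζ S) : Finite (dualCocycles rbar S) := by
  classical
  obtain ⟨hp2, hζ, hdet, ⟨L₀, hL₀, hL₀1⟩, hpS, hSp, hur, -, -, -⟩ := h
  have : FiniteDimensional ℚ (IntermediateField.adjoin ℚ ({ζ} : Set ℚ̄)) :=
    IntermediateField.adjoin.finiteDimensional (Algebra.IsIntegral.isIntegral ζ)
  let H : Subgroup Γ := rbar.ker ⊓ MulAction.stabilizer Γ ζ
  have hHn : H.Normal := ⟨fun a ha g => by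
    refine ⟨rbar.normal_ker.conj_mem a ha.1 g, ?_⟩
    obtain ⟨n, hn, -⟩ := hdet g⁻¹
    show g (a (g⁻¹ ζ)) = ζ
    rw [hn, map_pow a, show a ζ = ζ from ha.2, ← hn]
    exact g.apply_symm_apply ζ⟩
  have hLH : (L₀ ⊔ IntermediateField.adjoin ℚ ({ζ} : Set ℚ̄)).fixingSubgroup ≤ H := fun σ hσ => by
    have hσ' := (IntermediateField.mem_fixingSubgroup_iff _ _).mp hσ
    refine ⟨MonoidHom.mem_ker.mpr (hL₀1 σ ((IntermediateField.mem_fixingSubgroup_iff _ _).mpr
      fun x hx => hσ' x ((le_sup_left : L₀ ≤ _) hx))), ?_⟩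
    exact hσ' ζ ((le_sup_right : IntermediateField.adjoin ℚ ({ζ} : Set ℚ̄) ≤ _)
      (IntermediateField.mem_adjoin_simple_self ℚ ζ))
  obtain ⟨K, hKfd, hKn, hKH⟩ := exists_normal_level H hHn _ hLH
  refine finite_dualCocycles hζ hp2 rbar S K
    (ClassField.Idele.mem_of_forall_fixingSubgroup K fun σ hσ => (hKH ▸ hσ : σ ∈ H).2)
    (fun u hu => MonoidHom.mem_ker.mp (hKH ▸ hu : u ∈ H).1) ⟨hKfd, fun q hq A hA τ hτ => ?_⟩
  rw [hKH]
  have hqS : (q : ℕ) ∉ S := fun hm => hq (Finset.mem_subtype.mpr hm)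
  exact ⟨MonoidHom.mem_ker.mpr (hur q q.2 hqS A hA τ hτ),
    inertia_fix_zeta hζ (fun e : (q : ℕ) = p => hqS (e ▸ hpS)) hA hτ⟩

set_option maxHeartbeats 1000000 in
/-- **The Greenberg–Wiles inequality for `ad⁰`.** -/
theorem adjointGW_of_hyp (h : AdjointHyp rbar p ζ S) {P₀ : ValuationSubring ℚ̄}
    (hP₀ : P₀.LiesOverPrime p) : AdjointGW p rbar S P₀ := by
  classical
  have hfinD := finite_dualCocycles_of_hyp h
  set D := dualCocycles rbar S with hDdef
  set R := LinearMap.range (twistCob rbar) with hR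
  obtain ⟨C, hC⟩ := Submodule.exists_isCompl (R.comap D.subtype)
  let V := C.map D.subtype
  have hVD : V ≤ D := Submodule.map_subtype_le _ _
  have hVR : ∀ ψ ∈ V, ψ ∈ R → ψ = 0 := by
    rintro _ ⟨c, hc, rfl⟩ hcR
    rw [Submodule.disjoint_def.mp hC.disjoint c hcR hc, map_zero]
  have hsup : D ≤ V ⊔ R := fun ψ hψ => by
    obtain ⟨a, ha, b, hb, hab⟩ := Submodule.mem_sup.mp
      (show (⟨ψ, hψ⟩ : D) ∈ R.comap D.subtype ⊔ C by rw [hC.sup_eq_top]; trivial)
    have e : (a : Γ → Mat k) + (b : Γ → Mat k) = ψ := congrArg Subtype.val hab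
    rw [← e, add_comm]
    exact Submodule.add_mem_sup (Submodule.mem_map_of_mem hb) ha
  have : Finite ↥V :=
    Finite.of_injective (Submodule.inclusion hVD) (Submodule.inclusion_injective hVD)
  have hVfd : FiniteDimensional k V := Module.Finite.of_finite
  have hlev : ∃ L : IntermediateField ℚ ℚ̄, FiniteDimensional ℚ L ∧
      ∀ g t : Γ, (∀ x ∈ L, t x = x) → rbar (g * t) = rbar g := by
    obtain ⟨L, hL, hL1⟩ := h.level
    exact ⟨L, hL, fun g t ht => by
      rw [map_mul, hL1 t ((IntermediateField.mem_fixingSubgroup_iff _ _).mpr ht), mul_one]⟩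
  have h2 : (2 : k) ≠ 0 := fun h0 => h.hp2 ((Nat.prime_dvd_prime_iff_eq Fact.out Nat.prime_two).mp
    ((CharP.cast_eq_zero_iff k p 2).mp (by exact_mod_cast h0)))
  refine ⟨V, ∅, hVfd, fun ψ hψ => ?_, fun ψ hψ ⟨X, hX, hψX⟩ => ?_, ?_⟩
  · obtain ⟨h1, h2', h3, -⟩ := (mem_dualCocycles hlev).mp (hVD hψ)
    exact ⟨h1, h2', h3⟩
  · exact hVR ψ hψ (LinearMap.mem_range.mpr
      ⟨⟨X, hX⟩, funext fun g => by rw [twistCob_apply]; exact (hψX g).symm⟩)
  intro Q hQ W hW s ℓ P hinj hℓ hcov htriv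
  set B := LinearMap.range (adCoboundary rbar) with hB
  set pp : Nat.Primes := ⟨p, Fact.out⟩ with hpp
  -- the commutants at the given places
  have hcomm : ∀ (q : Nat.Primes) {A : ValuationSubring ℚ̄}, A.LiesOverPrime (q : ℕ) →
      Module.finrank k ↥(commutantSpace rbar (A.decompositionSubgroup ℚ) ⊓ traceZero k) =
        Module.finrank k
          ↥(commutantSpace rbar (ClassField.S55.locHom q).range ⊓ traceZero k) := by
    intro q A hA
    obtain ⟨σ, hσ⟩ := exists_decomposition_eq_map_conj q hA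
    rw [hσ, finrank_commutant_conj]
  set h0p := Module.finrank k
    ↥(commutantSpace rbar (P₀.decompositionSubgroup ℚ) ⊓ traceZero k) with hh0p
  set hs₀ := ∑ i, (Module.finrank k (commutantSpace rbar ((P i).decompositionSubgroup ℚ)) - 1)
    with hhs₀
  have hQS : ∀ q ∈ Q, q ∉ S := fun q hq hm => (hQ q hq).1 (Finset.mem_union_left _ hm)
  -- the inequality for a finite subspace
  have hfinite : ∀ W' : Submodule k (Γ → Mat k), W' ≤ W → Finite ↥W' → ∀ V' : Submodule k (Γ → Mat k),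
      (∀ ψ, ψ ∈ V' ↔ ψ ∈ V ∧ ∀ q ∈ Q, ∀ P' : ValuationSubring ℚ̄, P'.LiesOverPrime q →
        ∀ φ : Γ, P'.IsFrobeniusAt φ q → (ψ φ * rbar φ).trace = 0) →
      Module.finrank k (W'.map B.mkQ) + 1 + h0p + hs₀ ≤
          Module.finrank k (localClasses rbar (P₀.decompositionSubgroup ℚ) W') + Q.card +
            Module.finrank k V' ∧
        Module.finrank k (localClasses rbar (P₀.decompositionSubgroup ℚ) W') ≤ h0p + 6 := by
    intro W' hW' hfin V' hV'
    have : FiniteDimensional k ↥W' := Module.Finite.of_finite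
    have hcoc : ∀ Z ∈ W', ∀ g h, Z (g * h) = Z g + rbar g * Z h * rbar g⁻¹ := fun Z hZ =>
      (hW Z (hW' hZ)).2.1
    obtain ⟨hle, hlp⟩ := adjoint_level_bound h V hsup Q hQS (fun q hq => (hQ q hq).2) V' hV' W'
      (fun Z hZ => hW Z (hW' hZ)) s ℓ hinj (fun i => ⟨(hℓ i).1, (hℓ i).2.1⟩) hcov
      (fun Z hZ i => (locTriv_iff (q := ⟨ℓ i, h.prime _ (hℓ i).1⟩) (hℓ i).2.2 (hcoc Z hZ)).mp
        ((mem_locTriv rbar).mpr (htriv Z (hW' hZ) i)))
    have hsum₀ : (hs₀ : ℤ) = ∑ i, (Module.finrank k ↥(commutantSpace rbar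
        (ClassField.S55.locHom ⟨ℓ i, h.prime _ (hℓ i).1⟩).range ⊓ traceZero k) : ℤ) := by
      rw [hhs₀, Nat.cast_sum]
      refine Finset.sum_congr rfl fun i _ => ?_
      rw [finrank_commutantSpace_eq h2, Nat.add_sub_cancel,
        hcomm ⟨ℓ i, h.prime _ (hℓ i).1⟩ (hℓ i).2.2]
    rw [← hsum₀] at hle
    rw [finrank_localClasses_eq (q := pp) hP₀ W' hcoc, hh0p, hcomm pp hP₀]
    exact ⟨by exact_mod_cast hle, hlp⟩
  -- finiteness
  have hfd : FiniteDimensional k (W.map B.mkQ) := by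
    let V₁ : Submodule k (Γ → Mat k) := V ⊓
      { carrier := {ψ | ∀ q ∈ Q, ∀ P' : ValuationSubring ℚ̄, P'.LiesOverPrime q →
          ∀ φ : Γ, P'.IsFrobeniusAt φ q → (ψ φ * rbar φ).trace = 0}
        zero_mem' := fun q _ P' _ φ _ => by simp
        add_mem' := fun {a b} ha hb q hq P' hP' φ hφ => by
          simp [add_mul, ha q hq P' hP' φ hφ, hb q hq P' hP' φ hφ]
        smul_mem' := fun c a ha q hq P' hP' φ hφ => by
          simp [ha q hq P' hP' φ hφ] }
    refine Module.rank_lt_aleph0_iff.mp ((rank_le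
      (n := 5 + Q.card + Module.finrank k V) fun t ht => ?_).trans_lt
        (Cardinal.natCast_lt_aleph0))
    obtain ⟨W', hW', hfin, htW'⟩ := exists_finite_lift W B.mkQ
      (t := Subtype.val '' (t : Set ↥(W.map B.mkQ))) (t.finite_toSet.image _) (by
        rintro _ ⟨x, -, rfl⟩; exact x.2)
    obtain ⟨hle, hlp⟩ := hfinite W' hW' hfin V₁ fun ψ => Iff.rfl
    have hcard : t.card ≤ Module.finrank k (W'.map B.mkQ) := by
      have hli : LinearIndependent k (fun i : (t : Set ↥(W.map B.mkQ)) =>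
          (⟨((i : ↥(W.map B.mkQ)) : _ ⧸ B), htW' ⟨_, i.2, rfl⟩⟩ : ↥(W'.map B.mkQ))) :=
        LinearIndependent.of_comp (W'.map B.mkQ).subtype
          (ht.map' (W.map B.mkQ).subtype (Submodule.ker_subtype _))
      have := hli.fintype_card_le_finrank
      simpa using this
    have hV1le : Module.finrank k V₁ ≤ Module.finrank k V := Submodule.finrank_mono inf_le_left
    omega
  refine ⟨hfd, fun V' hV' => ?_⟩
  -- a finite subspace with the same image
  obtain ⟨W', hW', hfin, htW'⟩ := exists_finite_lift W B.mkQ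
    (t := Set.range fun i => ((Module.finBasis k (W.map B.mkQ) i : ↥(W.map B.mkQ)) : _ ⧸ B))
    (Set.finite_range _) (by rintro _ ⟨i, rfl⟩; exact Subtype.mem _)
  have heq : W'.map B.mkQ = W.map B.mkQ := by
    refine le_antisymm (Submodule.map_mono hW') fun x hx => ?_
    have := (Module.finBasis k (W.map B.mkQ)).sum_repr ⟨x, hx⟩
    rw [← show ((∑ i, (Module.finBasis k (W.map B.mkQ)).repr ⟨x, hx⟩ i •
      Module.finBasis k (W.map B.mkQ) i : ↥(W.map B.mkQ)) : _ ⧸ B) = x by rw [this],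
      Submodule.coe_sum]
    exact Submodule.sum_mem _ fun i _ => Submodule.smul_mem _ _ (htW' ⟨i, rfl⟩)
  obtain ⟨hle, -⟩ := hfinite W' hW' hfin V' hV'
  have hfdW := (finrank_localClasses_add rbar (P₀.decompositionSubgroup ℚ) W).1
  have hmono : Module.finrank k (localClasses rbar (P₀.decompositionSubgroup ℚ) W') ≤
      Module.finrank k (localClasses rbar (P₀.decompositionSubgroup ℚ) W) :=
    Submodule.finrank_mono (Submodule.map_mono (Submodule.map_mono hW'))
  rw [heq] at hle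
  omega

omit [Finite k] [Fact p.Prime] [CharP k p] in
/-- Enlarging `S` by `p` only weakens the hypotheses. -/
theorem adjointGW_of_insert {P₀ : ValuationSubring ℚ̄} (hS : AdjointGW p rbar (insert p S) P₀) : AdjointGW p rbar S P₀ := by
  obtain ⟨V, U, h1, h2, h3, h4⟩ := hS
  refine ⟨V, U, h1, h2, h3, fun Q hQ W hW s ℓ P hinj hℓ hcov htriv => ?_⟩
  refine h4 Q (fun q hq => ⟨?_, (hQ q hq).2⟩) W (fun Z hZ => ?_) s ℓ P hinj
    (fun i => ⟨Finset.mem_insert_of_mem (hℓ i).1, (hℓ i).2⟩) (fun l hl => ?_) htriv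
  · simp only [Finset.mem_union, Finset.mem_insert, not_or]
    have := (hQ q hq).1
    simp only [Finset.mem_union, not_or] at this
    exact ⟨⟨(hQ q hq).2.2.1, this.1⟩, this.2⟩
  · obtain ⟨z1, z2, z3, z4⟩ := hW Z hZ
    refine ⟨z1, z2, z3, fun l hl hlT => z4 l hl fun hm => hlT ?_⟩
    simp only [Finset.mem_union, Finset.mem_insert] at hm ⊢
    exact hm.imp_left Or.inr
  · exact (Finset.mem_insert.mp hl).elim Or.inl (hcov l)

/-- **The Greenberg–Wiles inequality for the adjoint of a residual representation.** -/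
theorem adjointGW (p : ℕ) [Fact p.Prime] (hp2 : p ≠ 2) [CharP k p] (ρbar : ResidualGaloisRep k)
    (habs : ρbar.IsAbsolutelyIrreducible)
    (hdet : (GaloisRepAdic.ofResidualGaloisRep ρbar).DetIsCyclotomic p)
    (bbar : Module.Basis (Fin 2) k ρbar.V) (S : Finset ℕ) (hS : ∀ q ∈ S, q.Prime)
    (hunr : ∀ q : ℕ, q.Prime → q ≠ p → q ∉ S → ρbar.IsUnramifiedAt q)
    {P₀ : ValuationSubring ℚ̄} (hP₀ : P₀.LiesOverPrime p) :
    AdjointGW p (matOf ρbar.ρ bbar) S P₀ := by
  have hp : p.Prime := Fact.out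
  have : NeZero p := ⟨hp.ne_zero⟩
  obtain ⟨ζ, hζ⟩ := HasEnoughRootsOfUnity.exists_primitiveRoot ℚ̄ p
  have h2 : (2 : k) ≠ 0 := fun h0 => hp2 ((Nat.prime_dvd_prime_iff_eq hp Nat.prime_two).mp
    ((CharP.cast_eq_zero_iff k p 2).mp (by exact_mod_cast h0)))
  have hdet' : ∀ (σ : Γ) (a : ℕ), (∀ μ : ℚ̄, μ ^ p = 1 → σ μ = μ ^ a) →
      (matOf ρbar.ρ bbar σ).det = a := by
    intro σ a ha
    have h := hdet.2 1 σ a (by simpa using ha)
    rw [pow_one, CharP.cast_eq_zero k p, Ideal.span_singleton_eq_bot.mpr rfl, Ideal.mem_bot,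
      sub_eq_zero] at h
    rw [matOf_apply, LinearMap.det_toMatrix]
    exact h
  refine adjointGW_of_insert (adjointGW_of_hyp (ζ := ζ)
    ⟨hp2, hζ, fun γ => ⟨_, EC.apply_eq_pow_cycloChar p γ hζ.pow_eq_one, hdet' γ _ fun μ hμ =>
        EC.apply_eq_pow_cycloChar p γ hμ⟩, ?_, Finset.mem_insert_self p S, ?_, ?_, ?_, ?_,
      fun K _ _ ⟨ξ, hξ, hξK⟩ => ClassField.S55.hasUnivClassFormation hp2 K hξ hξK⟩ hP₀)
  · obtain ⟨L, hL, hL1⟩ := ρbar.factorsThroughFiniteLevel
    exact ⟨L, hL, fun u hu => by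
      rw [matOf_apply, hL1 u ((IntermediateField.mem_fixingSubgroup_iff _ _).mp hu),
        LinearMap.toMatrix_one]⟩
  · exact fun q hq => (Finset.mem_insert.mp hq).elim (fun e => e ▸ hp) (hS q)
  · intro ℓ hℓ hℓS P hP τ hτ
    rw [Finset.mem_insert, not_or] at hℓS
    rw [matOf_apply, hunr ℓ hℓ hℓS.1 hℓS.2 P hP τ hτ, LinearMap.toMatrix_one]
  · exact fun X hX h => eq_zero_of_forall_commute ρbar bbar h2 habs hX h
  · refine ne_smul_one_of_involution h2 (by rw [← map_mul, complexConjugation_mul_self, map_one]) ?_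
    rw [matOf_apply, LinearMap.det_toMatrix]
    exact Density.det_eq_neg_one_of_detIsCyclotomic (GaloisRepAdic.ofResidualGaloisRep ρbar) hp hp2
      hdet complexConjugation_mul_self EC.complexConjugation_ne_one

end Fermat.Agent.RT

end
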