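import Fermat.Agent.RT.Global.EulerFromLocal
import Fermat.Agent.ClassField.GW.KummerArith
import Fermat.Agent.ClassField.S55.Final.Level

/-!
# The dual of the trace-zero adjoint: classes of `ad⁰(1)`

`ad⁰(1) = Hom(ad⁰, μ_p)` through the trace pairing, and the space of twisted trace-zero cocycles
unramified outside a finite set is finite.
-/

set_option autoImplicit false

noncomputable section

open scoped Fermat.Agent.ClassField

namespace Fermat.Agent.RT

open Fermat.Agent.Deformation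
open Deformation (Mat)

local notation "ℚ̄" => AlgebraicClosure ℚ

variable {p : ℕ} [Fact p.Prime]

/-- A primitive root of unity as a map from `ZMod p`. -/
def zetaHom {ζ : ℚ̄} (hζ : IsPrimitiveRoot ζ p) : ZMod p →+ Additive ℚ̄ˣ :=
  ZMod.lift p ⟨zmultiplesHom _ (Additive.ofMul (hζ.isUnit (NeZero.ne p)).unit), by
    rw [zmultiplesHom_apply, natCast_zsmul, ← ofMul_pow, ofMul_eq_zero]
    exact Units.ext (by rw [Units.val_pow_eq_pow_val, IsUnit.unit_spec, hζ.pow_eq_one]; rfl)⟩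

theorem coe_zetaHom {ζ : ℚ̄} (hζ : IsPrimitiveRoot ζ p) (n : ℕ) :
    (((zetaHom hζ (n : ZMod p)).toMul : ℚ̄ˣ) : ℚ̄) = ζ ^ n := by
  rw [zetaHom, show (n : ZMod p) = ((n : ℤ) : ZMod p) by norm_cast, ZMod.lift_coe]
  simp [IsUnit.unit_spec]

theorem zetaHom_injective {ζ : ℚ̄} (hζ : IsPrimitiveRoot ζ p) :
    Function.Injective (zetaHom hζ) := by
  refine (injective_iff_map_eq_zero _).mpr fun a ha => ?_
  have h := coe_zetaHom hζ a.val
  rw [ZMod.natCast_zmod_val, ha] at h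
  have h1 : ζ ^ a.val = 1 := h.symm
  rw [hζ.pow_eq_one_iff_dvd] at h1
  rw [← ZMod.natCast_zmod_val a, ZMod.natCast_eq_zero_iff]
  exact h1

theorem exists_zetaHom_eq {ζ : ℚ̄} (hζ : IsPrimitiveRoot ζ p) {x : Additive ℚ̄ˣ}
    (hx : p • x = 0) : ∃ a : ZMod p, zetaHom hζ a = x := by
  have h : ((x.toMul : ℚ̄ˣ) : ℚ̄) ^ p = 1 := by
    rw [← Units.val_pow_eq_pow_val, ← toMul_nsmul, hx]; rfl
  obtain ⟨i, -, hi⟩ := hζ.eq_pow_of_pow_eq_one h
  exact ⟨(i : ZMod p), Additive.toMul.injective (Units.ext ((coe_zetaHom hζ i).trans hi))⟩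

theorem smul_zetaHom {ζ : ℚ̄} (hζ : IsPrimitiveRoot ζ p) (γ : Γ) {n : ℕ} (hn : γ ζ = ζ ^ n)
    (a : ZMod p) : γ • zetaHom hζ a = zetaHom hζ ((n : ZMod p) * a) := by
  refine Additive.toMul.injective (Units.ext ?_)
  rw [ClassField.val_smul_additive]
  conv_lhs => rw [← ZMod.natCast_zmod_val a, coe_zetaHom]
  conv_rhs => rw [← ZMod.natCast_zmod_val a, ← Nat.cast_mul, coe_zetaHom]
  rw [AlgEquiv.smul_def, map_pow, hn, ← pow_mul]

variable {k : Type} [Field k] [CharP k p] {ζ : ℚ̄} (hζ : IsPrimitiveRoot ζ p)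

/-- The functional of a trace-zero matrix on the trace-zero matrices. -/
def dualFun (X : Mat k) : ↥(traceZero k) →+ Additive ℚ̄ˣ :=
  letI := ZMod.algebra k p
  (zetaHom hζ).comp
    (((Algebra.trace (ZMod p) k).toAddMonoidHom).comp
      ((Matrix.traceAddMonoidHom (Fin 2) k).comp
        ((AddMonoidHom.mulLeft X).comp (traceZero k).subtype.toAddMonoidHom)))

theorem dualFun_apply (X : Mat k) (m : ↥(traceZero k)) :
    dualFun hζ X m =
      (letI := ZMod.algebra k p; zetaHom hζ (Algebra.trace (ZMod p) k (X * (m : Mat k)).trace)) :=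
  rfl

theorem dualFun_add (X Y : Mat k) : dualFun hζ (X + Y) = dualFun hζ X + dualFun hζ Y := by
  refine AddMonoidHom.ext fun m => ?_
  rw [AddMonoidHom.add_apply, dualFun_apply, dualFun_apply, dualFun_apply, add_mul,
    Matrix.trace_add, map_add, map_add]

theorem dualFun_sub (X Y : Mat k) : dualFun hζ (X - Y) = dualFun hζ X - dualFun hζ Y := by
  refine AddMonoidHom.ext fun m => ?_
  rw [AddMonoidHom.sub_apply, dualFun_apply, dualFun_apply, dualFun_apply, sub_mul,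
    Matrix.trace_sub, map_sub, map_sub]

/-- Equivariance: `γ ∘ X ∘ γ⁻¹` is the functional of `χ(γ) Ad(γ) X`. -/
theorem dualFun_twist (rbar : Γ →* Mat k) (γ : Γ) {n : ℕ} (hn : γ ζ = ζ ^ n)
    (hdet : (rbar γ).det = n) (X : Mat k) (m m' : ↥(traceZero k))
    (hm' : (m' : Mat k) = rbar γ⁻¹ * (m : Mat k) * rbar γ) :
    γ • dualFun hζ X m' = dualFun hζ ((rbar γ).det • (rbar γ * X * rbar γ⁻¹)) m := by
  letI := ZMod.algebra k p
  rw [dualFun_apply, dualFun_apply, smul_zetaHom hζ γ hn, hdet, smul_mul_assoc,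
    Matrix.trace_smul, smul_eq_mul, hm', show (n : k) = algebraMap (ZMod p) k (n : ZMod p) from
      (map_natCast (algebraMap (ZMod p) k) n).symm, ← Algebra.smul_def, map_smul, smul_eq_mul]
  congr 3
  rw [show X * (rbar γ⁻¹ * (m : Mat k) * rbar γ) = (X * rbar γ⁻¹ * (m : Mat k)) * rbar γ by
    simp only [mul_assoc], Matrix.trace_mul_comm]
  simp only [mul_assoc]

variable [Finite k]

/-- The trace pairing on trace-zero matrices is perfect for odd characteristic. -/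
theorem eq_zero_of_dualFun_eq_zero (hp2 : p ≠ 2) {X : Mat k} (hX : X.trace = 0)
    (h : dualFun hζ X = 0) : X = 0 := by
  letI := ZMod.algebra k p
  have h2 : (2 : k) ≠ 0 := by
    intro h0
    have h1 : ((2 : ℕ) : k) = 0 := by exact_mod_cast h0
    rw [CharP.cast_eq_zero_iff k p] at h1
    exact hp2 ((Nat.prime_dvd_prime_iff_eq Fact.out Nat.prime_two).mp h1)
  have htr : ∀ m : ↥(traceZero k), (X * (m : Mat k)).trace = 0 := by
    intro m
    refine (traceForm_nondegenerate (ZMod p) k).1 _ fun c => ?_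
    have h1 := DFunLike.congr_fun h (c • m)
    rw [dualFun_apply, AddMonoidHom.zero_apply, Submodule.coe_smul, mul_smul_comm,
      Matrix.trace_smul, smul_eq_mul, mul_comm] at h1
    rw [Algebra.traceForm_apply]
    exact zetaHom_injective hζ (h1.trans (map_zero _).symm)
  have e12 := htr ⟨!![0, 1; 0, 0], by simp [mem_traceZero, Matrix.trace_fin_two]⟩
  have e21 := htr ⟨!![0, 0; 1, 0], by simp [mem_traceZero, Matrix.trace_fin_two]⟩
  have e11 := htr ⟨!![1, 0; 0, -1], by simp [mem_traceZero, Matrix.trace_fin_two]⟩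
  simp [Matrix.trace_fin_two, Matrix.mul_apply, Fin.sum_univ_two] at e12 e21 e11
  rw [Matrix.trace_fin_two] at hX
  have h00 : X 0 0 = 0 := by
    have : (2 : k) * X 0 0 = 0 := by linear_combination e11 + hX
    exact (mul_eq_zero.mp this).resolve_left h2
  ext i j
  fin_cases i <;> fin_cases j
  · simpa using h00
  · simpa using e21
  · simpa using e12
  · simpa [h00] using hX

omit [CharP k p] [Finite k] in
private theorem natCard_dual_zmod (V : Type) [AddCommGroup V] [Module (ZMod p) V] [Finite V] :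
    Nat.card (V →ₗ[ZMod p] ZMod p) = Nat.card V := by
  have : Module.Finite (ZMod p) V := Module.Finite.of_finite
  exact (Nat.card_congr (Module.finBasis (ZMod p) V).toDualEquiv.toEquiv).symm

/-- Every functional on the trace-zero matrices comes from a trace-zero matrix. -/
theorem exists_dualFun_eq (hp2 : p ≠ 2) (f : ↥(traceZero k) →+ Additive ℚ̄ˣ) :
    ∃ X : Mat k, X.trace = 0 ∧ dualFun hζ X = f := by
  letI := ZMod.algebra k p
  have hpM : ∀ m : ↥(traceZero k), p • m = 0 := fun m => by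
    rw [← Nat.cast_smul_eq_nsmul k, CharP.cast_eq_zero k p, zero_smul]
  letI := AddCommGroup.zmodModule hpM
  have hrange : ∀ g : ↥(traceZero k) →+ Additive ℚ̄ˣ,
      ∃ a : ↥(traceZero k) →ₗ[ZMod p] ZMod p, (zetaHom hζ).comp a.toAddMonoidHom = g := by
    intro g
    choose a ha using fun m => exists_zetaHom_eq hζ (x := g m) (by
      rw [← map_nsmul, hpM, map_zero])
    exact ⟨(AddMonoidHom.mk' a fun u v => zetaHom_injective hζ (by
      rw [map_add, ha, ha, ha, map_add])).toZModLinearMap p, AddMonoidHom.ext ha⟩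
  choose a ha using hrange
  have : Finite (↥(traceZero k) →ₗ[ZMod p] ZMod p) :=
    Finite.of_injective (fun (f : ↥(traceZero k) →ₗ[ZMod p] ZMod p) (m : ↥(traceZero k)) =>
      f.toFun m) fun f g h => LinearMap.ext fun m => congrFun h m
  have : Finite (↥(traceZero k) →+ Additive ℚ̄ˣ) := Finite.of_injective a fun g g' h => by
    rw [← ha g, h, ha]
  have hinj : Function.Injective fun X : ↥(traceZero k) => dualFun hζ (X : Mat k) := by
    intro X Y h
    refine Subtype.ext (sub_eq_zero.mp (eq_zero_of_dualFun_eq_zero hζ hp2 ?_ ?_))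
    · rw [Matrix.trace_sub, mem_traceZero.mp X.2, mem_traceZero.mp Y.2, sub_zero]
    · rw [dualFun_sub]; exact sub_eq_zero.mpr h
  have hcard : Nat.card (↥(traceZero k) →+ Additive ℚ̄ˣ) ≤ Nat.card ↥(traceZero k) := by
    have h1 := natCard_dual_zmod (p := p) ↥(traceZero k)
    rw [← h1]
    exact Nat.card_le_card_of_injective a fun g g' h => by rw [← ha g, h, ha]
  obtain ⟨X, hX⟩ := (Function.Injective.bijective_of_nat_card_le hinj hcard).2 f
  exact ⟨X, X.2, hX⟩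

/-! ### classes -/

/-- Twisted trace-zero cocycles of finite level, unramified outside `S`. -/
def dualCocycles (rbar : Γ →* Mat k) (S : Finset ℕ) : Submodule k (Γ → Mat k) where
  carrier := {ψ | IsTwistedCocycle rbar.toHomUnits ψ ∧ (∀ g, (ψ g).trace = 0) ∧
    (∃ L : IntermediateField ℚ ℚ̄, FiniteDimensional ℚ L ∧
      ∀ g t : Γ, (∀ x ∈ L, t x = x) → rbar (g * t) = rbar g ∧ ψ (g * t) = ψ g) ∧
    ∀ ℓ : ℕ, ℓ.Prime → ℓ ∉ S → ∀ P : ValuationSubring ℚ̄, P.LiesOverPrime ℓ →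
      ∀ τ ∈ P.inertiaSubgroupIn ℚ, ψ τ = 0} ∪ {0}
  zero_mem' := Or.inr rfl
  add_mem' := by
    rintro a b (⟨a1, a2, ⟨L, hL, a3⟩, a4⟩ | rfl) (⟨b1, b2, ⟨L', hL', b3⟩, b4⟩ | rfl)
    · refine Or.inl ⟨fun g h => ?_, fun g => ?_, ⟨L ⊔ L', inferInstance, fun g t ht => ?_⟩,
        fun l hl hlS P hP τ hτ => ?_⟩
      · simp only [Pi.add_apply, a1 g h, b1 g h, mul_add, add_mul, smul_add]
        abel
      · simp [a2, b2]
      · have hA := a3 g t fun x hx => ht x ((le_sup_left : L ≤ L ⊔ L') hx)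
        have hB := b3 g t fun x hx => ht x ((le_sup_right : L' ≤ L ⊔ L') hx)
        exact ⟨hA.1, by simp only [Pi.add_apply, hA.2, hB.2]⟩
      · simp [a4 l hl hlS P hP τ hτ, b4 l hl hlS P hP τ hτ]
    · exact Or.inl (by rw [add_zero]; exact ⟨a1, a2, ⟨L, hL, a3⟩, a4⟩)
    · exact Or.inl (by rw [zero_add]; exact ⟨b1, b2, ⟨L', hL', b3⟩, b4⟩)
    · exact Or.inr (by simp)
  smul_mem' := by
    rintro c a (⟨a1, a2, ⟨L, hL, a3⟩, a4⟩ | rfl)
    · refine Or.inl ⟨fun g h => ?_, fun g => by simp [a2], ⟨L, hL, fun g t ht => ?_⟩,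
        fun l hl hlS P hP τ hτ => by simp [a4 l hl hlS P hP τ hτ]⟩
      · simp only [Pi.smul_apply, a1 g h, mul_smul_comm, smul_mul_assoc, smul_add,
          smul_comm c (_ : k)]
      · exact ⟨(a3 g t ht).1, by simp only [Pi.smul_apply, (a3 g t ht).2]⟩
    · exact Or.inr (by simp)

omit [CharP k p] [Finite k] [Fact p.Prime] in
theorem mem_dualCocycles {rbar : Γ →* Mat k} {S : Finset ℕ}
    (hlev : ∃ L : IntermediateField ℚ ℚ̄, FiniteDimensional ℚ L ∧
      ∀ g t : Γ, (∀ x ∈ L, t x = x) → rbar (g * t) = rbar g) {ψ : Γ → Mat k} :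
    ψ ∈ dualCocycles rbar S ↔ IsTwistedCocycle rbar.toHomUnits ψ ∧ (∀ g, (ψ g).trace = 0) ∧
      (∃ L : IntermediateField ℚ ℚ̄, FiniteDimensional ℚ L ∧
        ∀ g t : Γ, (∀ x ∈ L, t x = x) → rbar (g * t) = rbar g ∧ ψ (g * t) = ψ g) ∧
      ∀ ℓ : ℕ, ℓ.Prime → ℓ ∉ S → ∀ P : ValuationSubring ℚ̄, P.LiesOverPrime ℓ →
        ∀ τ ∈ P.inertiaSubgroupIn ℚ, ψ τ = 0 := by
  refine ⟨?_, Or.inl⟩
  rintro (h | rfl)
  · exact h
  · obtain ⟨L, hL, h⟩ := hlev
    exact ⟨fun g h => by simp, fun g => by simp, ⟨L, hL, fun g t ht => ⟨h g t ht, rfl⟩⟩,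
      fun _ _ _ _ _ _ _ => rfl⟩

include hζ in
/-- There are only finitely many classes. -/
theorem finite_dualCocycles (hp2 : p ≠ 2) (rbar : Γ →* Mat k) (S : Finset ℕ)
    (K₀ : IntermediateField ℚ ℚ̄) [FiniteDimensional ℚ K₀] [Normal ℚ K₀] (hζK : ζ ∈ K₀)
    (hker : ∀ u ∈ K₀.fixingSubgroup, rbar u = 1)
    (hK₀ : K₀.IsUnramifiedOutside (S.subtype Nat.Prime)) :
    Finite (dualCocycles rbar S) := by
  classical
  have hfin := ClassField.GW.finite_kummerChars (S.subtype Nat.Prime) K₀ hK₀ hζ hζK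
  set A := {a : K₀.fixingSubgroup → ℚ̄ | (∀ g h, a (g * h) = a g * a h) ∧ (∀ g, a g ^ p = 1) ∧
      (∃ L : IntermediateField ℚ ℚ̄, FiniteDimensional ℚ L ∧
        ∀ g t : K₀.fixingSubgroup, (t : Γ) ∈ L.fixingSubgroup → a (g * t) = a g) ∧
      ∀ q : Nat.Primes, q ∉ S.subtype Nat.Prime → ∀ P : ValuationSubring ℚ̄,
        P.LiesOverPrime (q : ℕ) → ∀ t : K₀.fixingSubgroup,
          (t : Γ) ∈ P.inertiaSubgroupIn ℚ → a t = 1}
  have : Finite ↥A := hfin.to_subtype
  have : Finite (Γ ⧸ K₀.fixingSubgroup) :=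
    haveI : K₀.fixingSubgroup.FiniteIndex :=
      ⟨ClassField.S55.fixingSubgroup_index_ne_zero K₀⟩
    K₀.fixingSubgroup.finite_quotient_of_finiteIndex
  have hu : ∀ {ψ : Γ → Mat k}, IsTwistedCocycle rbar.toHomUnits ψ → ∀ g, ∀ u ∈ K₀.fixingSubgroup,
      ψ (g * u) = ψ g + (rbar g).det • (rbar g * ψ u * rbar g⁻¹) := fun {ψ} h g u _ => h g u
  have hchar : ∀ ψ : dualCocycles rbar S, ∀ m : ↥(traceZero k), (fun g : K₀.fixingSubgroup =>
      (((dualFun hζ ((ψ : Γ → Mat k) g) m).toMul : ℚ̄ˣ) : ℚ̄)) ∈ A := by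
    rintro ⟨ψ, hψ⟩ m
    rcases hψ with ⟨h1, -, ⟨L, hL, h3⟩, h4⟩ | h0
    · refine ⟨fun g h => ?_, fun g => ?_, ⟨L, hL, fun g t ht => ?_⟩,
        fun q hq P hP t ht => ?_⟩
      · show (((dualFun hζ (ψ ((g : Γ) * h)) m).toMul : ℚ̄ˣ) : ℚ̄) = _
        have hg1 : rbar (g : Γ) = 1 := hker _ g.2
        have hg1' : rbar (g : Γ)⁻¹ = 1 := hker _ (inv_mem g.2)
        rw [hu h1 _ _ h.2, hg1, hg1', Matrix.det_one, one_smul, one_mul, mul_one, dualFun_add,
          AddMonoidHom.add_apply, toMul_add, Units.val_mul]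
      · have hpm : p • m = 0 := by
          rw [← Nat.cast_smul_eq_nsmul k, CharP.cast_eq_zero k p, zero_smul]
        rw [← Units.val_pow_eq_pow_val, ← toMul_nsmul, ← map_nsmul, hpm, map_zero]
        rfl
      · show (((dualFun hζ (ψ ((g : Γ) * t)) m).toMul : ℚ̄ˣ) : ℚ̄) = _
        rw [(h3 g t ((IntermediateField.mem_fixingSubgroup_iff _ _).mp ht)).2]
      · show (((dualFun hζ (ψ (t : Γ)) m).toMul : ℚ̄ˣ) : ℚ̄) = 1
        rw [h4 q q.2 (fun hm => hq (Finset.mem_subtype.mpr hm)) P hP t ht, dualFun_apply,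
          zero_mul, Matrix.trace_zero, map_zero, map_zero]
        rfl
    · have h0' : ψ = 0 := h0
      subst h0'
      refine ⟨fun g h => ?_, fun g => ?_, ⟨⊥, inferInstance, fun g t _ => rfl⟩,
        fun _ _ _ _ t _ => ?_⟩ <;> simp [dualFun_apply]
  have htr0 : ∀ ψ : dualCocycles rbar S, ∀ g, ((ψ : Γ → Mat k) g).trace = 0 := by
    rintro ⟨ψ, h | h⟩ g
    · exact h.2.1 g
    · have h' : ψ = 0 := h
      subst h'
      simp
  refine Finite.of_injective (fun ψ : dualCocycles rbar S =>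
    (fun m : ↥(traceZero k) => (⟨_, hchar ψ m⟩ : A),
      fun c : Γ ⧸ K₀.fixingSubgroup => (ψ : Γ → Mat k) c.out)) fun ψ ψ' h => ?_
  simp only [Prod.mk.injEq] at h
  obtain ⟨h1, h2⟩ := h
  have hres : ∀ u ∈ K₀.fixingSubgroup, (ψ : Γ → Mat k) u = (ψ' : Γ → Mat k) u := fun u hu' => by
    refine sub_eq_zero.mp (eq_zero_of_dualFun_eq_zero hζ hp2 ?_ ?_)
    · rw [Matrix.trace_sub, htr0, htr0, sub_zero]
    · rw [dualFun_sub]
      refine (sub_eq_zero (a := dualFun hζ ((ψ : Γ → Mat k) u))).mpr ?_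
      refine AddMonoidHom.ext fun m => Additive.toMul.injective (Units.ext ?_)
      exact congrFun (congrArg Subtype.val (congrFun h1 m)) ⟨u, hu'⟩
  have hmul : ∀ φ : dualCocycles rbar S, ∀ g, ∀ u ∈ K₀.fixingSubgroup,
      (φ : Γ → Mat k) (g * u) =
        (φ : Γ → Mat k) g + (rbar g).det • (rbar g * (φ : Γ → Mat k) u * rbar g⁻¹) := by
    rintro ⟨φ, h | h⟩ g u hu'
    · exact hu h.1 g u hu'
    · have h' : φ = 0 := h
      subst h'
      simp
  refine Subtype.ext (funext fun g => ?_)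
  obtain ⟨u, hu'⟩ := QuotientGroup.mk_out_eq_mul K₀.fixingSubgroup g
  have hg : g = (QuotientGroup.mk g : Γ ⧸ K₀.fixingSubgroup).out * ((u⁻¹ : K₀.fixingSubgroup) : Γ) := by
    rw [hu']; simp [mul_assoc]
  rw [hg, hmul ψ _ _ (SetLike.coe_mem _), hmul ψ' _ _ (SetLike.coe_mem _),
    congrFun h2 (QuotientGroup.mk g), hres _ (SetLike.coe_mem _)]

end Fermat.Agent.RT

end
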