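import Fermat.Agent.RT.Global.AdjointModule
import Fermat.Agent.Density.Conj
import Fermat.Agent.Galois.Frobenius

/-!
# The dual Selmer classes of a level as twisted cocycles

A class of `Ext(ad⁰, T`-units`)` with the prescribed localisations gives, through its Kummer
cocycle, a class of `ad⁰(1)` unramified outside `S` and killed at the Taylor–Wiles primes.
-/

set_option autoImplicit false

noncomputable section

open scoped Pointwise Fermat.Agent.ClassField

namespace Fermat.Agent.RT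

open Fermat.Agent.Deformation ClassField.S55 ClassField.GW
open Deformation (Mat)

local notation "ℚ̄" => AlgebraicClosure ℚ

variable {k : Type} [Field k] (rbar : Γ →* Mat k)

/-- Coboundaries of trace-zero matrices for the twisted adjoint action. -/
def twistCob : ↥(traceZero k) →ₗ[k] (Γ → Mat k) where
  toFun X g := (rbar g).det • (rbar g * (X : Mat k) * rbar g⁻¹) - X
  map_add' X Y := funext fun g => by
    simp only [Submodule.coe_add, Pi.add_apply, mul_add, add_mul, smul_add]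
    abel
  map_smul' c X := funext fun g => by
    simp only [Submodule.coe_smul, Pi.smul_apply, RingHom.id_apply, mul_smul_comm, smul_mul_assoc,
      smul_sub, smul_comm c ((rbar g).det)]

theorem twistCob_apply (X : ↥(traceZero k)) (g : Γ) :
    twistCob rbar X g = (rbar g).det • (rbar g * (X : Mat k) * rbar g⁻¹) - X := rfl

theorem trace_twistCob_frobenius (X : ↥(traceZero k)) {g : Γ} (hg : (rbar g).det = 1) :
    (twistCob rbar X g * rbar g).trace = 0 := by
  rw [twistCob_apply, hg, one_smul, sub_mul, Matrix.trace_sub, mul_assoc, ← map_mul,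
    inv_mul_cancel, map_one, mul_one, Matrix.trace_mul_comm, sub_self]

variable {rbar}

theorem twisted_conj_eq_zero {ψ : Γ → Mat k} (hψ : IsTwistedCocycle rbar.toHomUnits ψ) {τ : Γ}
    (h1 : rbar τ = 1) (h0 : ψ τ = 0) (σ : Γ) : ψ (σ * τ * σ⁻¹) = 0 := by
  have e : ψ 1 = 0 := hψ.map_one_eq_zero
  have h2 := hψ σ σ⁻¹
  rw [mul_inv_cancel, e] at h2
  rw [hψ (σ * τ) σ⁻¹, hψ σ τ, h0, mul_zero, zero_mul, smul_zero, add_zero]
  simp only [map_mul, Units.val_mul, MonoidHom.coe_toHomUnits, mul_inv_rev, h1, mul_one] at h2 ⊢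
  rw [show rbar τ⁻¹ = 1 from (one_mul _).symm.trans (by
    rw [← h1, ← map_mul, mul_inv_cancel, map_one, h1]), one_mul]
  exact h2.symm

variable {p : ℕ} [Fact p.Prime] [CharP k p] [Finite k] {ζ : ℚ̄}
  {K : IntermediateField ℚ ℚ̄} [Normal ℚ K] [FiniteDimensional ℚ K]
  (hK : ∀ u ∈ K.fixingSubgroup, rbar u = 1) (T : Finset Nat.Primes)

variable (p) in
/-- The Kummer data of the free presentation of the adjoint and the units of the level. -/
def adKummer : KummerData (toLevel K) (R := ↥(kerOf (freeCover (LevelGroup K)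
    (AdMod p (rLevel hK))))) (P := Ind (LevelGroup K) (AdMod p (rLevel hK) →₀ ℤ))
    (M := AdMod p (rLevel hK)) (E := ↥(levelUnits K T)) (Ω := Additive ℚ̄ˣ) p where
  i := kerIncl (freeCover (LevelGroup K) (AdMod p (rLevel hK)))
  π := freeCover (LevelGroup K) (AdMod p (rLevel hK))
  i_inj := (freePres (LevelGroup K) (AdMod p (rLevel hK))).i_inj
  π_surj := freeCover_surjective
  exact := (freePres (LevelGroup K) (AdMod p (rLevel hK))).exact
  pM := AdMod.nsmul_eq_zero
  free := (freePres (LevelGroup K) (AdMod p (rLevel hK))).free_P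
  j := (levelUnits K T).subtype
  j_inj := Subtype.val_injective
  j_smul γ e := coe_toLevel_smul_levelUnits K T γ e
  divisible x := by
    obtain ⟨z, hz⟩ := IsAlgClosed.exists_pow_nat_eq ((x.toMul : ℚ̄ˣ) : ℚ̄) (Fact.out : p.Prime).pos
    have hz0 : z ≠ 0 := fun h => (x.toMul : ℚ̄ˣ).ne_zero (by
      rw [← hz, h, zero_pow (Fact.out : p.Prime).ne_zero])
    refine ⟨Additive.ofMul (Units.mk0 z hz0), Additive.toMul.injective (Units.ext ?_)⟩
    rw [toMul_nsmul, toMul_ofMul, Units.val_pow_eq_pow_val]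
    exact hz

omit [CharP k p] [Finite k] [Fact p.Prime] in
/-- Extension groups of a module killed by `p` are killed by `p`. -/
theorem nsmul_coh1_eq_zero {G A M X : Type} [Group G] [AddCommGroup A] [DistribMulAction G A]
    [AddCommGroup M] [DistribMulAction G M] [AddCommGroup X] [DistribMulAction G X]
    {π : A →+[G] M} (hM : ∀ m : M, p • m = 0) (x : Coh1 π X) : p • x = 0 := by
  obtain ⟨y, rfl⟩ := QuotientAddGroup.mk_surjective x
  rw [← QuotientAddGroup.mk_nsmul, QuotientAddGroup.eq_zero_iff]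
  have hmem : ∀ a, p • a ∈ kerOf π := fun a => mem_kerOf.2 (by rw [map_nsmul, hM])
  refine mem_resRange.2 ⟨⟨⟨AddMonoidHom.mk' (fun a => (y : CHom (kerOf π) X) ⟨p • a, hmem a⟩)
    fun a b => ?_⟩, (CHom.fixed_iff _).2 fun g a => ?_⟩, CHom.ext' fun r => ?_⟩
  · rw [← map_add]
    exact congrArg _ (Subtype.ext (smul_add p a b))
  · show (y : CHom (kerOf π) X) ⟨p • g • a, _⟩ = g • (y : CHom (kerOf π) X) ⟨p • a, _⟩
    rw [← (CHom.fixed_iff (y : CHom (kerOf π) X)).1 y.2]
    exact congrArg _ (Subtype.ext (smul_comm p g a))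
  · show (y : CHom (kerOf π) X) ⟨p • (r : A), _⟩ = ((p • y : homG G (kerOf π) X) : CHom (kerOf π) X) r
    rw [AddSubgroup.coe_nsmul, CHom.nsmul_apply, ← map_nsmul]
    rfl

/-- The functional of a matrix, on the level module. -/
def dualM (hζ : IsPrimitiveRoot ζ p) (X : Mat k) : AdMod p (rLevel hK) →+ Additive ℚ̄ˣ :=
  dualFun hζ X

theorem dualM_apply (hζ : IsPrimitiveRoot ζ p) (X : Mat k) (m : AdMod p (rLevel hK)) :
    dualM hK hζ X m = dualFun hζ X ⟨AdMod.val m, AdMod.trace_val m⟩ := rfl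

theorem dualM_add (hζ : IsPrimitiveRoot ζ p) (X Y : Mat k) :
    dualM hK hζ (X + Y) = dualM hK hζ X + dualM hK hζ Y := dualFun_add hζ X Y

theorem dualM_sub (hζ : IsPrimitiveRoot ζ p) (X Y : Mat k) :
    dualM hK hζ (X - Y) = dualM hK hζ X - dualM hK hζ Y := dualFun_sub hζ X Y

theorem dualM_zero (hζ : IsPrimitiveRoot ζ p) : dualM hK hζ (0 : Mat k) = 0 :=
  AddMonoidHom.ext fun m => by
    rw [dualM_apply, dualFun_apply, zero_mul, Matrix.trace_zero, map_zero, map_zero]
    rfl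

variable {hK}

theorem twist_dualM (hζ : IsPrimitiveRoot ζ p)
    (hdet : ∀ γ : Γ, ∃ n : ℕ, γ ζ = ζ ^ n ∧ (rbar γ).det = n) (γ : Γ) (X : Mat k) :
    twist (toLevel K) γ (dualM hK hζ X) =
      dualM hK hζ ((rbar γ).det • (rbar γ * X * rbar γ⁻¹)) := by
  obtain ⟨n, hn, hnd⟩ := hdet γ
  refine AddMonoidHom.ext fun m => ?_
  rw [twist_apply, dualM_apply, dualM_apply]
  refine dualFun_twist hζ rbar γ hn hnd X _ _ ?_
  show AdMod.val (toLevel K γ⁻¹ • m) = _
  rw [val_toLevel_smul, inv_inv]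

theorem dualM_injective (hp2 : p ≠ 2) (hζ : IsPrimitiveRoot ζ p) {X Y : Mat k}
    (hX : X.trace = 0) (hY : Y.trace = 0) (h : dualM hK hζ X = dualM hK hζ Y) : X = Y :=
  sub_eq_zero.mp (eq_zero_of_dualFun_eq_zero hζ hp2 (by rw [Matrix.trace_sub, hX, hY, sub_zero])
    ((dualM_sub hK hζ X Y).trans (sub_eq_zero.mpr h)))

theorem trace_twisted {X : Mat k} (hX : X.trace = 0) (γ : Γ) :
    ((rbar γ).det • (rbar γ * X * rbar γ⁻¹)).trace = 0 := by
  rw [Matrix.trace_smul, AdMod.trace_conj, hX, smul_zero]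

theorem trace_twistCob (X : ↥(traceZero k)) (γ : Γ) : (twistCob rbar X γ).trace = 0 := by
  rw [twistCob_apply, Matrix.trace_sub, trace_twisted X.2 γ, mem_traceZero.mp X.2, sub_zero]

theorem twist_sub_dualM (hζ : IsPrimitiveRoot ζ p)
    (hdet : ∀ γ : Γ, ∃ n : ℕ, γ ζ = ζ ^ n ∧ (rbar γ).det = n) (γ : Γ) (X : ↥(traceZero k)) :
    twist (toLevel K) γ (dualM hK hζ (X : Mat k)) - dualM hK hζ (X : Mat k) =
      dualM hK hζ (twistCob rbar X γ) := by
  rw [twist_dualM hζ hdet, twistCob_apply, dualM_sub]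

variable (hK)

/-- The relations of the free presentation. -/
abbrev AdRel (p : ℕ) [Fact p.Prime] [CharP k p] : Type :=
  ↥(kerOf (freeCover (LevelGroup K) (AdMod p (rLevel hK))))

/-- The classes: equivariant maps from the relations to the units. -/
abbrev AdCls (p : ℕ) [Fact p.Prime] [CharP k p] : Type :=
  ↥(homG (LevelGroup K) (AdRel hK p) (levelUnits K T))

variable (p) in
/-- A lift of a class. -/
def adLift (y : AdCls hK T p) :
    Ind (LevelGroup K) (AdMod p (rLevel hK) →₀ ℤ) →+ Additive ℚ̄ˣ :=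
  ((adKummer p hK T).exists_isLift (y : CHom (AdRel hK p) (levelUnits K T))).choose

theorem adLift_spec (y : AdCls hK T p) :
    (adKummer p hK T).IsLift (y : CHom (AdRel hK p) (levelUnits K T)) (adLift p hK T y) :=
  ((adKummer p hK T).exists_isLift (y : CHom (AdRel hK p) (levelUnits K T))).choose_spec

/-- The trace-zero matrix of a functional. -/
def matOfHom (hp2 : p ≠ 2) (hζ : IsPrimitiveRoot ζ p)
    (f : AdMod p (rLevel hK) →+ Additive ℚ̄ˣ) : Mat k :=
  (exists_dualFun_eq (k := k) hζ hp2 f).choose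

theorem trace_matOfHom (hp2 : p ≠ 2) (hζ : IsPrimitiveRoot ζ p)
    (f : AdMod p (rLevel hK) →+ Additive ℚ̄ˣ) : (matOfHom hK hp2 hζ f).trace = 0 :=
  (exists_dualFun_eq (k := k) hζ hp2 f).choose_spec.1

theorem dualM_matOfHom (hp2 : p ≠ 2) (hζ : IsPrimitiveRoot ζ p)
    (f : AdMod p (rLevel hK) →+ Additive ℚ̄ˣ) : dualM hK hζ (matOfHom hK hp2 hζ f) = f :=
  (exists_dualFun_eq (k := k) hζ hp2 f).choose_spec.2

/-- The twisted cocycle of a class. -/
def adPsi (hp2 : p ≠ 2) (hζ : IsPrimitiveRoot ζ p) (y : AdCls hK T p) (γ : Γ) : Mat k :=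
  matOfHom hK hp2 hζ ((adKummer p hK T).coc (adLift p hK T y) γ)

variable {hK T} (hp2 : p ≠ 2) (hζ : IsPrimitiveRoot ζ p)

theorem trace_adPsi (y : AdCls hK T p) (γ : Γ) : (adPsi hK T hp2 hζ y γ).trace = 0 :=
  trace_matOfHom hK hp2 hζ _

theorem dualM_adPsi (y : AdCls hK T p) (γ : Γ) :
    dualM hK hζ (adPsi hK T hp2 hζ y γ) = (adKummer p hK T).coc (adLift p hK T y) γ :=
  dualM_matOfHom hK hp2 hζ _

variable (hdet : ∀ γ : Γ, ∃ n : ℕ, γ ζ = ζ ^ n ∧ (rbar γ).det = n)
include hdet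

theorem isTwistedCocycle_adPsi (y : AdCls hK T p) :
    IsTwistedCocycle rbar.toHomUnits (adPsi hK T hp2 hζ y) := fun g h => by
  show adPsi hK T hp2 hζ y (g * h) = adPsi hK T hp2 hζ y g +
    (rbar g).det • (rbar g * adPsi hK T hp2 hζ y h * rbar g⁻¹)
  refine dualM_injective hp2 hζ (hK := hK) (trace_adPsi hp2 hζ y _) ?_ ?_
  · rw [Matrix.trace_add, trace_adPsi hp2 hζ, trace_twisted (trace_adPsi hp2 hζ y h) g, add_zero]
  · rw [dualM_add, ← twist_dualM hζ hdet, dualM_adPsi, dualM_adPsi, dualM_adPsi,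
      KummerData.coc_mul y.2 (adLift_spec hK T y)]

omit hdet in
/-- The components of a class at the conjugates of the base embedding. -/
theorem unitsEmb_smul_cls (y : AdCls hK T p) (q : T) (r : AdRel hK p) (σ : Γ) :
    unitsEmb (q : Nat.Primes) (σ • ((((y : CHom (AdRel hK p) (levelUnits K T)) r) :
        levelUnits K T) : Additive ℚ̄ˣ)) =
      ((((ClassField.GW.locHom (prLevel K T) (AdRel hK p) (postHom (inclLevel (K := K) T) y) q :
        homG (decGroup K (q : Nat.Primes)) (AdRel hK p) (locUnits K (q : Nat.Primes))) :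
          CHom (AdRel hK p) (locUnits K (q : Nat.Primes))) (toLevel K σ • r) :
            locUnits K (q : Nat.Primes)) : LUnits (q : Nat.Primes)) := by
  rw [locHom_apply, postHom_apply,
    (CHom.fixed_iff (y : CHom (AdRel hK p) (levelUnits K T))).1 y.2,
    map_smul (inclLevel (K := K) T), prLevel_smul]
  refine Additive.toMul.injective (Units.ext ?_)
  rw [inclLevel_apply]
  rfl

/-- Local triviality where the class extends. -/
theorem exists_twistCob_on_range (y : AdCls hK T p) (q : T)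
    (hy : ClassField.GW.locHom (prLevel K T) (AdRel hK p) (postHom (inclLevel (K := K) T) y) q ∈
      resRange (restrictHom (decGroup K (q : Nat.Primes))
        (freeCover (LevelGroup K) (AdMod p (rLevel hK)))) (locUnits K (q : Nat.Primes))) :
    ∃ X : ↥(traceZero k), ∀ d ∈ (ClassField.S55.locHom (q : Nat.Primes)).range,
      adPsi hK T hp2 hζ y d = twistCob rbar X d := by
  classical
  obtain ⟨L, hL⟩ := mem_resRange.1 hy
  let φ : Ind (LevelGroup K) (AdMod p (rLevel hK) →₀ ℤ) →+ LUnits (q : Nat.Primes) :=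
    (locUnits K (q : Nat.Primes)).subtype.comp (L : CHom _ (locUnits K (q : Nat.Primes))).hom
  obtain ⟨T₀, hT₀⟩ := KummerData.exists_coboundary_on (D := adKummer p hK T) y.2
    (adLift_spec hK T y) (unitsEmb (q : Nat.Primes)) (unitsEmb_injective _)
    (fun x hx => by
      obtain ⟨a, ha⟩ := mem_range_unitsEmb_of_nsmul hζ hx
      exact ⟨_, ha⟩)
    φ
    (fun r => by
      have h1 := congrArg (fun z : CHom (AdRel hK p) (locUnits K (q : Nat.Primes)) =>
        ((z r : locUnits K (q : Nat.Primes)) : LUnits (q : Nat.Primes))) hL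
      have h2 := unitsEmb_smul_cls y q r 1
      rw [map_one, one_smul, one_smul] at h2
      exact h1.trans h2.symm)
    (ClassField.S55.locHom (q : Nat.Primes)).range
    (fun γ => if h : ∃ τ, ClassField.S55.locHom (q : Nat.Primes) τ = γ then
      DistribSMul.toAddMonoidHom (LUnits (q : Nat.Primes)) h.choose else 0)
    (fun γ hγ x => by
      have h : ∃ τ, ClassField.S55.locHom (q : Nat.Primes) τ = γ := hγ
      rw [dif_pos h, DistribSMul.toAddMonoidHom_apply, unitsEmb_smul, h.choose_spec])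
    (fun γ hγ a => by
      have h : ∃ τ, ClassField.S55.locHom (q : Nat.Primes) τ = γ := hγ
      rw [dif_pos h, DistribSMul.toAddMonoidHom_apply]
      let δ : decGroup K (q : Nat.Primes) :=
        ⟨toLevel K γ, ⟨h.choose, congrArg (toLevel K) h.choose_spec⟩⟩
      have h1 := (CHom.fixed_iff (L : CHom (Ind (LevelGroup K) (AdMod p (rLevel hK) →₀ ℤ))
        (locUnits K (q : Nat.Primes)))).1 L.2 δ a
      exact (congrArg Subtype.val h1).trans (coe_smul_locUnits
        (congrArg (toLevel K) h.choose_spec) _))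
  refine ⟨⟨matOfHom hK hp2 hζ T₀, trace_matOfHom hK hp2 hζ T₀⟩, fun d hd =>
    dualM_injective hp2 hζ (hK := hK) (trace_adPsi hp2 hζ y d) (trace_twistCob _ d) ?_⟩
  rw [dualM_adPsi, hT₀ d hd, ← twist_sub_dualM hζ hdet, dualM_matOfHom]

variable (S Q : Finset ℕ) (hpS : p ∈ S)
    (hur : ∀ ℓ : ℕ, ℓ.Prime → ℓ ∉ S → ∀ P : ValuationSubring ℚ̄, P.LiesOverPrime ℓ →
      ∀ τ ∈ P.inertiaSubgroupIn ℚ, rbar τ = 1)
    (hKur : ∀ q : Nat.Primes, (q : ℕ) ∉ S ∪ Q → ∀ A : ValuationSubring ℚ̄,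
      A.LiesOverPrime (q : ℕ) → A.inertiaSubgroupIn ℚ ≤ K.fixingSubgroup)

/-- The local hypotheses on a class. -/
def IsSelCls (y : AdCls hK T p) : Prop :=
  (∀ q : T, ((q : Nat.Primes) : ℕ) ∈ Q →
    ClassField.GW.locHom (prLevel K T) (AdRel hK p) (postHom (inclLevel (K := K) T) y) q ∈
      resRange (restrictHom (decGroup K (q : Nat.Primes))
        (freeCover (LevelGroup K) (AdMod p (rLevel hK)))) (locUnits K (q : Nat.Primes))) ∧
  ∀ q : T, ((q : Nat.Primes) : ℕ) ∉ S ∪ Q → ∀ r a,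
    kerIncl (freeCover (LevelGroup K) (AdMod p (rLevel hK))) r = p • a → ∃ n : ℤ,
      ‖(((((ClassField.GW.locHom (prLevel K T) (AdRel hK p) (postHom (inclLevel (K := K) T) y) q :
          homG (decGroup K (q : Nat.Primes)) (AdRel hK p) (locUnits K (q : Nat.Primes))) :
          CHom (AdRel hK p) (locUnits K (q : Nat.Primes))) r : locUnits K (q : Nat.Primes)) :
            LUnits (q : Nat.Primes)).toMul : PadicAlgCl ((q : Nat.Primes) : ℕ))‖ =
        ‖(((q : Nat.Primes) : ℕ) : PadicAlgCl ((q : Nat.Primes) : ℕ))‖ ^ ((p : ℤ) * n)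

variable {S Q}

include hpS hur hKur in
theorem adPsi_mem_dualCocycles (hQT : ∀ q : Nat.Primes, (q : ℕ) ∈ Q → q ∈ T)
    {y : AdCls hK T p} (hy : IsSelCls S Q y) :
    adPsi hK T hp2 hζ y ∈ dualCocycles rbar S := by
  classical
  let b := (freePres (LevelGroup K) (AdMod p (rLevel hK))).b
  let vals := Set.range fun x => (((adLift p hK T y (b x)).toMul : ℚ̄ˣ) : ℚ̄)
  let F : IntermediateField ℚ ℚ̄ := K ⊔ IntermediateField.adjoin ℚ vals
  have : FiniteDimensional ℚ (IntermediateField.adjoin ℚ vals) :=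
    IntermediateField.finiteDimensional_adjoin fun x _ => Algebra.IsIntegral.isIntegral x
  have : FiniteDimensional ℚ F := IntermediateField.finiteDimensional_sup _ _
  refine Or.inl ⟨isTwistedCocycle_adPsi hp2 hζ hdet y, trace_adPsi hp2 hζ y,
    ⟨F, inferInstance, fun g t ht => ?_⟩, fun l hl hlS A hA τ hτ => ?_⟩
  · have htK : t ∈ K.fixingSubgroup := (IntermediateField.mem_fixingSubgroup_iff _ _).mpr
      fun x hx => ht x ((le_sup_left : K ≤ F) hx)
    refine ⟨by rw [map_mul, hK t htK, mul_one],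
      dualM_injective hp2 hζ (hK := hK) (trace_adPsi hp2 hζ y _) (trace_adPsi hp2 hζ y _) ?_⟩
    rw [dualM_adPsi, dualM_adPsi]
    refine KummerData.coc_mul_right y.2 (adLift_spec hK T y) g
      ((QuotientGroup.eq_one_iff _).mpr htK) fun a => ?_
    have hhom : (DistribSMul.toAddMonoidHom (Additive ℚ̄ˣ) t).comp (adLift p hK T y) =
        adLift p hK T y := by
      refine AddMonoidHom.toIntLinearMap_injective
        (b.ext fun x => Additive.toMul.injective (Units.ext ?_))
      exact ht _ ((le_sup_right : _ ≤ F) (IntermediateField.subset_adjoin ℚ _ ⟨x, rfl⟩))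
    exact DFunLike.congr_fun hhom a
  · have h1 : rbar τ = 1 := hur l hl hlS A hA τ hτ
    by_cases hlQ : l ∈ Q
    · let q : Nat.Primes := ⟨l, hl⟩
      have : Fact l.Prime := ⟨hl⟩
      obtain ⟨σ, rfl⟩ := Density.exists_smul_eq hl
        (TwoAdic.Selmer.liesOverPrime_padicPlace q) hA
      have hτ0 := Density.conj_inv_mem_inertiaSubgroupIn hτ
      have h0 : rbar (σ⁻¹ * τ * σ) = 1 := by
        rw [map_mul, map_mul, h1, mul_one, ← map_mul, inv_mul_cancel, map_one]
      have hd : σ⁻¹ * τ * σ ∈ (ClassField.S55.locHom q).range := by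
        rw [show (ClassField.S55.locHom q).range =
            (padicPlace (q : ℕ)).decompositionSubgroup ℚ from
          FlatLocal.decompositionSubgroup_padicPlace.symm]
        exact (Density.mem_inertiaSubgroupIn_iff.mp hτ0).1
      obtain ⟨X, hX⟩ := exists_twistCob_on_range hp2 hζ hdet y ⟨q, hQT q hlQ⟩
        (hy.1 ⟨q, hQT q hlQ⟩ hlQ)
      have hz : adPsi hK T hp2 hζ y (σ⁻¹ * τ * σ) = 0 := by
        rw [hX _ hd, twistCob_apply, h0, Matrix.det_one, one_smul, one_mul,
          show rbar (σ⁻¹ * τ * σ)⁻¹ = 1 from by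
            rw [← one_mul (rbar (σ⁻¹ * τ * σ)⁻¹), ← h0, ← map_mul, mul_inv_cancel, map_one, h0],
          mul_one, sub_self]
      have := twisted_conj_eq_zero (isTwistedCocycle_adPsi hp2 hζ hdet y) h0 hz σ
      rwa [show σ * (σ⁻¹ * τ * σ) * σ⁻¹ = τ by group] at this
    · let q : Nat.Primes := ⟨l, hl⟩
      have hqSQ : (q : ℕ) ∉ S ∪ Q := Finset.notMem_union.mpr ⟨hlS, hlQ⟩
      have hρτ : toLevel K τ = 1 := (QuotientGroup.eq_one_iff _).mpr (hKur q hqSQ A hA hτ)
      refine dualM_injective hp2 hζ (hK := hK) (trace_adPsi hp2 hζ y τ) (by simp) ?_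
      rw [dualM_adPsi, dualM_zero]
      refine coc_eq_zero_of_mem_inertia y.2 (adLift_spec hK T y) (q := q)
        (fun h => hlS (h ▸ hpS : (q : ℕ) ∈ S)) hA hτ hρτ fun r a hr ι => ?_
      by_cases hqT : q ∈ T
      · obtain ⟨σ, rfl⟩ := globalComp_surjective q ι
        obtain ⟨n, hn⟩ := hy.2 ⟨q, hqT⟩ hqSQ (toLevel K σ • r) (toLevel K σ • a) (by
            rw [map_smul, show kerIncl (freeCover (LevelGroup K) (AdMod p (rLevel hK))) r =
              p • a from hr, smul_comm])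
        refine ⟨n, hn ▸ ?_⟩
        rw [← unitsEmb_smul_cls y ⟨q, hqT⟩ r σ]
        rfl
      · refine ⟨0, ?_⟩
        rw [mul_zero, zpow_zero]
        exact ((y : CHom (AdRel hK p) (levelUnits K T)) r).2.2 q hqT ι

theorem trace_adPsi_frobenius (hQ : ∀ q ∈ Q, IsTWPrime rbar.toHomUnits p 1 q)
    (hQT : ∀ q : Nat.Primes, (q : ℕ) ∈ Q → q ∈ T) {y : AdCls hK T p} (hy : IsSelCls S Q y)
    (q : ℕ) (hq : q ∈ Q) (P' : ValuationSubring ℚ̄) (hP' : P'.LiesOverPrime q) (φ : Γ)
    (hφ : P'.IsFrobeniusAt φ q) : (adPsi hK T hp2 hζ y φ * rbar φ).trace = 0 := by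
  obtain ⟨hqp, -, -, hTW⟩ := hQ q hq
  let qq : Nat.Primes := ⟨q, hqp⟩
  have : Fact q.Prime := ⟨hqp⟩
  obtain ⟨σ, rfl⟩ := Density.exists_smul_eq hqp
    (TwoAdic.Selmer.liesOverPrime_padicPlace qq) hP'
  have hφ0 : (padicPlace q).IsFrobeniusAt (σ⁻¹ * φ * σ) q := by
    have := Density.isFrobeniusAt_conj hφ σ⁻¹
    rwa [inv_smul_smul, inv_inv] at this
  obtain ⟨X, hX⟩ := exists_twistCob_on_range hp2 hζ hdet y ⟨qq, hQT qq hq⟩
    (hy.1 ⟨qq, hQT qq hq⟩ hq)
  have hd : σ⁻¹ * φ * σ ∈ (ClassField.S55.locHom qq).range := by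
    rw [show (ClassField.S55.locHom qq).range =
        (padicPlace (qq : ℕ)).decompositionSubgroup ℚ from
      FlatLocal.decompositionSubgroup_padicPlace.symm]
    exact hφ0.mem_decompositionSubgroup
  have hdet1 : (rbar (σ⁻¹ * φ * σ)).det = 1 :=
    ((hTW _ (TwoAdic.Selmer.liesOverPrime_padicPlace qq)).2 _ hφ0).1
  have h := trace_cocycle_conj (isTwistedCocycle_adPsi hp2 hζ hdet y) σ
    (g := σ⁻¹ * φ * σ) hdet1
  rw [show σ * (σ⁻¹ * φ * σ) * σ⁻¹ = φ by group] at h
  simp only [MonoidHom.coe_toHomUnits] at h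
  rw [h, hX _ hd, trace_twistCob_frobenius rbar X hdet1, mul_zero]

omit hdet in
/-- The sum of a split: the class is zero when its cocycle is a coboundary. -/
theorem mem_resRange_of_adPsi_sub (hdet : ∀ γ : Γ, ∃ n : ℕ, γ ζ = ζ ^ n ∧ (rbar γ).det = n)
    (y y' : AdCls hK T p) (X : ↥(traceZero k))
    (h : ∀ γ, adPsi hK T hp2 hζ y γ - adPsi hK T hp2 hζ y' γ = twistCob rbar X γ) :
    y - y' ∈ resRange (freeCover (LevelGroup K) (AdMod p (rLevel hK))) (levelUnits K T) := by
  have hρ : Function.Surjective (toLevel K) := QuotientGroup.mk'_surjective _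
  have hker : (toLevel K).ker = K.fixingSubgroup := QuotientGroup.ker_mk' _
  have hl := fun γ => KummerData.coc_sub (D := adKummer p hK T) y.2 y'.2 (adLift_spec hK T y)
    (adLift_spec hK T y') γ
  obtain ⟨G', hG', hpre⟩ := KummerData.exists_pre_eq_of_coc_eq_coboundary (D := adKummer p hK T)
    (fun z hz hpz => by
      obtain ⟨⟨e, he⟩, hee⟩ := hpz
      refine ⟨⟨z, ClassField.Idele.mem_of_forall_fixingSubgroup K fun σ hσ => ?_,
        fun l hl' ι => ?_⟩, rfl⟩
      · exact congrArg (fun w : Additive ℚ̄ˣ => ((w.toMul : ℚ̄ˣ) : ℚ̄))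
          (hz σ (hker.symm ▸ hσ))
      · have h1 := he.2 l hl' ι
        rw [show e = p • z from hee] at h1
        rw [toMul_nsmul, Units.val_pow_eq_pow_val, map_pow, norm_pow] at h1
        exact (pow_eq_one_iff_of_nonneg (norm_nonneg _) (Fact.out : p.Prime).ne_zero).mp h1)
    (fun g => by rw [smul_sub, y.2 g, y'.2 g]) (hl 1).2 hρ (dualM hK hζ (X : Mat k))
    (fun γ => by
      rw [(hl γ).1, ← dualM_adPsi hp2 hζ, ← dualM_adPsi hp2 hζ, ← dualM_sub, h,
        twist_sub_dualM hζ hdet])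
  exact mem_resRange.mpr ⟨⟨G', hG'⟩, hpre⟩

set_option maxHeartbeats 1600000 in
include hp2 hζ hpS hur hKur in
/-- The classes with the prescribed localisations embed into the dual classes killed at `Q`. -/
theorem dlog_dualSel_le (hQ : ∀ q ∈ Q, IsTWPrime rbar.toHomUnits p 1 q)
    (hQT : ∀ q : Nat.Primes, (q : ℕ) ∈ Q → q ∈ T)
    (Yv : ∀ q : T, AddSubgroup (homG (decGroup K (q : Nat.Primes))
      (AdRel hK p) (locUnits K (q : Nat.Primes))))
    (hYQ : ∀ q : T, ((q : Nat.Primes) : ℕ) ∈ Q →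
      Yv q ≤ resRange (restrictHom (decGroup K (q : Nat.Primes))
        (freeCover (LevelGroup K) (AdMod p (rLevel hK)))) (locUnits K (q : Nat.Primes)))
    (hYU : ∀ q : T, ((q : Nat.Primes) : ℕ) ∉ S ∪ Q → ∀ z ∈ Yv q, ∀ r a,
      kerIncl (freeCover (LevelGroup K) (AdMod p (rLevel hK))) r = p • a → ∃ n : ℤ,
        ‖((((z : CHom (AdRel hK p) (locUnits K (q : Nat.Primes))) r :
            locUnits K (q : Nat.Primes)) : LUnits (q : Nat.Primes)).toMul :
            PadicAlgCl ((q : Nat.Primes) : ℕ))‖ =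
          ‖(((q : Nat.Primes) : ℕ) : PadicAlgCl ((q : Nat.Primes) : ℕ))‖ ^ ((p : ℤ) * n))
    (V : Submodule k (Γ → Mat k)) [FiniteDimensional k V]
    (hVsup : dualCocycles rbar S ≤ V ⊔ LinearMap.range (twistCob rbar))
    (V' : Submodule k (Γ → Mat k))
    (hV' : ∀ ψ, ψ ∈ V' ↔ ψ ∈ V ∧ ∀ q ∈ Q, ∀ P' : ValuationSubring ℚ̄, P'.LiesOverPrime q →
      ∀ φ : Γ, P'.IsFrobeniusAt φ q → (ψ φ * rbar φ).trace = 0) :
    dlog p (dualSel (prLevel K T) (inclLevel (K := K) T) Yv) ≤
      dlog p k * (Module.finrank k V' : ℤ) := by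
  classical
  let Z := dualSel (prLevel K T) (inclLevel (K := K) T) Yv
  -- a representative and its projection to `V`
  have hsplit : ∀ x : Z, ∃ y : AdCls hK T p, ∃ v : V', ∃ X : ↥(traceZero k),
      QuotientAddGroup.mk y = (x : Coh1 (freeCover (LevelGroup K) (AdMod p (rLevel hK)))
        (levelUnits K T)) ∧
      adPsi hK T hp2 hζ y = (v : Γ → Mat k) + twistCob rbar X := by
    rintro ⟨x, hx⟩
    obtain ⟨y, hy, rfl⟩ := mem_dualSel.mp hx
    have hsel : IsSelCls S Q y := ⟨fun q hq => hYQ q hq (hy q), fun q hq => hYU q hq _ (hy q)⟩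
    obtain ⟨v, hv, _, ⟨X, rfl⟩, hsum⟩ := Submodule.mem_sup.mp
      (hVsup (adPsi_mem_dualCocycles hp2 hζ hdet hpS hur hKur hQT hsel))
    refine ⟨y, ⟨v, (hV' v).mpr ⟨hv, fun q hq P' hP' φ hφ => ?_⟩⟩, X, rfl, hsum.symm⟩
    have h1 := trace_adPsi_frobenius hp2 hζ hdet hQ hQT hsel q hq P' hP' φ hφ
    rw [← hsum, Pi.add_apply, add_mul, Matrix.trace_add,
      trace_twistCob_frobenius rbar X (((hQ q hq).2.2.2 P' hP').2 φ hφ).1, add_zero] at h1
    exact h1
  choose rep vOf XOf hrep hvOf using hsplit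
  have : FiniteDimensional k V' := Submodule.finiteDimensional_of_le fun ψ h => ((hV' ψ).mp h).1
  have : Finite V' := Module.finite_of_finite k
  have hinj : Function.Injective vOf := by
    intro x x' h
    refine Subtype.ext ?_
    rw [← hrep x, ← hrep x', ← sub_eq_zero, ← QuotientAddGroup.mk_sub,
      QuotientAddGroup.eq_zero_iff]
    refine mem_resRange_of_adPsi_sub hp2 hζ hdet (rep x) (rep x') (XOf x - XOf x') fun γ => ?_
    rw [hvOf x, hvOf x', h, Pi.add_apply, Pi.add_apply, map_sub, Pi.sub_apply]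
    abel
  have hcard : Nat.card Z ≤ Nat.card V' := Nat.card_le_card_of_injective _ hinj
  have hp' : p.Prime := Fact.out
  have : Finite Z := Finite.of_injective _ hinj
  have hpgrp : IsPGroup p (Multiplicative Z) := fun x => by
    refine ⟨1, Multiplicative.toAdd.injective (Subtype.ext ?_)⟩
    rw [pow_one, toAdd_pow, toAdd_one, AddSubgroup.coe_nsmul, AddSubgroup.coe_zero]
    exact nsmul_coh1_eq_zero AdMod.nsmul_eq_zero _
  obtain ⟨n, hn⟩ := IsPGroup.iff_card.mp hpgrp
  rw [Nat.card_congr Multiplicative.toAdd] at hn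
  have := Fintype.ofFinite k
  obtain ⟨f, -, hf⟩ := FiniteField.card k p
  rw [hn, Module.natCard_eq_pow_finrank (K := k), Nat.card_eq_fintype_card, hf, ← pow_mul] at hcard
  show dlog p Z ≤ _
  unfold dlog
  rw [hn, Nat.card_eq_fintype_card, hf, hp'.factorization_pow, hp'.factorization_pow,
    Finsupp.single_eq_same, Finsupp.single_eq_same]
  exact_mod_cast (Nat.pow_le_pow_iff_right hp'.one_lt).mp hcard

end Fermat.Agent.RT

end
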