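import Fermat.Agent.RT.Global.AdjointQuot
import Fermat.Agent.RT.Global.AdjointSelmer
import Fermat.Agent.ClassField.GW.AuxPlace
import Fermat.Agent.ClassField.GW.Restrict
import Fermat.Agent.ClassField.GW.Values.Global
import Fermat.Agent.ClassField.S55.Final.FormationWrapper
import Fermat.Agent.ClassField.Idele.Fundamental.LevelModule

/-!
# The Greenberg–Wiles inequality for a finite space of adjoint classes

The abstract inequality at the level cut out by the classes, with all local and global terms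
evaluated.
-/

set_option autoImplicit false

noncomputable section

open scoped Fermat.Agent.ClassField

namespace Fermat.Agent.RT

open Fermat.Agent.Deformation ClassField.S55 ClassField.GW
open Deformation (Mat)

local notation "ℚ̄" => AlgebraicClosure ℚ

/-- A normal subgroup containing a finite level is the group of a finite normal level. -/
theorem exists_normal_level (H : Subgroup Γ) (hn : H.Normal) (L : IntermediateField ℚ ℚ̄)
    [FiniteDimensional ℚ L] (hL : L.fixingSubgroup ≤ H) :
    ∃ K : IntermediateField ℚ ℚ̄, FiniteDimensional ℚ K ∧ Normal ℚ K ∧ K.fixingSubgroup = H := by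
  have hfix : (IntermediateField.fixedField H).fixingSubgroup = H :=
    ClassField.Idele.fixingSubgroup_fixedField_of_le hL
  have hle : IntermediateField.fixedField H ≤ L := fun x hx =>
    ClassField.Idele.mem_of_forall_fixingSubgroup L fun σ hσ => hx ⟨σ, hL hσ⟩
  have : IsGalois ℚ (IntermediateField.fixedField H) :=
    (InfiniteGalois.normal_iff_isGalois _).mp (by rw [hfix]; exact hn)
  exact ⟨_, FiniteDimensional.of_injective (IntermediateField.inclusion hle).toLinearMap
    (IntermediateField.inclusion hle).injective, inferInstance, hfix⟩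

/-- Inertia prime to `p` fixes the `p`-th roots of unity. -/
theorem inertia_fix_zeta {p : ℕ} [Fact p.Prime] {ζ : ℚ̄} (hζ : IsPrimitiveRoot ζ p)
    {q : Nat.Primes} (hqp : (q : ℕ) ≠ p) {A : ValuationSubring ℚ̄}
    (hA : A.LiesOverPrime (q : ℕ)) {τ : Γ} (hτ : τ ∈ A.inertiaSubgroupIn ℚ) : τ ζ = ζ := by
  have hp : p.Prime := Fact.out
  have hn : ∀ ι : ClassField.Idele.Emb q, ‖ι ζ‖ = 1 := fun ι => by
    refine (pow_eq_one_iff_of_nonneg (norm_nonneg _) hp.ne_zero).mp ?_
    rw [← norm_pow, ← map_pow, hζ.pow_eq_one, map_one, norm_one]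
  refine apply_eq_of_mem_inertia (n := p)
    (fun hd => hqp ((Nat.prime_dvd_prime_iff_eq q.2 hp).mp hd)) hA hτ
    (mem_of_forall_norm_le_one q hA fun ι => (hn ι).le)
    (mem_of_forall_norm_le_one q hA fun ι => by rw [map_inv₀, norm_inv, hn ι, inv_one])
    (hζ.ne_zero hp.ne_zero) ?_
  rw [hζ.pow_eq_one, map_one]

variable {k : Type} [Field k]

/-- The decomposition group of a level is the image of the local Galois group. -/
theorem map_range_locHom (K : IntermediateField ℚ ℚ̄) [Normal ℚ K] (q : Nat.Primes) :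
    (ClassField.S55.locHom q).range.map (toLevel K) = decGroup K q :=
  MonoidHom.map_range (toLevel K) (ClassField.S55.locHom q)

/-- Local triviality does not depend on the place. -/
theorem locTriv_iff {rbar : Γ →* Mat k} {q : Nat.Primes} {P : ValuationSubring ℚ̄}
    (hP : P.LiesOverPrime (q : ℕ)) {Z : Γ → Mat k}
    (hZ : ∀ g h, Z (g * h) = Z g + rbar g * Z h * rbar g⁻¹) :
    Z ∈ locTriv rbar (P.decompositionSubgroup ℚ) ↔
      Z ∈ locTriv rbar (ClassField.S55.locHom q).range := by
  obtain ⟨σ, hσ⟩ := exists_decomposition_eq_map_conj q hP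
  rw [hσ]
  refine ⟨fun h => ?_, mem_locTriv_conj rbar σ hZ⟩
  have h' := mem_locTriv_conj rbar σ⁻¹ hZ h
  rwa [Subgroup.map_map, show (MulAut.conj σ⁻¹).toMonoidHom.comp (MulAut.conj σ).toMonoidHom =
    MonoidHom.id Γ from MonoidHom.ext fun x => by simp [MulAut.conj_apply, mul_assoc],
    Subgroup.map_id] at h'

/-- The local classes have the same dimension at every place over a prime. -/
theorem finrank_localClasses_eq {rbar : Γ →* Mat k} {q : Nat.Primes} {P : ValuationSubring ℚ̄}
    (hP : P.LiesOverPrime (q : ℕ)) (W : Submodule k (Γ → Mat k))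
    (hW : ∀ Z ∈ W, ∀ g h, Z (g * h) = Z g + rbar g * Z h * rbar g⁻¹)
    [FiniteDimensional k (W.map (LinearMap.range (adCoboundary rbar)).mkQ)] :
    Module.finrank k (localClasses rbar (P.decompositionSubgroup ℚ) W) =
      Module.finrank k (localClasses rbar (ClassField.S55.locHom q).range W) := by
  have h1 := (finrank_localClasses_add rbar (P.decompositionSubgroup ℚ) W).2
  have h2 := (finrank_localClasses_add rbar (ClassField.S55.locHom q).range W).2
  have he : W ⊓ locTriv rbar (P.decompositionSubgroup ℚ) =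
      W ⊓ locTriv rbar (ClassField.S55.locHom q).range := by
    ext Z
    simp only [Submodule.mem_inf]
    exact and_congr_right fun hZ => locTriv_iff hP (hW Z hZ)
  rw [he] at h1
  omega

variable [Finite k] {p : ℕ} [Fact p.Prime] [CharP k p] (rbar : Γ →* Mat k)

/-- The hypotheses on the residual representation. -/
structure AdjointHyp (p : ℕ) (ζ : ℚ̄) (S : Finset ℕ) : Prop where
  hp2 : p ≠ 2
  hζ : IsPrimitiveRoot ζ p
  det : ∀ γ : Γ, ∃ n : ℕ, γ ζ = ζ ^ n ∧ (rbar γ).det = n
  level : ∃ L : IntermediateField ℚ ℚ̄, FiniteDimensional ℚ L ∧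
    ∀ u ∈ L.fixingSubgroup, rbar u = 1
  mem : p ∈ S
  prime : ∀ q ∈ S, q.Prime
  unram : ∀ ℓ : ℕ, ℓ.Prime → ℓ ∉ S → ∀ P : ValuationSubring ℚ̄, P.LiesOverPrime ℓ →
    ∀ τ ∈ P.inertiaSubgroupIn ℚ, rbar τ = 1
  inv : ∀ X : Mat k, X.trace = 0 → (∀ g, rbar g * X = X * rbar g) → X = 0
  conj : ∀ c : k, rbar complexConjugation ≠ c • 1
  formation : ∀ (K : IntermediateField ℚ ℚ̄) [Normal ℚ K] [FiniteDimensional ℚ K],
    (∃ ζ : ℚ̄, IsPrimitiveRoot ζ p ∧ ζ ∈ K) → HasUnivClassFormation K p

variable {rbar} {ζ : ℚ̄} {S : Finset ℕ}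

/-- The bound on a single place in the inequality. -/
def placeBound (rbar : Γ →* Mat k) (p : ℕ) (S Q : Finset ℕ) (lp : ℕ) (q : Nat.Primes) : ℤ :=
  (if (q : ℕ) = p then
      (lp : ℤ) - Module.finrank k
        ↥(commutantSpace rbar (ClassField.S55.locHom q).range ⊓ traceZero k) - 3
    else 0) +
  (if (q : ℕ) ∈ S ∧ (q : ℕ) ≠ p then
      -(Module.finrank k
        ↥(commutantSpace rbar (ClassField.S55.locHom q).range ⊓ traceZero k) : ℤ)
    else 0) +
  (if (q : ℕ) ∈ Q then 1 else 0)

set_option maxHeartbeats 4000000 in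
/-- The inequality for a finite space of classes, and a crude bound on the classes at `p`. -/
theorem adjoint_level_bound (h : AdjointHyp rbar p ζ S) (V : Submodule k (Γ → Mat k))
    [FiniteDimensional k V] (hVsup : dualCocycles rbar S ≤ V ⊔ LinearMap.range (twistCob rbar))
    (Q : Finset ℕ) (hQS : ∀ q ∈ Q, q ∉ S) (hQ : ∀ q ∈ Q, IsTWPrime rbar.toHomUnits p 1 q)
    (V' : Submodule k (Γ → Mat k))
    (hV' : ∀ ψ, ψ ∈ V' ↔ ψ ∈ V ∧ ∀ q ∈ Q, ∀ P' : ValuationSubring ℚ̄, P'.LiesOverPrime q →
      ∀ φ : Γ, P'.IsFrobeniusAt φ q → (ψ φ * rbar φ).trace = 0)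
    (W : Submodule k (Γ → Mat k)) [Finite ↥W]
    (hW : ∀ Z ∈ W, IsAdjointClass rbar (S ∪ Q) Z)
    (s : ℕ) (ℓ : Fin s → ℕ) (hinj : Function.Injective ℓ)
    (hℓ : ∀ i, ℓ i ∈ S ∧ ℓ i ≠ p) (hcov : ∀ l ∈ S, l = p ∨ ∃ i, ℓ i = l)
    (htriv : ∀ Z ∈ W, ∀ i, Z ∈ locTriv rbar
      (ClassField.S55.locHom ⟨ℓ i, h.prime _ (hℓ i).1⟩).range) :
    (Module.finrank k (W.map (LinearMap.range (adCoboundary rbar)).mkQ) : ℤ) + 1 +
        Module.finrank k ↥(commutantSpace rbar
          (ClassField.S55.locHom ⟨p, Fact.out⟩).range ⊓ traceZero k) +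
        ∑ i, (Module.finrank k ↥(commutantSpace rbar
          (ClassField.S55.locHom ⟨ℓ i, h.prime _ (hℓ i).1⟩).range ⊓ traceZero k) : ℤ) ≤
      Module.finrank k (localClasses rbar (ClassField.S55.locHom ⟨p, Fact.out⟩).range W) +
        Q.card + Module.finrank k V' ∧
    Module.finrank k (localClasses rbar (ClassField.S55.locHom ⟨p, Fact.out⟩).range W) ≤
      Module.finrank k ↥(commutantSpace rbar
          (ClassField.S55.locHom ⟨p, Fact.out⟩).range ⊓ traceZero k) + 6 := by
  classical
  have hp : p.Prime := Fact.out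
  obtain ⟨hp2, hζ, hdet, ⟨L₀, hL₀, hL₀1⟩, hpS, hSp, hur, hinv, hconj, hform⟩ := h
  have h2 : (2 : k) ≠ 0 := fun h0 => hp2 ((Nat.prime_dvd_prime_iff_eq hp Nat.prime_two).mp
    ((CharP.cast_eq_zero_iff k p 2).mp (by exact_mod_cast h0)))
  have htr : ∀ Z ∈ W, ∀ g, (Z g).trace = 0 := fun Z hZ => (hW Z hZ).1
  have hcoc : ∀ Z ∈ W, ∀ g h, Z (g * h) = Z g + rbar g * Z h * rbar g⁻¹ := fun Z hZ =>
    (hW Z hZ).2.1
  have hone : ∀ Z ∈ W, Z 1 = 0 := fun Z hZ => by
    have e := hcoc Z hZ 1 1
    rw [one_mul, inv_one, map_one, one_mul, mul_one] at e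
    exact left_eq_add.mp e
  have hinv1 : ∀ {σ : Γ}, rbar σ = 1 → rbar σ⁻¹ = 1 := fun {σ} h1 => by
    rw [← one_mul (rbar σ⁻¹), ← h1, ← map_mul, mul_inv_cancel, map_one, h1]
  -- the level
  let H : Subgroup Γ :=
    { carrier := {σ | rbar σ = 1 ∧ σ ζ = ζ ∧ ∀ Z ∈ W, Z σ = 0}
      one_mem' := ⟨map_one rbar, rfl, hone⟩
      mul_mem' := fun {a b} ha hb => ⟨by rw [map_mul, ha.1, hb.1, one_mul],
        show a (b ζ) = ζ by rw [hb.2.1, ha.2.1], fun Z hZ => by
          rw [hcoc Z hZ a b, ha.2.2 Z hZ, hb.2.2 Z hZ, mul_zero, zero_mul, add_zero]⟩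
      inv_mem' := fun {a} ha => ⟨hinv1 ha.1,
        show a.symm ζ = ζ by rw [AlgEquiv.symm_apply_eq, ha.2.1], fun Z hZ => by
          have e := hcoc Z hZ a a⁻¹
          rw [mul_inv_cancel, hone Z hZ, ha.2.2 Z hZ, ha.1, hinv1 ha.1, one_mul, mul_one,
            zero_add] at e
          exact e.symm⟩ }
  have hHn : H.Normal := ⟨fun a ha g => by
    have hg : rbar (g * a * g⁻¹) = 1 := by
      rw [map_mul, map_mul, ha.1, mul_one, ← map_mul, mul_inv_cancel, map_one]
    refine ⟨hg, ?_, fun Z hZ => ?_⟩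
    · obtain ⟨n, hn, -⟩ := hdet g⁻¹
      show g (a (g⁻¹ ζ)) = ζ
      rw [hn, map_pow a, ha.2.1, ← hn]
      exact g.apply_symm_apply ζ
    · have e := hcoc Z hZ g g⁻¹
      rw [mul_inv_cancel, hone Z hZ] at e
      rw [hcoc Z hZ (g * a) g⁻¹, hcoc Z hZ g a, ha.2.2 Z hZ, mul_zero, zero_mul, add_zero,
        mul_inv_rev, map_mul, map_mul, ha.1, hinv1 ha.1, mul_one, one_mul, ← e]⟩
  choose LZ hLZ hLZfac using fun Z : ↥W => (hW Z Z.2).2.2.1
  have : ∀ Z, FiniteDimensional ℚ (LZ Z) := hLZ
  have : FiniteDimensional ℚ (IntermediateField.adjoin ℚ ({ζ} : Set ℚ̄)) :=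
    IntermediateField.adjoin.finiteDimensional (Algebra.IsIntegral.isIntegral ζ)
  let L : IntermediateField ℚ ℚ̄ := (L₀ ⊔ IntermediateField.adjoin ℚ ({ζ} : Set ℚ̄)) ⊔ ⨆ Z, LZ Z
  have hLH : L.fixingSubgroup ≤ H := fun σ hσ => by
    have hσ' := (IntermediateField.mem_fixingSubgroup_iff _ _).mp hσ
    refine ⟨hL₀1 σ ((IntermediateField.mem_fixingSubgroup_iff _ _).mpr fun x hx =>
      hσ' x ((le_sup_left.trans le_sup_left : L₀ ≤ L) hx)), ?_, fun Z hZ => ?_⟩
    · exact hσ' ζ ((le_sup_right.trans le_sup_left :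
        IntermediateField.adjoin ℚ ({ζ} : Set ℚ̄) ≤ L)
          (IntermediateField.mem_adjoin_simple_self ℚ ζ))
    · have e := hLZfac ⟨Z, hZ⟩ 1 σ fun x hx =>
        hσ' x ((le_iSup LZ ⟨Z, hZ⟩).trans le_sup_right hx)
      rw [one_mul] at e
      exact e.trans (hone Z hZ)
  obtain ⟨K, hKfd, hKn, hKH⟩ := exists_normal_level H hHn L hLH
  have hK : ∀ u ∈ K.fixingSubgroup, rbar u = 1 := fun u hu => (hKH ▸ hu : u ∈ H).1
  have hfac : ∀ Z ∈ W, ∀ g, ∀ u ∈ K.fixingSubgroup, Z (g * u) = Z g := fun Z hZ g u hu => by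
    rw [hcoc Z hZ g u, (hKH ▸ hu : u ∈ H).2.2 Z hZ, mul_zero, zero_mul, add_zero]
  have hζK : ζ ∈ K := ClassField.Idele.mem_of_forall_fixingSubgroup K fun σ hσ =>
    (hKH ▸ hσ : σ ∈ H).2.1
  have hKur : ∀ q : Nat.Primes, (q : ℕ) ∉ S ∪ Q → ∀ A : ValuationSubring ℚ̄,
      A.LiesOverPrime (q : ℕ) → A.inertiaSubgroupIn ℚ ≤ K.fixingSubgroup := by
    intro q hq A hA τ hτ
    rw [hKH]
    have hqS : (q : ℕ) ∉ S := fun hm => hq (Finset.mem_union_left _ hm)
    exact ⟨hur q q.2 hqS A hA τ hτ,
      inertia_fix_zeta hζ (fun e : (q : ℕ) = p => hqS (e ▸ hpS)) hA hτ,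
      fun Z hZ => (hW Z hZ).2.2.2 q q.2 hq A hA τ hτ⟩
  -- the finite set of primes
  obtain ⟨U, hU⟩ := exists_classGenerated (K := K)
  let T : Finset Nat.Primes := (S ∪ Q).subtype Nat.Prime ∪ U
  have hSQT : ∀ q : Nat.Primes, (q : ℕ) ∈ S ∪ Q → q ∈ T := fun q hq =>
    Finset.mem_union_left _ (Finset.mem_subtype.mpr hq)
  have hpT : (⟨p, Fact.out⟩ : Nat.Primes) ∈ T := hSQT _ (Finset.mem_union_left _ hpS)
  have hKT : K.IsUnramifiedOutside T := ⟨hKfd, fun q hq A hA =>
    hKur q (fun hm => hq (hSQT q hm)) A hA⟩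
  have hgen : ClassGenerated K T := hU T Finset.subset_union_right
  -- the module
  let M := AdMod p (rLevel hK)
  have hM : ∀ m : M, p • m = 0 := AdMod.nsmul_eq_zero
  letI : Fintype (LevelGroup K) := Fintype.ofFinite _
  letI : ∀ q : Nat.Primes, Fintype (decGroup K q) := fun q => Fintype.ofFinite _
  letI : Fintype M := Fintype.ofFinite _
  obtain ⟨u₀, hu₀, -⟩ := hform K ⟨ζ, hζ, hζK⟩
  have hu := isPClassModule_classMod K hp2 ⟨_, hpT⟩ hKT hζ hζK hu₀
  have hCf : PFinite p (ClassMod K T) := pFinite_classMod K T hKT hgen hpT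
  have hpres : IsPresentation (freeCover (LevelGroup K) M) :=
    ⟨freeCover_surjective, (freePres (LevelGroup K) M).free_P,
      Module.Finite.of_basis (freePres (LevelGroup K) M).b⟩
  have : Finite (Coh1 (freeCover (LevelGroup K) M) (ClassMod K T)) := finite_coh1 hM hCf hpres
  have : Finite (homG (LevelGroup K) M (ClassMod K T)) := finite_coh0 hM hCf
  have hloc : ∀ q : Nat.Primes,
      Finite (Coh1 (restrictHom (decGroup K q) (freeCover (LevelGroup K) M)) (locUnits K q)) ∧
      Finite (homG (decGroup K q) M (locUnits K q)) := fun q => by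
    have hf : PFinite p (locUnits K q) := pFinite_locUnits_any K q hM
    exact ⟨finite_coh1 hM hf isPresentation_restrict, finite_coh0 hM hf⟩
  have : ∀ q : T, Finite (Coh1 (restrictHom (decGroup K (q : Nat.Primes))
      (freeCover (LevelGroup K) M)) (locUnits K (q : Nat.Primes))) := fun q => (hloc q).1
  have : ∀ q : T, Finite (homG (decGroup K (q : Nat.Primes)) M (locUnits K (q : Nat.Primes))) :=
    fun q => (hloc q).2
  let Wg := cocSpace (p := p) hK W htr
  have hWg : ∀ f ∈ Wg, d1 f = 0 := fun f hf => d1_cocSpace hK W htr hcoc hfac hf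
  let Won : ∀ q : T, Submodule (ZMod p) (decGroup K (q : Nat.Primes) → M) := fun q =>
    cocSpaceOn (p := p) hK W htr (decGroup K (q : Nat.Primes))
  have hWon : ∀ q : T, ∀ f ∈ Won q, d1 f = 0 := by
    rintro q _ ⟨f, hf, rfl⟩
    exact funext fun x => congrFun (hWg f hf) ((x.1 : LevelGroup K), (x.2 : LevelGroup K))
  -- the local subgroups
  let Yv : ∀ q : T, AddSubgroup (homG (decGroup K (q : Nat.Primes))
      ↥(kerOf (freeCover (LevelGroup K) M)) (locUnits K (q : Nat.Primes))) := fun q =>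
    if ((q : Nat.Primes) : ℕ) ∈ S then
      extAnn p ((freePres (LevelGroup K) M).restrict (decGroup K (q : Nat.Primes)))
        (locUnits K (q : Nat.Primes)) (Won q)
    else if ((q : Nat.Primes) : ℕ) ∈ Q then
      resRange (restrictHom (decGroup K (q : Nat.Primes)) (freeCover (LevelGroup K) M))
        (locUnits K (q : Nat.Primes))
    else unitY K (q : Nat.Primes) M
  have hYS : ∀ q : T, ((q : Nat.Primes) : ℕ) ∈ S → Yv q =
      extAnn p ((freePres (LevelGroup K) M).restrict (decGroup K (q : Nat.Primes)))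
        (locUnits K (q : Nat.Primes)) (Won q) := fun q hq => if_pos hq
  have hYQ : ∀ q : T, ((q : Nat.Primes) : ℕ) ∉ S → ((q : Nat.Primes) : ℕ) ∈ Q → Yv q =
      resRange (restrictHom (decGroup K (q : Nat.Primes)) (freeCover (LevelGroup K) M))
        (locUnits K (q : Nat.Primes)) := fun q hq hq' => (if_neg hq).trans (if_pos hq')
  have hYU : ∀ q : T, ((q : Nat.Primes) : ℕ) ∉ S → ((q : Nat.Primes) : ℕ) ∉ Q →
      Yv q = unitY K (q : Nat.Primes) M := fun q hq hq' => (if_neg hq).trans (if_neg hq')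
  have hext : ∀ q : T, ∀ y : homG (decGroup K (q : Nat.Primes))
      ↥(kerOf (freeCover (LevelGroup K) M)) (locUnits K (q : Nat.Primes)),
      y ∈ resRange (restrictHom (decGroup K (q : Nat.Primes)) (freeCover (LevelGroup K) M))
        (locUnits K (q : Nat.Primes)) → ∀ f : decGroup K (q : Nat.Primes) → M,
      Extends p ((freePres (LevelGroup K) M).restrict (decGroup K (q : Nat.Primes))) f
        (y : CHom ↥(kerOf (freeCover (LevelGroup K) M)) (locUnits K (q : Nat.Primes))) := by
    intro q y hy f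
    obtain ⟨L', hL'⟩ := mem_resRange.1 hy
    exact (show CHom.pre ((freePres (LevelGroup K) M).restrict (decGroup K (q : Nat.Primes))).i
      (L' : CHom _ (locUnits K (q : Nat.Primes))) = _ from hL') ▸ extends_pre _ L'.2
  have hunrq : ∀ q : Nat.Primes, (q : ℕ) ∉ S ∪ Q → ClassField.Idele.IsUnramifiedAt ⊥ K q :=
    fun q hq => ClassField.Idele.isUnramifiedAt_of_inertia_le ⊥ K fun A hA =>
      inf_le_left.trans (hKur q hq A hA)
  have hres : ∀ q : T, resRange (restrictHom (decGroup K (q : Nat.Primes))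
      (freeCover (LevelGroup K) M)) (locUnits K (q : Nat.Primes)) ≤ Yv q := by
    intro q
    by_cases h1 : ((q : Nat.Primes) : ℕ) ∈ S
    · rw [hYS q h1]
      exact fun y hy f _ => hext q y hy f
    · by_cases h2' : ((q : Nat.Primes) : ℕ) ∈ Q
      · rw [hYQ q h1 h2']
      · rw [hYU q h1 h2']
        exact resRange_le_unitY
  have hY : ∀ q : T, ∀ y ∈ Yv q, ∀ f ∈ Wg,
      Extends p ((freePres (LevelGroup K) M).restrict (decGroup K (q : Nat.Primes)))
        (fun d : decGroup K (q : Nat.Primes) => f d)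
        (y : CHom ↥(kerOf (freeCover (LevelGroup K) M)) (locUnits K (q : Nat.Primes))) := by
    intro q y hy f hf
    by_cases h1 : ((q : Nat.Primes) : ℕ) ∈ S
    · rw [hYS q h1] at hy
      exact hy _ (Submodule.mem_map_of_mem hf)
    · by_cases h2' : ((q : Nat.Primes) : ℕ) ∈ Q
      · rw [hYQ q h1 h2'] at hy
        exact hext q y hy _
      · rw [hYU q h1 h2'] at hy
        exact extends_of_mem_unitY (hunrq _ fun hm => (Finset.mem_union.mp hm).elim h1 h2')
          (hWg f hf) hy
  have hmain := selmer_le (pr := prLevel K T) (incl := inclLevel (K := K) T) (Yv := Yv) hu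
    (projLevel hKT) (inclLevel_injective ⟨_, hpT⟩) (projLevel_surjective hKT hgen)
    (fun F => projLevel_eq_zero_iff hKT ⟨_, hpT⟩ F) (isCoinduced_prLevel K T) Wg hWg hres hY
  -- evaluate
  set f : ℤ := dlog p k with hf
  have hfpos : 0 < f := dlog_pos p
  have hWfin : Finite ↥Wg := Finite.of_surjective _ (cocMap_surjective hK W htr)
  have hn : (Module.finrank (ZMod p) (Wg ⧸ (LinearMap.range
      (d0L (LevelGroup K) M p)).comap Wg.subtype) : ℤ) =
      f * Module.finrank k (W.map (LinearMap.range (adCoboundary rbar)).mkQ) := by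
    rw [finrank_eq_dlog]
    exact dlog_cocSpace_quot hK W htr hfac h2
  have hsel : dlog p (dualSel (prLevel K T) (inclLevel (K := K) T) Yv) ≤
      f * (Module.finrank k V' : ℤ) := by
    refine dlog_dualSel_le hp2 hζ hdet hpS hur hKur hQ
      (fun q hq => hSQT q (Finset.mem_union_right _ hq)) Yv (fun q hq => ?_)
      (fun q hq z hz r a hr => ?_) V hVsup V' hV'
    · exact le_of_eq (hYQ q (hQS _ hq) hq)
    · rw [Finset.notMem_union] at hq
      rw [hYU q hq.1 hq.2] at hz
      obtain ⟨z₁, ⟨a₁, rfl⟩, z₂, hz₂, rfl⟩ := AddSubgroup.mem_sup.1 hz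
      obtain ⟨L', hL'⟩ := mem_resRange.1 hz₂
      have e1 := congrArg (fun z : CHom ↥(kerOf (freeCover (LevelGroup K) M))
        (locUnits K (q : Nat.Primes)) => z r) hL'
      have hwd := hunrq (q : Nat.Primes) (Finset.notMem_union.mpr hq)
      let w : locUnits K (q : Nat.Primes) :=
        (L' : CHom _ (locUnits K (q : Nat.Primes))) (a : Ind (LevelGroup K) (M →₀ ℤ))
      obtain ⟨i, hi⟩ := ClassField.Idele.exists_norm_eq_natCast_zpow hwd (emb0 (q : Nat.Primes))
        (mem_localField_of_mem_locUnits w.2) (Units.ne_zero _)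
      refine ⟨i, ?_⟩
      have e2 : ((z₂ : CHom ↥(kerOf (freeCover (LevelGroup K) M))
          (locUnits K (q : Nat.Primes))) r) = p • w := by
        rw [← e1]
        show (L' : CHom _ (locUnits K (q : Nat.Primes)))
          (kerIncl (freeCover (LevelGroup K) M) r) = _
        rw [hr, map_nsmul]
      rw [AddSubgroup.coe_add, CHom.add_apply, e2, AddSubgroup.coe_add, toMul_add,
        Units.val_mul, norm_mul, AddSubgroup.coe_nsmul, toMul_nsmul, Units.val_pow_eq_pow_val,
        norm_pow, hi, mul_comm (p : ℤ), zpow_mul, zpow_natCast]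
      refine mul_eq_right₀ (pow_ne_zero _ (zpow_ne_zero _ (norm_natPrime_pos _).ne')) |>.mpr ?_
      exact (((a₁ : CHom ↥(kerOf (freeCover (LevelGroup K) M))
        (unitSub K (q : Nat.Primes))) r).2 : _)
  have hfix0 : dlog p (fixedSub (LevelGroup K) M) = 0 := by
    have : Subsingleton (fixedSub (LevelGroup K) M) := ⟨fun a b => by
      have key : ∀ c : fixedSub (LevelGroup K) M, AdMod.val c.1 = 0 := fun c =>
        hinv _ (AdMod.trace_val c.1) fun g => by
          have e := congrArg AdMod.val (c.2 (toLevel K g))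
          rw [val_toLevel_smul] at e
          conv_rhs => rw [← e]
          rw [mul_assoc (rbar g * _), ← map_mul, inv_mul_cancel, map_one, mul_one]
      exact Subtype.ext (AdMod.val_injective ((key a).trans (key b).symm))⟩
    exact dlog_of_subsingleton p _
  have hcc : Module.finrank k ↥(commutantSpace rbar (Subgroup.zpowers complexConjugation) ⊓
      traceZero k) = 1 := by
    refine finrank_traceZero_commute_eq_one h2 _ hconj _ fun X => ⟨fun hX => ⟨hX.2,
      hX.1 _ (Subgroup.mem_zpowers _)⟩, fun hX => ⟨fun d hd => ?_, hX.1⟩⟩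
    obtain ⟨n, rfl⟩ := hd
    have hcomm : Commute ((rbar.toHomUnits complexConjugation : (Mat k)ˣ) : Mat k) X := hX.2
    have hz := hcomm.units_zpow_left n
    rw [← map_zpow] at hz
    exact hz
  have hC : euler p (freeCover (LevelGroup K) M) (ClassMod K T) = f * 2 := by
    rw [euler_classMod K T hKT hgen hpT hp2 hu, hfix0, dlog_adMod,
      dlog_fixedSub hK p (infDec K) (Subgroup.zpowers complexConjugation)
        (MonoidHom.map_zpowers _ _), hcc, ← hf]
    push_cast
    ring
  let h0 : Nat.Primes → ℕ := fun q => Module.finrank k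
    ↥(commutantSpace rbar (ClassField.S55.locHom q).range ⊓ traceZero k)
  have hB : ∀ q : Nat.Primes,
      euler p (restrictHom (decGroup K q) (freeCover (LevelGroup K) M)) (locUnits K q) =
        f * h0 q + if (q : ℕ) = p then f * 3 else 0 := by
    intro q
    rw [euler_restrict, euler_locUnits K q, dlog_fixedSub hK p (decGroup K q)
      (ClassField.S55.locHom q).range (map_range_locHom K q), dlog_adMod]
  let X : ∀ q : T, ℤ := fun q =>
    dlog p (homG (decGroup K (q : Nat.Primes)) ↥(kerOf (freeCover (LevelGroup K) M))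
      (locUnits K (q : Nat.Primes)) ⧸ Yv q)
  have hidx : ∀ q : T, ((q : Nat.Primes) : ℕ) ∈ S → X q =
      f * Module.finrank k
        (localClasses rbar (ClassField.S55.locHom (q : Nat.Primes)).range W) := by
    intro q hq
    obtain ⟨uv, huv⟩ := exists_isPClassModule_locUnits (p := p) K (q : Nat.Primes)
    have : Module.Free ℤ (kerOf (freeCover (LevelGroup K) M)) := inferInstance
    obtain ⟨-, hc⟩ := card_quot_extAnn (C := locUnits K (q : Nat.Primes))
      ((freePres (LevelGroup K) M).restrict (decGroup K (q : Nat.Primes))) huv (Won q) (hWon q)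
    have : Finite ↥(Won q) := Finite.of_surjective
      (fun x : Wg => (⟨_, Submodule.mem_map_of_mem x.2⟩ : Won q))
      (by rintro ⟨_, x, hx, rfl⟩; exact ⟨⟨x, hx⟩, rfl⟩)
    show dlog p (_ ⧸ Yv q) = _
    rw [hYS q hq]
    rw [dlog, hc, hp.factorization_pow, Finsupp.single_eq_same, finrank_eq_dlog]
    exact dlog_cocSpaceOn_quot hK W htr hfac h2 _ _ (map_range_locHom K (q : Nat.Primes))
  have hcoh : ∀ q : T, X q ≤ euler p (restrictHom (decGroup K (q : Nat.Primes))
      (freeCover (LevelGroup K) M)) (locUnits K (q : Nat.Primes)) +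
      f * Module.finrank k (twistSpace rbar (ClassField.S55.locHom (q : Nat.Primes)).range) := by
    intro q
    have e1 := (dlog_quot_le p (hres q)).2
    have e2 := (dlog_homG_locUnits_le hK hp2 hζ hdet (q : Nat.Primes)).2
    rw [euler]
    show X q ≤ _
    have : X q ≤ dlog p (Coh1 (restrictHom (decGroup K (q : Nat.Primes))
        (freeCover (LevelGroup K) M)) (locUnits K (q : Nat.Primes))) := e1
    linarith
  set lp := Module.finrank k (localClasses rbar (ClassField.S55.locHom ⟨p, Fact.out⟩).range W)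
    with hlp
  have hterm : ∀ q : T, X q - euler p (restrictHom (decGroup K (q : Nat.Primes))
      (freeCover (LevelGroup K) M)) (locUnits K (q : Nat.Primes)) ≤
      f * placeBound rbar p S Q lp (q : Nat.Primes) := by
    intro q
    rcases eq_or_ne ((q : Nat.Primes) : ℕ) p with hqp | hqp
    · have hqq : (q : Nat.Primes) = ⟨p, Fact.out⟩ := Subtype.ext hqp
      rw [hidx q (hqp ▸ hpS), hB, if_pos hqp, placeBound, if_pos hqp,
        if_neg (fun h => h.2 hqp), if_neg (fun h => hQS _ h (hqp ▸ hpS)), hqq, ← hlp]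
      exact le_of_eq (by simp only [h0]; ring)
    · by_cases hqS : ((q : Nat.Primes) : ℕ) ∈ S
      · obtain ⟨i, hi⟩ := (hcov _ hqS).resolve_left hqp
        have hzero : Module.finrank k
            (localClasses rbar (ClassField.S55.locHom (q : Nat.Primes)).range W) = 0 := by
          rw [show (q : Nat.Primes) = ⟨ℓ i, hSp _ (hℓ i).1⟩ from Subtype.ext hi.symm]
          have hbot : localClasses rbar
              (ClassField.S55.locHom ⟨ℓ i, hSp _ (hℓ i).1⟩).range W = ⊥ := by
            rw [eq_bot_iff]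
            rintro _ ⟨_, ⟨Z, hZ, rfl⟩, rfl⟩
            exact (Submodule.Quotient.mk_eq_zero _).mpr (htriv Z hZ i)
          rw [hbot, finrank_bot]
        rw [hidx q hqS, hzero, hB, if_neg hqp, placeBound, if_neg hqp, if_pos ⟨hqS, hqp⟩,
          if_neg (fun h => hQS _ h hqS)]
        exact le_of_eq (by simp only [h0]; push_cast; ring)
      · by_cases hqQ : ((q : Nat.Primes) : ℕ) ∈ Q
        · rw [placeBound, if_neg hqp, if_neg (fun h => hqS h.1), if_pos hqQ]
          have htw : Module.finrank k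
              (twistSpace rbar (ClassField.S55.locHom (q : Nat.Primes)).range) ≤ 1 := by
            obtain ⟨-, -, -, hTW⟩ := hQ _ hqQ
            have : Fact ((q : Nat.Primes) : ℕ).Prime := ⟨(q : Nat.Primes).2⟩
            have hP := TwoAdic.Selmer.liesOverPrime_padicPlace (q : Nat.Primes)
            obtain ⟨φ, hφ⟩ := Galois.exists_isFrobeniusAt
              (padicPlace ((q : Nat.Primes) : ℕ)) (q : Nat.Primes).2 hP
            obtain ⟨hd, ht⟩ := (hTW _ hP).2 φ hφ
            have hmem : φ ∈ (ClassField.S55.locHom (q : Nat.Primes)).range := by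
              rw [show (ClassField.S55.locHom (q : Nat.Primes)).range =
                  (padicPlace ((q : Nat.Primes) : ℕ)).decompositionSubgroup ℚ from
                FlatLocal.decompositionSubgroup_padicPlace.symm]
              exact hφ.mem_decompositionSubgroup
            let U₁ : Submodule k (Mat k) := traceZero k ⊓
              LinearMap.ker (LinearMap.mulLeft k (rbar φ) - LinearMap.mulRight k (rbar φ))
            rw [← finrank_traceZero_commute_eq_one h2 (rbar φ) (ne_smul_one_of_det_eq_one hd ht)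
              U₁ fun Y => by simp [U₁, sub_eq_zero, mem_traceZero]]
            refine Submodule.finrank_mono fun Y hY => ⟨hY.1, ?_⟩
            have e := hY.2 φ hmem
            rw [show (rbar φ).det = 1 from hd, one_smul] at e
            show rbar φ * Y - Y * rbar φ = 0
            rw [sub_eq_zero]
            conv_rhs => rw [← e]
            rw [mul_assoc (rbar φ * Y), ← map_mul, inv_mul_cancel, map_one, mul_one]
          have := hcoh q
          have e : f * (Module.finrank k
              (twistSpace rbar (ClassField.S55.locHom (q : Nat.Primes)).range) : ℤ) ≤ f * 1 :=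
            mul_le_mul_of_nonneg_left (by exact_mod_cast htw) hfpos.le
          linarith
        · rw [placeBound, if_neg hqp, if_neg (fun h => hqS h.1), if_neg hqQ]
          have e : X q = dlog p (_ ⧸ unitY K (q : Nat.Primes) M) := by
            show dlog p (_ ⧸ Yv q) = _
            rw [hYU q hqS hqQ]
          have := dlog_quot_unitY_le_euler (M := M) hM (fun e => hqp e.symm)
            (hunrq (q : Nat.Primes) (fun hm => (Finset.mem_union.mp hm).elim hqS hqQ))
          rw [e]
          simp only [add_zero, mul_zero]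
          linarith
  -- the sum over the places
  have hsum : ∑ q : T, placeBound rbar p S Q lp (q : Nat.Primes) =
      (lp : ℤ) - h0 ⟨p, Fact.out⟩ - 3 - (∑ i, (h0 ⟨ℓ i, hSp _ (hℓ i).1⟩ : ℤ)) + Q.card := by
    rw [Finset.sum_coe_sort T fun q => placeBound rbar p S Q lp q]
    simp only [placeBound, Finset.sum_add_distrib, ← Finset.sum_filter]
    let pp : Nat.Primes := ⟨p, Fact.out⟩
    have e1 : T.filter (fun q : Nat.Primes => (q : ℕ) = p) = {pp} := by
      ext q
      rw [Finset.mem_filter, Finset.mem_singleton]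
      exact ⟨fun hq => Subtype.ext hq.2, fun hq => hq ▸ ⟨hpT, rfl⟩⟩
    let g : Fin s ↪ Nat.Primes := ⟨fun i => ⟨ℓ i, hSp _ (hℓ i).1⟩,
      fun a b hab => hinj (congrArg Subtype.val hab)⟩
    have e2 : T.filter (fun q : Nat.Primes => (q : ℕ) ∈ S ∧ (q : ℕ) ≠ p) =
        Finset.univ.map g := by
      ext q
      rw [Finset.mem_filter, Finset.mem_map]
      constructor
      · rintro ⟨-, hqS, hqp⟩
        obtain ⟨i, hi⟩ := (hcov _ hqS).resolve_left hqp
        exact ⟨i, Finset.mem_univ _, Subtype.ext hi⟩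
      · rintro ⟨i, -, rfl⟩
        exact ⟨hSQT _ (Finset.mem_union_left _ (hℓ i).1), hℓ i⟩
    have e3 : (T.filter (fun q : Nat.Primes => (q : ℕ) ∈ Q)).card = Q.card := by
      refine Finset.card_bij (fun q _ => (q : ℕ)) (fun q hq => (Finset.mem_filter.mp hq).2)
        (fun a _ b _ hab => Subtype.ext hab) fun q hq => ?_
      exact ⟨⟨q, (hQ q hq).1⟩, Finset.mem_filter.mpr
        ⟨hSQT _ (Finset.mem_union_right _ hq), hq⟩, rfl⟩
    rw [e1, e2, Finset.sum_singleton, Finset.sum_map, Finset.sum_neg_distrib,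
      Finset.sum_const, e3, nsmul_one]
    simp only [h0]
    rfl
  have hsumle : ∑ q : T, (X q - euler p (restrictHom (decGroup K (q : Nat.Primes))
      (freeCover (LevelGroup K) M)) (locUnits K (q : Nat.Primes))) ≤
      f * ((lp : ℤ) - h0 ⟨p, Fact.out⟩ - 3 - (∑ i, (h0 ⟨ℓ i, hSp _ (hℓ i).1⟩ : ℤ)) + Q.card) := by
    rw [← hsum, Finset.mul_sum]
    exact Finset.sum_le_sum fun q _ => hterm q
  refine ⟨?_, ?_⟩
  · refine le_of_mul_le_mul_left ?_ hfpos
    have h0E := dlog_nonneg p (homG (LevelGroup K) M (levelUnits K T))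
    rw [hn, hC] at hmain
    simp only [h0, X] at hsumle ⊢
    linarith
  · let qp : T := ⟨⟨p, Fact.out⟩, hpT⟩
    have e1 := hcoh qp
    rw [hidx qp hpS, hB, if_pos rfl] at e1
    have e2 : Module.finrank k (twistSpace rbar (ClassField.S55.locHom (qp : Nat.Primes)).range)
        ≤ 3 := finrank_traceZero (k := k) ▸ Submodule.finrank_mono (twistSpace_le_traceZero _ _)
    have e3 : f * (Module.finrank k (twistSpace rbar
        (ClassField.S55.locHom (qp : Nat.Primes)).range) : ℤ) ≤ f * 3 :=
      mul_le_mul_of_nonneg_left (by exact_mod_cast e2) hfpos.le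
    have e4 : f * (lp : ℤ) ≤ f * ((h0 ⟨p, Fact.out⟩ : ℤ) + 6) := by
      rw [hlp]
      linarith
    exact_mod_cast le_of_mul_le_mul_left e4 hfpos

end Fermat.Agent.RT

end
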