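import Fermat.Agent.RT.Global.EulerFromLocal
import Fermat.Agent.FlatLocal.Decomposition
import Fermat.Agent.Density.PlacesConj
import Fermat.Agent.ClassField.S55.Final.Level

/-!
# Local triviality of adjoint classes and change of the place over a prime

The local classes are the global ones modulo those trivial on the subgroup, and the invariants
involved do not depend on the place chosen over a prime.
-/

set_option autoImplicit false

noncomputable section

open scoped Pointwise

namespace Fermat.Agent.RT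

open Fermat.Agent.Deformation
open Deformation (Mat)

local notation "ℚ̄" => AlgebraicClosure ℚ

variable {k : Type} [Field k] (rbar : Γ →* Mat k)

/-- The cochains which are coboundaries on a subgroup. -/
def locTriv (H : Subgroup Γ) : Submodule k (Γ → Mat k) :=
  (LinearMap.range ((resSub H).comp (adCoboundary rbar))).comap (resSub H)

theorem mem_locTriv {H : Subgroup Γ} {Z : Γ → Mat k} :
    Z ∈ locTriv rbar H ↔ ∃ X, ∀ d ∈ H, Z d = adCoboundary rbar X d := by
  rw [locTriv, Submodule.mem_comap, LinearMap.mem_range]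
  refine exists_congr fun X => ?_
  rw [funext_iff]
  exact ⟨fun h d hd => (h ⟨d, hd⟩).symm, fun h d => (h d d.2).symm⟩

theorem range_le_locTriv (H : Subgroup Γ) :
    LinearMap.range (adCoboundary rbar) ≤ locTriv rbar H := by
  rintro _ ⟨X, rfl⟩
  exact ⟨X, rfl⟩

/-- Rank and nullity for restriction to a subgroup. -/
theorem finrank_localClasses_add (H : Subgroup Γ) (W : Submodule k (Γ → Mat k))
    [FiniteDimensional k (W.map (LinearMap.range (adCoboundary rbar)).mkQ)] :
    FiniteDimensional k (localClasses rbar H W) ∧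
    Module.finrank k (localClasses rbar H W) +
        Module.finrank k ((W ⊓ locTriv rbar H).map (LinearMap.range (adCoboundary rbar)).mkQ) =
      Module.finrank k (W.map (LinearMap.range (adCoboundary rbar)).mkQ) := by
  set B1 := LinearMap.range (adCoboundary rbar) with hB1
  set B1H := LinearMap.range ((resSub H).comp (adCoboundary rbar)) with hB1H
  let φ := B1.mapQ B1H (resSub H) (range_le_locTriv rbar H)
  have hloc : localClasses rbar H W = (W.map B1.mkQ).map φ := by
    show (W.map (resSub H)).map B1H.mkQ = _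
    rw [← Submodule.map_comp, ← Submodule.map_comp]
    congr 1
  have hker : (W.map B1.mkQ) ⊓ LinearMap.ker φ = (W ⊓ locTriv rbar H).map B1.mkQ := by
    refine le_antisymm ?_ ?_
    · rintro x ⟨⟨Z, hZ, rfl⟩, hx⟩
      exact ⟨Z, ⟨hZ, (Submodule.Quotient.mk_eq_zero B1H).mp hx⟩, rfl⟩
    · rintro _ ⟨Z, ⟨hZ, hZ'⟩, rfl⟩
      exact ⟨⟨Z, hZ, rfl⟩, (Submodule.Quotient.mk_eq_zero B1H).mpr hZ'⟩
  rw [hloc]
  refine ⟨inferInstance, ?_⟩
  have h := (φ.domRestrict (W.map B1.mkQ)).finrank_range_add_finrank_ker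
  rw [LinearMap.range_domRestrict, LinearMap.ker_domRestrict] at h
  rw [← h, ← hker]
  congr 1
  exact (LinearEquiv.finrank_eq
    ((Submodule.comapSubtypeEquivOfLe (inf_le_left (b := LinearMap.ker φ))).symm.trans
      (LinearEquiv.ofEq _ _ (by rw [Submodule.comap_inf, Submodule.comap_subtype_self,
        top_inf_eq]))))

theorem conj_mul_cancel (σ : Γ) (X : Mat k) :
    rbar σ⁻¹ * (rbar σ * X * rbar σ⁻¹) * rbar σ = X := by
  simp only [mul_assoc, ← map_mul, inv_mul_cancel, map_one, mul_one]
  rw [← mul_assoc, ← map_mul, inv_mul_cancel, map_one, one_mul]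

/-- Conjugation as a linear equivalence. -/
def adEquiv (σ : Γ) : Mat k ≃ₗ[k] Mat k where
  toFun X := rbar σ * X * rbar σ⁻¹
  map_add' X Y := by rw [mul_add, add_mul]
  map_smul' c X := by rw [RingHom.id_apply, mul_smul_comm, smul_mul_assoc]
  invFun X := rbar σ⁻¹ * X * rbar σ
  left_inv X := conj_mul_cancel rbar σ X
  right_inv X := by
    have h := conj_mul_cancel rbar σ⁻¹ X
    rwa [inv_inv] at h

theorem adEquiv_apply (σ : Γ) (X : Mat k) : adEquiv rbar σ X = rbar σ * X * rbar σ⁻¹ := rfl

theorem adEquiv_mul (σ τ : Γ) (X : Mat k) :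
    adEquiv rbar (σ * τ) X = adEquiv rbar σ (adEquiv rbar τ X) := by
  simp only [adEquiv_apply, mul_inv_rev, map_mul, mul_assoc]

theorem trace_adEquiv (σ : Γ) (X : Mat k) : (adEquiv rbar σ X).trace = X.trace := by
  rw [adEquiv_apply, Matrix.trace_mul_comm, ← mul_assoc, ← map_mul, inv_mul_cancel, map_one,
    one_mul]

/-- Triviality on a subgroup passes to its conjugates. -/
theorem mem_locTriv_conj {H : Subgroup Γ} (σ : Γ) {Z : Γ → Mat k}
    (hZ : ∀ g h, Z (g * h) = Z g + rbar g * Z h * rbar g⁻¹) (h : Z ∈ locTriv rbar H) :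
    Z ∈ locTriv rbar (H.map (MulAut.conj σ).toMonoidHom) := by
  rw [mem_locTriv] at h ⊢
  obtain ⟨X, hX⟩ := h
  refine ⟨Z σ + adEquiv rbar σ X, ?_⟩
  rintro _ ⟨d, hd, rfl⟩
  change Z (σ * d * σ⁻¹) = (Z σ + adEquiv rbar σ X) -
    adEquiv rbar (σ * d * σ⁻¹) (Z σ + adEquiv rbar σ X)
  have h1 : Z 1 = 0 := by
    have := hZ 1 1
    rw [one_mul, inv_one, map_one, one_mul, mul_one] at this
    exact left_eq_add.mp this
  have hinv : Z σ⁻¹ = - adEquiv rbar σ⁻¹ (Z σ) := by
    have := hZ σ⁻¹ σ
    rw [inv_mul_cancel, h1] at this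
    exact eq_neg_of_add_eq_zero_left this.symm
  rw [hZ (σ * d) σ⁻¹, hZ σ d, ← adEquiv_apply, ← adEquiv_apply, hinv, hX d hd,
    map_add (adEquiv rbar (σ * d * σ⁻¹)), ← adEquiv_mul,
    show σ * d * σ⁻¹ * σ = σ * d by group, map_neg, ← adEquiv_mul,
    show adCoboundary rbar X d = X - adEquiv rbar d X from rfl, map_sub, ← adEquiv_mul]
  abel

/-- The trace-zero commutants of conjugate subgroups have the same dimension. -/
theorem finrank_commutant_conj (σ : Γ) (H : Subgroup Γ) :
    Module.finrank k ↥(commutantSpace rbar (H.map (MulAut.conj σ).toMonoidHom) ⊓ traceZero k) =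
      Module.finrank k ↥(commutantSpace rbar H ⊓ traceZero k) := by
  have hmap : (commutantSpace rbar H ⊓ traceZero k).map (adEquiv rbar σ : Mat k →ₗ[k] Mat k) =
      commutantSpace rbar (H.map (MulAut.conj σ).toMonoidHom) ⊓ traceZero k := by
    refine le_antisymm ?_ ?_
    · rintro _ ⟨X, ⟨hX, hX0⟩, rfl⟩
      refine ⟨?_, ?_⟩
      · rintro _ ⟨d, hd, rfl⟩
        change rbar (σ * d * σ⁻¹) * (rbar σ * X * rbar σ⁻¹) =
          rbar σ * X * rbar σ⁻¹ * rbar (σ * d * σ⁻¹)
        have hc := hX d hd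
        have hl : rbar (σ * d * σ⁻¹) * rbar σ = rbar σ * rbar d := by
          rw [← map_mul, ← map_mul]; group
        have hr : rbar σ⁻¹ * rbar (σ * d * σ⁻¹) = rbar d * rbar σ⁻¹ := by
          rw [← map_mul, ← map_mul]; group
        rw [← mul_assoc, ← mul_assoc, hl, mul_assoc (rbar σ * X), hr, mul_assoc (rbar σ) (rbar d),
          hc]
        simp only [mul_assoc]
      · exact (trace_adEquiv rbar σ X).trans hX0
    · rintro Y ⟨hY, hY0⟩
      refine ⟨(adEquiv rbar σ).symm Y, ⟨fun d hd => ?_, ?_⟩, (adEquiv rbar σ).apply_symm_apply Y⟩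
      · refine (adEquiv rbar σ).injective ?_
        have hc := hY _ ⟨d, hd, rfl⟩
        change rbar (σ * d * σ⁻¹) * Y = Y * rbar (σ * d * σ⁻¹) at hc
        rw [map_mul, map_mul] at hc
        change rbar σ * (rbar d * (rbar σ⁻¹ * Y * rbar σ)) * rbar σ⁻¹ =
          rbar σ * (rbar σ⁻¹ * Y * rbar σ * rbar d) * rbar σ⁻¹
        have hone : rbar σ * rbar σ⁻¹ = 1 := by rw [← map_mul, mul_inv_cancel, map_one]
        simp only [mul_assoc, hone, mul_one] at hc ⊢
        rw [hc, ← mul_assoc (rbar σ) (rbar σ⁻¹), hone, one_mul]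
      · have h := trace_adEquiv rbar σ ((adEquiv rbar σ).symm Y)
        rw [LinearEquiv.apply_symm_apply] at h
        exact h.symm.trans hY0
  rw [← hmap]
  exact (LinearEquiv.finrank_eq (Submodule.equivMapOfInjective _ (adEquiv rbar σ).injective _)).symm

/-- The decomposition group of a place over `q` is conjugate to the local Galois group at the
base embedding. -/
theorem exists_decomposition_eq_map_conj (q : Nat.Primes) {P : ValuationSubring ℚ̄}
    (hP : P.LiesOverPrime (q : ℕ)) :
    ∃ σ : Γ, P.decompositionSubgroup ℚ =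
      ((ClassField.S55.locHom q).range).map (MulAut.conj σ).toMonoidHom := by
  have : Fact (q : ℕ).Prime := ⟨q.2⟩
  obtain ⟨σ, rfl⟩ :=
    Density.exists_smul_eq q.2 (TwoAdic.Selmer.liesOverPrime_padicPlace q) hP
  refine ⟨σ, ?_⟩
  rw [show (ClassField.S55.locHom q).range = (padicPlace (q : ℕ)).decompositionSubgroup ℚ from
    FlatLocal.decompositionSubgroup_padicPlace.symm]
  exact MulAction.stabilizer_smul_eq_stabilizer_map_conj σ (padicPlace (q : ℕ))

end Fermat.Agent.RT

end
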