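import Fermat.Agent.RT.Global.AdjointDual
import Fermat.Agent.RT.Global.AdjointLocal
import Fermat.Agent.ClassField.GW.Level

/-!
# The trace-zero adjoint as a module over the Galois group of a level

Its invariants, and the homomorphisms into the local units, which are the twisted invariants.
-/

set_option autoImplicit false

noncomputable section

open scoped Fermat.Agent.ClassField

namespace Fermat.Agent.RT

open Fermat.Agent.Deformation ClassField.S55 ClassField.GW
open Deformation (Mat)

local notation "ℚ̄" => AlgebraicClosure ℚ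

variable {k : Type} [Field k]

/-! ### the module -/

/-- The trace-zero matrices, with the conjugation action through `r`. -/
def AdMod {G : Type} [Group G] (_p : ℕ) (_r : G →* Mat k) : Type := ↥(traceZero k)

namespace AdMod

variable {G : Type} [Group G] {p : ℕ} {r : G →* Mat k}

instance : AddCommGroup (AdMod p r) := inferInstanceAs (AddCommGroup ↥(traceZero k))

instance [Finite k] : Finite (AdMod p r) := inferInstanceAs (Finite ↥(traceZero k))

/-- The matrix. -/
def val : AdMod p r →+ Mat k := (traceZero k).subtype.toAddMonoidHom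

theorem trace_val (m : AdMod p r) : (val m).trace = 0 := (show ↥(traceZero k) from m).2

theorem val_injective : Function.Injective (val : AdMod p r →+ Mat k) := Subtype.val_injective

/-- An element from a matrix of trace zero. -/
def mk (X : Mat k) (h : X.trace = 0) : AdMod p r := (⟨X, h⟩ : ↥(traceZero k))

theorem val_mk (X : Mat k) (h : X.trace = 0) : val (mk (p := p) (r := r) X h) = X := rfl

theorem trace_conj (r : G →* Mat k) (g : G) (X : Mat k) : (r g * X * r g⁻¹).trace = X.trace := by
  rw [Matrix.trace_mul_comm, ← mul_assoc, ← map_mul, inv_mul_cancel, map_one, one_mul]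

instance : DistribMulAction G (AdMod p r) where
  smul g m := mk (r g * val m * r g⁻¹) ((trace_conj r g _).trans (trace_val m))
  one_smul m := val_injective (by
    show r 1 * val m * r 1⁻¹ = val m
    rw [inv_one, map_one, one_mul, mul_one])
  mul_smul g h m := val_injective (by
    show r (g * h) * val m * r (g * h)⁻¹ = r g * (r h * val m * r h⁻¹) * r g⁻¹
    rw [mul_inv_rev, map_mul, map_mul]
    simp only [mul_assoc])
  smul_zero g := val_injective (by
    show r g * val (0 : AdMod p r) * r g⁻¹ = val (0 : AdMod p r)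
    rw [map_zero, mul_zero, zero_mul])
  smul_add g m m' := val_injective (by
    show r g * val (m + m') * r g⁻¹ = val (mk (p := p) (r := r) _ _ + mk _ _)
    rw [map_add, map_add, val_mk, val_mk, mul_add, add_mul])

theorem val_smul (g : G) (m : AdMod p r) : val (g • m) = r g * val m * r g⁻¹ := rfl

variable [CharP k p]

theorem nsmul_eq_zero (m : AdMod p r) : p • m = 0 := val_injective (by
  rw [map_nsmul, map_zero, ← Nat.cast_smul_eq_nsmul k, CharP.cast_eq_zero k p, zero_smul])

instance : Module (ZMod p) (AdMod p r) := AddCommGroup.zmodModule nsmul_eq_zero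

end AdMod

/-- The cardinality exponent of a vector space. -/
theorem dlog_eq_mul_finrank (p : ℕ) [Finite k] (V : Type) [AddCommGroup V] [Module k V]
    [FiniteDimensional k V] :
    dlog p V = dlog p k * (Module.finrank k V : ℤ) := by
  unfold dlog
  rw [Module.natCard_eq_pow_finrank (K := k), Nat.factorization_pow, Finsupp.smul_apply,
    smul_eq_mul, mul_comm]
  push_cast
  rfl

theorem dlog_pos (p : ℕ) [Fact p.Prime] [CharP k p] [Finite k] : 0 < dlog p k := by
  have := Fintype.ofFinite k
  obtain ⟨n, -, hcard⟩ := FiniteField.card k p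
  unfold dlog
  rw [Nat.card_eq_fintype_card, hcard, (Fact.out : p.Prime).factorization_pow,
    Finsupp.single_eq_same]
  exact_mod_cast n.pos

/-- The twisted invariants of the trace-zero adjoint. -/
def twistSpace (rbar : Γ →* Mat k) (H : Subgroup Γ) : Submodule k (Mat k) where
  carrier := {X | X.trace = 0 ∧ ∀ d ∈ H, (rbar d).det • (rbar d * X * rbar d⁻¹) = X}
  zero_mem' := by simp
  add_mem' {X Y} hX hY := ⟨by rw [Matrix.trace_add, hX.1, hY.1, add_zero], fun d hd => by
    rw [mul_add, add_mul, smul_add, hX.2 d hd, hY.2 d hd]⟩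
  smul_mem' c X hX := ⟨by rw [Matrix.trace_smul, hX.1, smul_zero], fun d hd => by
    rw [mul_smul_comm, smul_mul_assoc, smul_comm, hX.2 d hd]⟩

theorem twistSpace_le_traceZero (rbar : Γ →* Mat k) (H : Subgroup Γ) :
    twistSpace rbar H ≤ traceZero k := fun _ h => h.1

/-- The trace-zero matrices form a space of dimension three. -/
theorem finrank_traceZero : Module.finrank k (traceZero k) = 3 := by
  have h := LinearMap.finrank_range_add_finrank_ker (Matrix.traceLinearMap (Fin 2) k k)
  have hs : Function.Surjective (Matrix.traceLinearMap (Fin 2) k k) := fun c =>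
    ⟨!![c, 0; 0, 0], by simp [Matrix.trace_fin_two]⟩
  rw [LinearMap.range_eq_top.mpr hs, finrank_top, Module.finrank_self, Module.finrank_matrix,
    Module.finrank_self, Fintype.card_fin] at h
  show Module.finrank k (LinearMap.ker (Matrix.traceLinearMap (Fin 2) k k)) = 3
  omega

section Level

variable {rbar : Γ →* Mat k} {K : IntermediateField ℚ ℚ̄} [Normal ℚ K]
  (hK : ∀ u ∈ K.fixingSubgroup, rbar u = 1)

/-- The representation of the group of a level. -/
def rLevel : LevelGroup K →* Mat k := QuotientGroup.lift K.fixingSubgroup rbar hK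

theorem rLevel_toLevel (γ : Γ) : rLevel hK (toLevel K γ) = rbar γ := rfl

theorem rLevel_toLevel_inv (γ : Γ) : rLevel hK (toLevel K γ)⁻¹ = rbar γ⁻¹ := rfl

variable (p : ℕ)

theorem val_toLevel_smul (γ : Γ) (m : AdMod p (rLevel hK)) :
    AdMod.val (toLevel K γ • m) = rbar γ * AdMod.val m * rbar γ⁻¹ := rfl

theorem mul_left_inv_eq (d : Γ) : rbar d * rbar d⁻¹ = 1 ∧ rbar d⁻¹ * rbar d = 1 :=
  ⟨by rw [← map_mul, mul_inv_cancel, map_one], by rw [← map_mul, inv_mul_cancel, map_one]⟩

/-- The invariants of a subgroup of the level group are trace-zero commutants. -/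
def fixedEquiv (D : Subgroup (LevelGroup K)) (H : Subgroup Γ) (hH : H.map (toLevel K) = D) :
    fixedSub D (AdMod p (rLevel hK)) ≃ ↥(commutantSpace rbar H ⊓ traceZero k) where
  toFun m := ⟨AdMod.val m.1, fun d hd => by
    have h := congrArg AdMod.val (m.2 ⟨toLevel K d, hH ▸ Subgroup.mem_map_of_mem _ hd⟩)
    change rbar d * AdMod.val m.1 * rbar d⁻¹ = AdMod.val m.1 at h
    conv_rhs => rw [← h]
    rw [mul_assoc (rbar d * _), (mul_left_inv_eq d).2, mul_one], AdMod.trace_val m.1⟩
  invFun X := ⟨AdMod.mk X.1 X.2.2, fun g => by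
    obtain ⟨d, hd, hdg⟩ := (hH.symm ▸ g.2 : (g : LevelGroup K) ∈ H.map (toLevel K))
    refine AdMod.val_injective ?_
    show rLevel hK (g : LevelGroup K) * X.1 * rLevel hK (g : LevelGroup K)⁻¹ = X.1
    rw [← hdg, rLevel_toLevel, rLevel_toLevel_inv, X.2.1 d hd, mul_assoc, (mul_left_inv_eq d).1,
      mul_one]⟩
  left_inv m := Subtype.ext (AdMod.val_injective rfl)
  right_inv X := Subtype.ext rfl

theorem dlog_fixedSub [Finite k] (D : Subgroup (LevelGroup K)) (H : Subgroup Γ)
    (hH : H.map (toLevel K) = D) :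
    dlog p (fixedSub D (AdMod p (rLevel hK))) =
      dlog p k * (Module.finrank k ↥(commutantSpace rbar H ⊓ traceZero k) : ℤ) := by
  rw [dlog_congr p (fixedEquiv hK p D H hH), dlog_eq_mul_finrank (k := k)]

theorem dlog_adMod [Finite k] : dlog p (AdMod p (rLevel hK)) = dlog p k * 3 := by
  show dlog p ↥(traceZero k) = _
  rw [dlog_eq_mul_finrank (k := k), finrank_traceZero]
  rfl

/-- The units of an embedding. -/
def unitsEmb (q : Nat.Primes) : Additive ℚ̄ˣ →+ LUnits q :=
  MonoidHom.toAdditive (Units.map ((emb0 q : ℚ̄ →+* PadicAlgCl (q : ℕ)) : ℚ̄ →* PadicAlgCl (q : ℕ)))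

theorem unitsEmb_injective (q : Nat.Primes) : Function.Injective (unitsEmb q) := fun _ _ h =>
  Additive.toMul.injective (Units.ext ((emb0 q).toRingHom.injective
    (congrArg (fun z : LUnits q => ((z.toMul : (PadicAlgCl (q : ℕ))ˣ) : PadicAlgCl (q : ℕ))) h)))

theorem unitsEmb_smul (q : Nat.Primes) (τ : ClassField.Idele.LocalGal q) (x : Additive ℚ̄ˣ) :
    τ • unitsEmb q x = unitsEmb q (locHom q τ • x) :=
  Additive.toMul.injective (Units.ext (emb0_locHom q τ ((x.toMul : ℚ̄ˣ) : ℚ̄)).symm)

theorem mem_range_unitsEmb_of_nsmul {q : Nat.Primes} {p : ℕ} [Fact p.Prime] {ζ : ℚ̄}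
    (hζ : IsPrimitiveRoot ζ p) {x : LUnits q} (hx : p • x = 0) :
    ∃ a : ZMod p, unitsEmb q (zetaHom hζ a) = x := by
  have h : ((x.toMul : (PadicAlgCl (q : ℕ))ˣ) : PadicAlgCl (q : ℕ)) ^ p = 1 := by
    rw [← Units.val_pow_eq_pow_val, ← toMul_nsmul, hx]; rfl
  obtain ⟨i, -, hi⟩ := (hζ.map_of_injective (emb0 q).toRingHom.injective).eq_pow_of_pow_eq_one h
  refine ⟨(i : ZMod p), Additive.toMul.injective (Units.ext ?_)⟩
  show emb0 q (((zetaHom hζ (i : ZMod p)).toMul : ℚ̄ˣ) : ℚ̄) = _
  rw [coe_zetaHom, map_pow]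
  exact hi

variable {p} [Fact p.Prime] [CharP k p] [Finite k] {ζ : ℚ̄}

/-- Invariant homomorphisms into the local units are twisted invariants. -/
theorem dlog_homG_locUnits_le (hp2 : p ≠ 2) (hζ : IsPrimitiveRoot ζ p)
    (hdet : ∀ γ : Γ, ∃ n : ℕ, γ ζ = ζ ^ n ∧ (rbar γ).det = n) (q : Nat.Primes) :
    Finite (homG (decGroup K q) (AdMod p (rLevel hK)) (locUnits K q)) ∧
    dlog p (homG (decGroup K q) (AdMod p (rLevel hK)) (locUnits K q)) ≤
      dlog p k * (Module.finrank k (twistSpace rbar (locHom q).range) : ℤ) := by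
  have hex : ∀ f : homG (decGroup K q) (AdMod p (rLevel hK)) (locUnits K q),
      ∃ X : twistSpace rbar (locHom q).range, ∀ m : AdMod p (rLevel hK),
        unitsEmb q (dualFun hζ (X : Mat k) ⟨AdMod.val m, AdMod.trace_val m⟩) =
          (((f : CHom _ _) m : locUnits K q) : LUnits q) := by
    intro f
    choose a ha using fun m : ↥(traceZero k) => mem_range_unitsEmb_of_nsmul hζ
      (x := (((f : CHom _ _) (AdMod.mk (m : Mat k) m.2 : AdMod p (rLevel hK)) : locUnits K q) :
        LUnits q)) (by
      rw [← AddSubgroup.coe_nsmul, ← map_nsmul, AdMod.nsmul_eq_zero, map_zero]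
      rfl)
    let g : ↥(traceZero k) →+ Additive ℚ̄ˣ := AddMonoidHom.mk' (fun m => zetaHom hζ (a m))
      fun m m' => unitsEmb_injective q (by
        rw [map_add, ha, ha, ha, ← AddSubgroup.coe_add, ← map_add]
        rfl)
    obtain ⟨X, hX0, hX⟩ := exists_dualFun_eq hζ hp2 g
    have hXf : ∀ m : AdMod p (rLevel hK),
        unitsEmb q (dualFun hζ X ⟨AdMod.val m, AdMod.trace_val m⟩) =
          (((f : CHom _ _) m : locUnits K q) : LUnits q) := fun m => by
      rw [hX]
      exact ha _
    refine ⟨⟨X, hX0, ?_⟩, hXf⟩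
    rintro _ ⟨τ, rfl⟩
    obtain ⟨n, hn, hnd⟩ := hdet (locHom q τ)
    set γ := locHom q τ with hγ
    refine sub_eq_zero.mp (eq_zero_of_dualFun_eq_zero hζ hp2 ?_ ?_)
    · rw [Matrix.trace_sub, Matrix.trace_smul, AdMod.trace_conj, hX0, smul_zero, sub_zero]
    rw [dualFun_sub]
    refine (sub_eq_zero (a := dualFun hζ _)).mpr (AddMonoidHom.ext fun m => ?_)
    let m₁ : AdMod p (rLevel hK) := AdMod.mk (m : Mat k) m.2
    have hm' : ((⟨AdMod.val ((toLevel K γ)⁻¹ • m₁), AdMod.trace_val _⟩ : ↥(traceZero k)) : Mat k) =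
        rbar γ⁻¹ * (m : Mat k) * rbar γ := by
      show AdMod.val (toLevel K γ⁻¹ • m₁) = _
      rw [val_toLevel_smul, inv_inv]
      rfl
    rw [← dualFun_twist hζ rbar γ hn hnd X m _ hm']
    refine unitsEmb_injective q ?_
    rw [← unitsEmb_smul, hXf, show (dualFun hζ X m) =
      dualFun hζ X ⟨AdMod.val m₁, AdMod.trace_val m₁⟩ from rfl, hXf]
    let δ : decGroup K q := ⟨toLevel K γ, ⟨τ, rfl⟩⟩
    have hfix := ((CHom.fixed_iff (f : CHom (AdMod p (rLevel hK)) (locUnits K q))).1 f.2) δ ((δ : LevelGroup K)⁻¹ • m₁)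
    rw [show δ • ((δ : LevelGroup K)⁻¹ • m₁) = m₁ from smul_inv_smul (δ : LevelGroup K) m₁] at hfix
    rw [hfix, coe_smul_locUnits (τ := τ) rfl]
  choose X hX using hex
  have hinj : Function.Injective X := fun f f' h => Subtype.ext (CHom.ext' fun m => Subtype.ext (by
    rw [← hX f m, ← hX f' m, h]))
  refine ⟨Finite.of_injective X hinj, ?_⟩
  rw [← dlog_eq_mul_finrank]
  let e : homG (decGroup K q) (AdMod p (rLevel hK)) (locUnits K q) →+
      twistSpace rbar (locHom q).range := AddMonoidHom.mk' X fun f f' => by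
    refine Subtype.ext (sub_eq_zero.mp (eq_zero_of_dualFun_eq_zero hζ hp2 ?_ ?_))
    · rw [Submodule.coe_add, Matrix.trace_sub, Matrix.trace_add, (X _).2.1, (X f).2.1, (X f').2.1]
      simp
    · rw [dualFun_sub, Submodule.coe_add, dualFun_add]
      refine (sub_eq_zero (a := dualFun hζ _)).mpr (AddMonoidHom.ext fun m =>
        unitsEmb_injective q ?_)
      rw [AddMonoidHom.add_apply, map_add,
        show m = ⟨AdMod.val (AdMod.mk (m : Mat k) m.2 : AdMod p (rLevel hK)),
          AdMod.trace_val _⟩ from rfl, hX, hX, hX, ← AddSubgroup.coe_add]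
      rfl
  have : Finite (homG (decGroup K q) (AdMod p (rLevel hK)) (locUnits K q)) :=
    Finite.of_injective X hinj
  have hsum := dlog_ker_add_range p e
  have hker : dlog p e.ker = 0 := by
    have : Subsingleton e.ker := ⟨fun a b => Subtype.ext (hinj (a.2.trans b.2.symm))⟩
    unfold dlog
    rw [Nat.card_of_subsingleton (0 : e.ker), Nat.factorization_one]
    rfl
  have hrange := dlog_mono p (le_top : e.range ≤ (⊤ : AddSubgroup _))
  rw [dlog_congr p (AddSubgroup.topEquiv).toEquiv] at hrange
  omega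

end Level

end Fermat.Agent.RT

end
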