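import Fermat.Agent.RT.Global.AdjointModule
import Fermat.Agent.ClassField.GW.Bound
import Fermat.Agent.ClassField.GW.Values.LocalUnits

/-!
# Classes of a level against classes of cocycles

A finite space of adjoint cocycles factoring through a level, as functions on the Galois group of
the level: their classes and their local classes have the same cardinality exponents.
-/

set_option autoImplicit false

noncomputable section

open scoped Fermat.Agent.ClassField

namespace Fermat.Agent.RT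

open Fermat.Agent.Deformation ClassField.S55 ClassField.GW
open Deformation (Mat)

local notation "ℚ̄" => AlgebraicClosure ℚ

/-- Two surjections from a finite group with the same kernel have targets of the same size. -/
theorem dlog_eq_of_ker_eq {A B B' : Type} [AddCommGroup A] [Finite A] [AddCommGroup B]
    [AddCommGroup B'] (p : ℕ) (e : A →+ B) (e' : A →+ B') (he : Function.Surjective e)
    (he' : Function.Surjective e') (hker : ∀ a, e a = 0 ↔ e' a = 0) :
    dlog p B = dlog p B' := by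
  have h1 := dlog_ker_add_range p e
  have h2 := dlog_ker_add_range p e'
  rw [AddMonoidHom.range_eq_top.2 he, dlog_congr p AddSubgroup.topEquiv.toEquiv] at h1
  rw [AddMonoidHom.range_eq_top.2 he', dlog_congr p AddSubgroup.topEquiv.toEquiv] at h2
  have hk : e.ker = e'.ker := AddSubgroup.ext hker
  rw [hk] at h1
  omega

theorem dlog_of_subsingleton (p : ℕ) (A : Type) [Subsingleton A] : dlog p A = 0 := by
  rcases isEmpty_or_nonempty A with h | h
  · simp [dlog]
  · simp [dlog, Nat.card_unique]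

/-- A quotient is no bigger. -/
theorem dlog_quot_le (p : ℕ) {A : Type} [AddCommGroup A] {S T : AddSubgroup A} (h : S ≤ T)
    [Finite (A ⧸ S)] : Finite (A ⧸ T) ∧ dlog p (A ⧸ T) ≤ dlog p (A ⧸ S) := by
  let f : A ⧸ S →+ A ⧸ T := QuotientAddGroup.map S T (AddMonoidHom.id A) h
  have hf : Function.Surjective f := fun x => by
    obtain ⟨a, rfl⟩ := QuotientAddGroup.mk_surjective x
    exact ⟨QuotientAddGroup.mk a, rfl⟩
  have h1 := dlog_ker_add_range p f
  rw [AddMonoidHom.range_eq_top.2 hf, dlog_congr p AddSubgroup.topEquiv.toEquiv] at h1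
  have h2 := dlog_nonneg p f.ker
  exact ⟨Finite.of_surjective f hf, by omega⟩

/-- `finrank` over `ZMod p` is the cardinality exponent. -/
theorem finrank_eq_dlog (p : ℕ) [Fact p.Prime] (V : Type) [AddCommGroup V] [Module (ZMod p) V]
    [Finite V] : (Module.finrank (ZMod p) V : ℤ) = dlog p V := by
  have : Module.Finite (ZMod p) V := Module.Finite.of_finite
  rw [dlog, Module.natCard_eq_pow_finrank (K := ZMod p), Nat.card_zmod,
    (Fact.out : p.Prime).factorization_pow, Finsupp.single_eq_same]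

/-- The local units at the base embedding have finite `p`-torsion and quotient. -/
theorem pFinite_locUnits_any {p : ℕ} [Fact p.Prime] (K : IntermediateField ℚ ℚ̄) [Normal ℚ K]
    [FiniteDimensional ℚ K] (q : Nat.Primes) {M : Type} [AddCommGroup M]
    [DistribMulAction (decGroup K q) M] [Finite M] (hM : ∀ x : M, p • x = 0) :
    PFinite p (locUnits K q) := by
  let H : Subgroup (decGroup K q) := ⊥
  let i : locUnitOne K q →+[H] locUnits K q := restrictHom H (unitOneIncl K q)
  let j : locUnits K q →+[H] TrivZ := restrictHom H (locOrd K q)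
  have hH : ¬ p ∣ Nat.card H := by
    rw [Nat.card_unique]
    exact (Fact.out : p.Prime).not_dvd_one
  have hZ : PFinite p TrivZ := by
    have : Module.Finite ℤ TrivZ :=
      Module.Finite.equiv TrivZ.valEquiv.toIntLinearEquiv.symm
    exact pFinite_of_moduleFinite _
  exact (qHom_add hH hM (pFinite_locUnitOne K q) hZ i j Subtype.val_injective
    (locOrd_surjective K q) fun y => ⟨fun h => ⟨⟨y, (locOrd_eq_zero_iff K q y).1 h⟩, rfl⟩,
      fun ⟨x, hx⟩ => hx ▸ (locOrd_eq_zero_iff K q _).2 x.2⟩).1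

variable {k : Type} [Field k] [Finite k] {p : ℕ} [Fact p.Prime] [CharP k p]
  {rbar : Γ →* Mat k} {K : IntermediateField ℚ ℚ̄} [Normal ℚ K]
  (hK : ∀ u ∈ K.fixingSubgroup, rbar u = 1)

/-- A cocycle as a function on the group of the level. -/
def cocFun (Z : Γ → Mat k) (hZ : ∀ g, (Z g).trace = 0) (g : LevelGroup K) :
    AdMod p (rLevel hK) :=
  AdMod.mk (Z g.out) (hZ _)

variable (W : Submodule k (Γ → Mat k)) (htr : ∀ Z ∈ W, ∀ g, (Z g).trace = 0)

/-- The functions on the level group of a space of cocycles. -/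
def cocSpace : Submodule (ZMod p) (LevelGroup K → AdMod p (rLevel hK)) :=
  ({ carrier := {f | ∃ Z, ∃ h : Z ∈ W, f = cocFun hK Z (htr Z h)}
     zero_mem' := ⟨0, W.zero_mem, funext fun g => AdMod.val_injective rfl⟩
     add_mem' := by
      rintro _ _ ⟨Z, hZ, rfl⟩ ⟨Z', hZ', rfl⟩
      exact ⟨Z + Z', W.add_mem hZ hZ', funext fun g => AdMod.val_injective rfl⟩
     neg_mem' := by
      rintro _ ⟨Z, hZ, rfl⟩
      exact ⟨-Z, W.neg_mem hZ, funext fun g => AdMod.val_injective rfl⟩ } :
    AddSubgroup (LevelGroup K → AdMod p (rLevel hK))).toZModSubmodule p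

theorem cocFun_mem {Z : Γ → Mat k} (hZ : Z ∈ W) :
    cocFun hK Z (htr Z hZ) ∈ cocSpace (p := p) hK W htr :=
  ⟨Z, hZ, rfl⟩

/-- The map from cocycles to functions on the level group. -/
def cocMap : W →+ ↥(cocSpace (p := p) hK W htr) :=
  AddMonoidHom.mk' (fun Z => ⟨cocFun hK Z.1 (htr Z.1 Z.2), cocFun_mem hK W htr Z.2⟩)
    fun Z Z' => Subtype.ext (funext fun g => AdMod.val_injective rfl)

theorem cocMap_surjective : Function.Surjective (cocMap (p := p) hK W htr) := by
  rintro ⟨_, Z, hZ, rfl⟩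
  exact ⟨⟨Z, hZ⟩, rfl⟩

variable (hcoc : ∀ Z ∈ W, ∀ g h, Z (g * h) = Z g + rbar g * Z h * rbar g⁻¹)
  (hfac : ∀ Z ∈ W, ∀ g, ∀ u ∈ K.fixingSubgroup, Z (g * u) = Z g)

include hfac in
theorem val_cocFun_toLevel {Z : Γ → Mat k} (hZ : Z ∈ W) (γ : Γ) :
    AdMod.val (cocFun (p := p) hK Z (htr Z hZ) (toLevel K γ)) = Z γ := by
  obtain ⟨u, hu⟩ := QuotientGroup.mk_out_eq_mul K.fixingSubgroup γ
  show Z (toLevel K γ).out = Z γ
  rw [show (toLevel K γ).out = γ * u from hu, hfac Z hZ γ u u.2]

include hcoc hfac in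
theorem d1_cocSpace {f : LevelGroup K → AdMod p (rLevel hK)}
    (hf : f ∈ cocSpace hK W htr) : d1 f = 0 := by
  obtain ⟨Z, hZ, rfl⟩ := hf
  funext ⟨a, b⟩
  obtain ⟨g, rfl⟩ := QuotientGroup.mk'_surjective K.fixingSubgroup a
  obtain ⟨h, rfl⟩ := QuotientGroup.mk'_surjective K.fixingSubgroup b
  refine AdMod.val_injective ?_
  show AdMod.val (toLevel K g • cocFun hK Z (htr Z hZ) (toLevel K h) -
    cocFun hK Z (htr Z hZ) (toLevel K g * toLevel K h) +
    cocFun hK Z (htr Z hZ) (toLevel K g)) = AdMod.val 0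
  rw [← map_mul, map_add, map_sub, map_zero, val_toLevel_smul,
    val_cocFun_toLevel hK W htr hfac hZ, val_cocFun_toLevel hK W htr hfac hZ,
    val_cocFun_toLevel hK W htr hfac hZ, hcoc Z hZ]
  abel

omit [Finite k] in
/-- Subtracting the scalar part does not change a coboundary. -/
theorem exists_traceZero_adCoboundary (h2 : (2 : k) ≠ 0) (X : Mat k) :
    ∃ X₀ : Mat k, X₀.trace = 0 ∧ adCoboundary rbar X₀ = adCoboundary rbar X := by
  refine ⟨X - (X.trace / 2) • (1 : Mat k), ?_, ?_⟩
  · rw [Matrix.trace_sub, Matrix.trace_smul, Matrix.trace_one, Fintype.card_fin, smul_eq_mul]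
    push_cast
    field_simp
    ring
  · rw [map_sub, map_smul, sub_eq_self]
    refine smul_eq_zero_of_right _ (funext fun g => ?_)
    show (1 : Mat k) - rbar g * 1 * rbar g⁻¹ = 0
    rw [mul_one, ← map_mul, mul_inv_cancel, map_one, sub_self]

variable [Finite ↥W]

include hfac in
/-- Classes of functions on the level group are classes of cocycles. -/
theorem dlog_cocSpace_quot (h2 : (2 : k) ≠ 0) :
    dlog p (↥(cocSpace (p := p) hK W htr) ⧸
      (LinearMap.range (d0L (LevelGroup K) (AdMod p (rLevel hK)) p)).comap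
        (cocSpace (p := p) hK W htr).subtype) =
      dlog p k * (Module.finrank k (W.map (LinearMap.range (adCoboundary rbar)).mkQ) : ℤ) := by
  set B1 := LinearMap.range (adCoboundary rbar)
  let e' : W →+ ↥(W.map B1.mkQ) :=
    AddMonoidHom.mk' (fun Z => ⟨B1.mkQ Z.1, Submodule.mem_map_of_mem Z.2⟩)
      fun Z Z' => Subtype.ext (map_add _ _ _)
  have he' : Function.Surjective e' := by
    rintro ⟨_, Z, hZ, rfl⟩
    exact ⟨⟨Z, hZ⟩, rfl⟩
  have : Finite ↥(W.map B1.mkQ) := Finite.of_surjective e' he'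
  have : Module.Finite k ↥(W.map B1.mkQ) := Module.Finite.of_finite
  rw [← dlog_eq_mul_finrank]
  refine dlog_eq_of_ker_eq p
    ((Submodule.mkQ _).toAddMonoidHom.comp (cocMap hK W htr)) e'
    ((Submodule.mkQ_surjective _).comp (cocMap_surjective hK W htr)) he' fun Z => ?_
  show Submodule.Quotient.mk (cocMap hK W htr Z) = 0 ↔ e' Z = 0
  rw [Submodule.Quotient.mk_eq_zero, Submodule.mem_comap, LinearMap.mem_range, Subtype.ext_iff]
  show _ ↔ B1.mkQ Z.1 = 0
  rw [Submodule.mkQ_apply, Submodule.Quotient.mk_eq_zero]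
  constructor
  · rintro ⟨n, hn⟩
    refine ⟨-AdMod.val n, funext fun g => ?_⟩
    have h1 : AdMod.val (toLevel K g • n - n) = Z.1 g := by
      rw [← val_cocFun_toLevel (p := p) hK W htr hfac Z.2 g]
      exact congrArg AdMod.val (congrFun hn (toLevel K g))
    rw [map_sub, val_toLevel_smul] at h1
    rw [← h1]
    show -AdMod.val n - rbar g * -AdMod.val n * rbar g⁻¹ = _
    rw [mul_neg, neg_mul]
    abel
  · rintro ⟨X, hX⟩
    obtain ⟨X₀, hX₀, hX₀'⟩ := exists_traceZero_adCoboundary (rbar := rbar) h2 X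
    refine ⟨-AdMod.mk X₀ hX₀, funext fun a => ?_⟩
    obtain ⟨g, rfl⟩ := QuotientGroup.mk'_surjective K.fixingSubgroup a
    refine AdMod.val_injective ?_
    show AdMod.val (toLevel K g • -AdMod.mk X₀ hX₀ - -AdMod.mk X₀ hX₀) = AdMod.val _
    rw [map_sub, val_toLevel_smul, map_neg, AdMod.val_mk]
    refine Eq.trans ?_ (val_cocFun_toLevel (p := p) hK W htr hfac Z.2 g).symm
    rw [← hX, ← hX₀']
    show rbar g * -X₀ * rbar g⁻¹ - -X₀ = X₀ - rbar g * X₀ * rbar g⁻¹
    rw [mul_neg, neg_mul]
    abel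

/-- The functions restricted to a subgroup of the level group. -/
def cocSpaceOn (D : Subgroup (LevelGroup K)) : Submodule (ZMod p) (D → AdMod p (rLevel hK)) :=
  (cocSpace (p := p) hK W htr).map
    (LinearMap.funLeft (ZMod p) (AdMod p (rLevel hK)) (Subtype.val : D → LevelGroup K))

include hfac in
/-- Local classes on a subgroup of the level group. -/
theorem dlog_cocSpaceOn_quot (h2 : (2 : k) ≠ 0) (D : Subgroup (LevelGroup K)) (H : Subgroup Γ)
    (hH : H.map (toLevel K) = D) :
    dlog p (↥(cocSpaceOn (p := p) hK W htr D) ⧸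
      (LinearMap.range (d0L D (AdMod p (rLevel hK)) p)).comap
        (cocSpaceOn (p := p) hK W htr D).subtype) =
      dlog p k * (Module.finrank k (localClasses rbar H W) : ℤ) := by
  set B1H := LinearMap.range ((resSub H).comp (adCoboundary rbar))
  let e' : W →+ ↥(localClasses rbar H W) :=
    AddMonoidHom.mk' (fun Z => ⟨B1H.mkQ (resSub H Z.1),
      Submodule.mem_map_of_mem (Submodule.mem_map_of_mem Z.2)⟩)
      fun Z Z' => Subtype.ext (by
        show B1H.mkQ (resSub H (Z.1 + Z'.1)) = _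
        rw [map_add, map_add]
        rfl)
  have he' : Function.Surjective e' := by
    rintro ⟨_, _, ⟨Z, hZ, rfl⟩, rfl⟩
    exact ⟨⟨Z, hZ⟩, rfl⟩
  have : Finite ↥(localClasses rbar H W) := Finite.of_surjective e' he'
  have : Module.Finite k ↥(localClasses rbar H W) := Module.Finite.of_finite
  rw [← dlog_eq_mul_finrank]
  let e : W →+ ↥(cocSpaceOn (p := p) hK W htr D) :=
    AddMonoidHom.mk' (fun Z => ⟨fun d : D => (cocMap (p := p) hK W htr Z).1 d,
      Submodule.mem_map_of_mem (cocMap (p := p) hK W htr Z).2⟩)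
      fun Z Z' => Subtype.ext (funext fun d => by
        show (cocMap (p := p) hK W htr (Z + Z')).1 (d : LevelGroup K) = _
        rw [map_add]
        rfl)
  have he : Function.Surjective e := by
    rintro ⟨_, f, hf, rfl⟩
    obtain ⟨Z, hZ⟩ := cocMap_surjective (p := p) hK W htr ⟨f, hf⟩
    exact ⟨Z, Subtype.ext (funext fun d => congrFun (congrArg Subtype.val hZ) d)⟩
  refine dlog_eq_of_ker_eq p ((Submodule.mkQ _).toAddMonoidHom.comp e) e'
    ((Submodule.mkQ_surjective _).comp he) he' fun Z => ?_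
  show Submodule.Quotient.mk (e Z) = 0 ↔ e' Z = 0
  rw [Submodule.Quotient.mk_eq_zero, Submodule.mem_comap, LinearMap.mem_range, Subtype.ext_iff]
  show _ ↔ B1H.mkQ (resSub H Z.1) = 0
  rw [Submodule.mkQ_apply, Submodule.Quotient.mk_eq_zero, LinearMap.mem_range]
  constructor
  · rintro ⟨n, hn⟩
    refine ⟨-AdMod.val n, funext fun g => ?_⟩
    have h1 : AdMod.val (toLevel K (g : Γ) • n - n) = Z.1 (g : Γ) := by
      rw [← val_cocFun_toLevel (p := p) hK W htr hfac Z.2 (g : Γ)]
      exact congrArg AdMod.val (congrFun hn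
        ⟨toLevel K (g : Γ), hH ▸ Subgroup.mem_map_of_mem _ g.2⟩)
    rw [map_sub, val_toLevel_smul] at h1
    show adCoboundary rbar (-AdMod.val n) (g : Γ) = Z.1 (g : Γ)
    rw [← h1]
    show -AdMod.val n - rbar (g : Γ) * -AdMod.val n * rbar (g : Γ)⁻¹ = _
    rw [mul_neg, neg_mul]
    abel
  · rintro ⟨X, hX⟩
    obtain ⟨X₀, hX₀, hX₀'⟩ := exists_traceZero_adCoboundary (rbar := rbar) h2 X
    refine ⟨-AdMod.mk X₀ hX₀, funext fun a => ?_⟩
    obtain ⟨g, hg, hga⟩ := (hH.symm ▸ a.2 : (a : LevelGroup K) ∈ H.map (toLevel K))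
    refine AdMod.val_injective ?_
    show AdMod.val ((a : LevelGroup K) • -(AdMod.mk X₀ hX₀ : AdMod p (rLevel hK)) -
        -(AdMod.mk X₀ hX₀ : AdMod p (rLevel hK))) =
      AdMod.val ((cocMap (p := p) hK W htr Z).1 (a : LevelGroup K))
    rw [← hga, map_sub, val_toLevel_smul, map_neg, AdMod.val_mk]
    refine Eq.trans ?_ (val_cocFun_toLevel (p := p) hK W htr hfac Z.2 g).symm
    have e1 : adCoboundary rbar X g = Z.1 g := congrFun hX ⟨g, hg⟩
    rw [← e1, ← hX₀']
    show rbar g * -X₀ * rbar g⁻¹ - -X₀ = X₀ - rbar g * X₀ * rbar g⁻¹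
    rw [mul_neg, neg_mul]
    abel

end Fermat.Agent.RT

end
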