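import Fermat.Prelude.Def_GaloisRep_LocalConditions
import Fermat.Agent.RT.Global.Defs

/-!
# Elementary properties of tangent cocycles

Tangent cocycles have finite level and vanish on inertia at the places where the condition
imposes that the deformation is unramified.
-/

set_option autoImplicit false

noncomputable section

namespace Fermat.Agent.RT

open IsLocalRing Fermat.Agent.Deformation
open Deformation (Mat)

variable {k : Type} [Field k]

/-- A lift to the dual numbers equal to one has trivial residual part and trivial cocycle. -/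
theorem eq_one_and_eq_zero_of_liftEntries_eq_one {r : Γ →* Mat k} {Z : Γ → Mat k} {g : Γ}
    (h : liftEntries r Z g = 1) : r g = 1 ∧ Z g = 0 := by
  have h1 : r g = 1 := Matrix.ext fun i j => by
    have := congrArg TrivSqZeroExt.fst (congrFun (congrFun h i) j)
    by_cases hij : i = j <;> simpa [liftEntries, Matrix.one_apply, hij] using this
  refine ⟨h1, Matrix.ext fun i j => ?_⟩
  have := congrArg TrivSqZeroExt.snd (congrFun (congrFun h i) j)
  by_cases hij : i = j <;> simpa [liftEntries, Matrix.one_apply, hij, h1] using this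

variable {𝒪 : Type} [CommRing 𝒪] [IsLocalRing 𝒪]
  {𝒟 : ∀ ⦃A : Type⦄ [CommRing A] [IsLocalRing A] [Algebra 𝒪 A], GaloisRepAdic A → Prop}
  {rbar : Γ →* Mat (ResidueField 𝒪)} {Z : Γ → Mat (ResidueField 𝒪)}

/-- A tangent cocycle has finite level. -/
theorem exists_finiteLevel_of_mem_tangentSet (hZ : Z ∈ tangentSet 𝒟 rbar) :
    ∃ L : IntermediateField ℚ (AlgebraicClosure ℚ), FiniteDimensional ℚ L ∧
      ∀ g t : Γ, (∀ x ∈ L, t x = x) → rbar (g * t) = rbar g ∧ Z (g * t) = Z g := by
  obtain ⟨-, hcoc, r, hr, hrZ, -⟩ := hZ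
  obtain ⟨L, hL, h⟩ := hr 2
  refine ⟨L, hL, fun g t ht => ?_⟩
  have hrt : liftEntries rbar Z t = 1 := by
    rw [← hrZ]
    refine Matrix.ext fun i j => ?_
    have := h t ht i j
    rw [dualNumber_maximalIdeal_sq, Submodule.mem_bot] at this
    exact sub_eq_zero.mp this
  obtain ⟨h1, h2⟩ := eq_one_and_eq_zero_of_liftEntries_eq_one hrt
  refine ⟨by rw [map_mul, h1, mul_one], ?_⟩
  rw [hcoc, h2, mul_zero, zero_mul, add_zero]

/-- Where the condition imposes unramifiedness, inertia is killed. -/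
theorem eq_one_and_eq_zero_of_mem_inertia (hZ : Z ∈ tangentSet 𝒟 rbar) {ℓ : ℕ}
    (h𝒟 : ∀ ρ : GaloisRepAdic (DualNumber (ResidueField 𝒪)), 𝒟 ρ → ρ.IsUnramifiedAt ℓ)
    {P : ValuationSubring (AlgebraicClosure ℚ)} (hP : P.LiesOverPrime ℓ) {τ : Γ}
    (hτ : τ ∈ P.inertiaSubgroupIn ℚ) : rbar τ = 1 ∧ Z τ = 0 := by
  obtain ⟨-, -, r, hr, hrZ, hD⟩ := hZ
  refine eq_one_and_eq_zero_of_liftEntries_eq_one ?_
  have h := h𝒟 _ hD P hP τ hτ
  rw [← hrZ, ← DFunLike.congr_fun (matOf_repOf r hr) τ, matOf_apply, h]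
  exact LinearMap.toMatrix_one _

end Fermat.Agent.RT
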